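import Mathlib
import Fermat.Agent.H62.SS.HauptIntegral
import Fermat.Agent.H89.ESDA3Fin
import Fermat.Agent.H17.HeckeDataComplex
import Fermat.Agent.H67.IgusaTransfer

/-!
# P-SS2 (S36), row SS2-C8 (helper35), ASM input [IN-chart]: `B(j_q) = B(j)`

For a prime `q` and a field `K₁` of characteristic zero, `j_q = j(t^q)` is integral over `ℤ[j]`
and `j` is integral over `ℤ[j_q]` (modular equation `Φ_q`, from the formal Hecke data
`Fermat.Agent.H27.HeckeDataOver`, which exist over every field containing a primitive `q`-th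
root of unity).  Consequently, in the model field of level `N q`, the integral closures of
`A₀[β j]` and of `A₀[j]` coincide:

* `ss2_jq_integralElem`, `ss2_j_integralElem` : the two integrality statements in `K₁((t))`;
* `ss2_mem_chartClosure_of_integralElem` : integrality of `q`-expansions over `ℤ[x]` gives
  membership in `B(x)` (any chart `x`);
* `ss2_chartClosure_eq_of_integralElem` : mutual integrality gives `B(x) = B(x')`;
* `ss2_chartClosure_beta_eq` : `chartClosure A₀ E₀ (β y') = chartClosure A₀ E₀ x` for `x`, `y'`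
  with `q`-expansion `j`.
-/

set_option autoImplicit false
set_option linter.style.haveILetI false

noncomputable section

namespace Fermat.Agent.H35.SS2

open Polynomial ModularCurve AlgebraicCurve
open Fermat.Agent.H22.KL Fermat.Agent.H27

/-- formal Hecke data exist over every algebraically closed field in which `q ≠ 0` -/
theorem ss2_exists_heckeData (k : Type) [Field k] [IsAlgClosed k] {q : ℕ} [NeZero q]
    (hq : q.Prime) (hqk : (q : k) ≠ 0) :
    ∃ ζ : kˣ, IsPrimitiveRoot (ζ : k) q ∧ Nonempty (HeckeDataOver q k ζ) := by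
  haveI : NeZero (q : k) := ⟨hqk⟩
  obtain ⟨ζ, hζ⟩ := HasEnoughRootsOfUnity.exists_primitiveRoot k q
  have hζ0 : ζ ≠ 0 := hζ.ne_zero hq.ne_zero
  have hζ' : IsPrimitiveRoot ((Units.mk0 ζ hζ0 : kˣ) : k) q := by simpa using hζ
  exact ⟨Units.mk0 ζ hζ0, hζ',
    Fermat.Agent.H67.hasHeckeData_of_complex Fermat.Agent.H17.hasHeckeData_complex k q hq _ hζ'⟩

theorem ss2_rootFin_one (k : Type) [CommRing k] : rootFin (1 : kˣ) = jqModC k := by
  ext n
  simp [rootFin]

/-- `j(t^q)` is integral over `ℤ[j(t)]` (algebraically closed coefficients) -/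
theorem ss2_jq_integralElem_closed (k : Type) [Field k] [IsAlgClosed k] {q : ℕ} [NeZero q]
    (hq : q.Prime) (hqk : (q : k) ≠ 0) :
    (evalAt (jqModC k)).IsIntegralElem (qExpand k q (jqModC k)) := by
  obtain ⟨ζ, -, ⟨D⟩⟩ := ss2_exists_heckeData k hq hqk
  refine ⟨D.Φ, D.Φ_monic, ?_⟩
  rw [Polynomial.eval₂_eq_eval_map]
  exact Fermat.Agent.H89.hecke_Φ_eval_jq q ζ D

/-- `j(t)` is integral over `ℤ[j(t^q)]` (algebraically closed coefficients) -/
theorem ss2_j_integralElem_closed (k : Type) [Field k] [IsAlgClosed k] {q : ℕ} [NeZero q]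
    (hq : q.Prime) (hqk : (q : k) ≠ 0) :
    (evalAt (qExpand k q (jqModC k))).IsIntegralElem (jqModC k) := by
  obtain ⟨ζ, -, ⟨D⟩⟩ := ss2_exists_heckeData k hq hqk
  refine ⟨D.Φ, D.Φ_monic, ?_⟩
  rw [Polynomial.eval₂_eq_eval_map]
  have h := congrArg (Polynomial.eval (jqModC k)) D.Φ_factor
  rw [Polynomial.eval_mul, Polynomial.eval_prod] at h
  have hb : evalAt (qExpand k q (jqModC k)) = evalAt (baseS k q) := rfl
  rw [hb, h]
  apply mul_eq_zero_of_right
  apply Finset.prod_eq_zero (Finset.mem_range.mpr hq.pos)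
  rw [pow_zero, Polynomial.eval_sub, Polynomial.eval_X, Polynomial.eval_C, ss2_rootFin_one,
    sub_self]

/-- descent of integrality over `ℤ[x]` along an injective change of coefficients -/
theorem ss2_isIntegralElem_of_coeffMap {R S : Type*} [CommRing R] [CommRing S] (f : R →+* S)
    (hf : Function.Injective f) (x c : LaurentSeries R)
    (h : (evalAt (coeffMap f x)).IsIntegralElem (coeffMap f c)) :
    (evalAt x).IsIntegralElem c := by
  obtain ⟨p, hp, hpc⟩ := h
  refine ⟨p, hp, ?_⟩
  apply Fermat.Agent.H67.coeffMap_injective_of_injective f hf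
  rw [map_zero, Polynomial.hom_eval₂, Fermat.Agent.H67.coeffMap_comp_evalAt]
  exact hpc

/-- **`j(t^q)` is integral over `ℤ[j(t)]`**, over any field of characteristic zero -/
theorem ss2_jq_integralElem (K₁ : Type) [Field K₁] [CharZero K₁] {q : ℕ} [NeZero q]
    (hq : q.Prime) :
    (evalAt (jqModC K₁)).IsIntegralElem (qExpand K₁ q (jqModC K₁)) := by
  apply ss2_isIntegralElem_of_coeffMap (algebraMap K₁ (AlgebraicClosure K₁))
    (FaithfulSMul.algebraMap_injective K₁ (AlgebraicClosure K₁))
  rw [coeffMap_qExpand, coeffMap_jqModC]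
  exact ss2_jq_integralElem_closed (AlgebraicClosure K₁) hq
    (by exact_mod_cast hq.ne_zero)

/-- **`j(t)` is integral over `ℤ[j(t^q)]`**, over any field of characteristic zero -/
theorem ss2_j_integralElem (K₁ : Type) [Field K₁] [CharZero K₁] {q : ℕ} [NeZero q]
    (hq : q.Prime) :
    (evalAt (qExpand K₁ q (jqModC K₁))).IsIntegralElem (jqModC K₁) := by
  apply ss2_isIntegralElem_of_coeffMap (algebraMap K₁ (AlgebraicClosure K₁))
    (FaithfulSMul.algebraMap_injective K₁ (AlgebraicClosure K₁))
  rw [coeffMap_qExpand, coeffMap_jqModC]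
  exact ss2_j_integralElem_closed (AlgebraicClosure K₁) hq
    (by exact_mod_cast hq.ne_zero)

/-- **integrality of `q`-expansions over `ℤ[x]` gives membership in `B(x)`** (any chart `x`) -/
theorem ss2_mem_chartClosure_of_integralElem (N : ℕ) (K₁ : Type) [Field K₁] [Algebra ℚ K₁]
    (A₀ : Type) [CommRing A₀] [Algebra A₀ K₁]
    [Algebra A₀ (ModelField K₁ N)] [IsScalarTower A₀ K₁ (ModelField K₁ N)]
    (x c : ModelField K₁ N)
    (hc : (evalAt (x : LaurentSeries K₁)).IsIntegralElem (c : LaurentSeries K₁)) :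
    c ∈ chartClosure A₀ (ModelField K₁ N) x := by
  rw [Fermat.Agent.H62.SS.mem_chartClosure_iff]
  obtain ⟨p, hp, hpc⟩ := hc
  -- the ring homomorphism `ℤ[X] → A₀[x]`, `X ↦ x`
  let φ : Polynomial ℤ →+* chartRing A₀ (ModelField K₁ N) x :=
    Polynomial.eval₂RingHom (Int.castRingHom _) ⟨x, Fermat.Agent.H62.SS.self_mem_chartRing x⟩
  refine ⟨p.map φ, hp.map φ, ?_⟩
  rw [Polynomial.eval₂_map]
  -- compare in `K₁((t))`
  have hval : ((laurentBaseChange K₁ (modularFunctionFieldFull N)).val.toRingHom.comp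
      ((algebraMap (chartRing A₀ (ModelField K₁ N) x) (ModelField K₁ N)).comp φ))
      = evalAt (x : LaurentSeries K₁) := by
    refine Polynomial.ringHom_ext' (Subsingleton.elim _ _) ?_
    simp only [φ, RingHom.comp_apply, Polynomial.coe_eval₂RingHom, Polynomial.eval₂_X,
      evalAt]
    rfl
  apply Subtype.val_injective
  have h1 := Polynomial.hom_eval₂ p
    ((algebraMap (chartRing A₀ (ModelField K₁ N) x) (ModelField K₁ N)).comp φ)
    ((laurentBaseChange K₁ (modularFunctionFieldFull N)).val.toRingHom) c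
  rw [hval] at h1
  show (laurentBaseChange K₁ (modularFunctionFieldFull N)).val.toRingHom _ = _
  rw [h1]
  exact hpc

/-- (abstract) mutual integrality of two charts gives the same integral closure -/
theorem ss2_chartClosure_eq_of_mem {A : Type} [CommRing A] {E : Type} [Field E] [Algebra A E]
    (x x' : E) (h : x' ∈ chartClosure A E x) (h' : x ∈ chartClosure A E x') :
    chartClosure A E x' = chartClosure A E x := by
  apply le_antisymm
  · intro z hz
    exact Fermat.Agent.H62.SS.chartClosure_map_le (AlgHom.id A E) x' x h z hz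
  · intro z hz
    exact Fermat.Agent.H62.SS.chartClosure_map_le (AlgHom.id A E) x x' h' z hz

/-- **[IN-chart]**: in the model field of level `N q` the charts `β j = j(t^q)` and `j` have the
same integral closure, `B(β j) = B(j)`. -/
theorem ss2_chartClosure_beta_eq (N q : ℕ) [NeZero N] [NeZero q] (hq : q.Prime)
    (K₁ : Type) [Field K₁] [Algebra ℚ K₁] (A₀ : Type) [CommRing A₀] [Algebra A₀ K₁]
    [Algebra A₀ (ModelField K₁ (N * q))] [IsScalarTower A₀ K₁ (ModelField K₁ (N * q))]
    (x : ModelField K₁ (N * q)) (y' : ModelField K₁ N)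
    (hx : (x : LaurentSeries K₁) = jqModC K₁)
    (hy : (y' : LaurentSeries K₁) = jqModC K₁) :
    chartClosure A₀ (ModelField K₁ (N * q)) (heckeBetaBar K₁ N q y')
      = chartClosure A₀ (ModelField K₁ (N * q)) x := by
  haveI : CharZero K₁ := algebraRat.charZero K₁
  apply ss2_chartClosure_eq_of_mem
  · apply ss2_mem_chartClosure_of_integralElem
    rw [coe_heckeBetaBar, hx, hy]
    exact ss2_jq_integralElem K₁ hq
  · apply ss2_mem_chartClosure_of_integralElem
    rw [coe_heckeBetaBar, hx, hy]
    exact ss2_j_integralElem K₁ hq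

/-- the `q`-expansion `coeffEmb K₁ jq` is `jqModC K₁` -/
theorem ss2_coeffEmb_jq (K₁ : Type) [Field K₁] [Algebra ℚ K₁] :
    coeffEmb K₁ jq = jqModC K₁ := by
  rw [coeffEmb, ← jqModC_rat, coeffMap_jqModC]

/-- the chart `α j` is the chart `j` -/
theorem ss2_alpha_chart (N q : ℕ) [NeZero N] [NeZero q]
    (K₁ : Type) [Field K₁] [Algebra ℚ K₁]
    (x : ModelField K₁ (N * q)) (y' : ModelField K₁ N)
    (hx : (x : LaurentSeries K₁) = jqModC K₁)
    (hy : (y' : LaurentSeries K₁) = jqModC K₁) :
    heckeAlphaBar K₁ N q y' = x := by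
  apply Subtype.ext
  rw [coe_heckeAlphaBar, hx, hy]

end Fermat.Agent.H35.SS2
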