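import Fermat.Agent.H35.SS2.AsmDefs
import Fermat.Agent.H35.SS2.ChartBeta
import Fermat.Agent.H87.SS2.Val3Ord
import Fermat.Agent.H58.KL.ModelTr
import Fermat.Agent.H70.SS.AsmJ
import Fermat.Agent.H98.KL.LaurentConst

/-!
# P-SS2 (S36), row SS2-C8 (helper35), part (b) ASM: lemmas on the base `OK`

`OK` is a discrete valuation subring of `K₁` with uniformiser the prime number `q`.  Elementary
facts used by the assembly: `q` is a uniformiser in the sense of `DKUnif`, integers prime to `q`
are units, roots of unity and `1`-units lie in `OK`, integral elements of `K₁((t))` are constants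
of `OK`, and the chart `x = j` of the model field is transcendental with finite model field.
-/

set_option autoImplicit false
set_option linter.style.haveILetI false
set_option linter.unusedSectionVars false

noncomputable section

namespace Fermat.Agent.H35.SS2

open ModularCurve AlgebraicCurve
open Fermat.Agent.H22.KL Fermat.Agent.H11.SS2 Fermat.Agent.H87.SS2

section Base

variable {K₁ : Type} [Field K₁] (OK : ValuationSubring K₁)

/-- an irreducible element of `OK` is a uniformiser in the sense of `DKUnif` -/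
theorem asm_dkUnif_of_irreducible [IsDiscreteValuationRing ↥OK] {π : ↥OK}
    (hπ : Irreducible π) : DKUnif OK (π : K₁) := by
  refine ⟨fun h => hπ.ne_zero (Subtype.ext h), ?_, ?_⟩
  · rw [ValuationSubring.mem_nonunits_iff_exists_mem_maximalIdeal]
    exact ⟨π.2, (IsLocalRing.mem_maximalIdeal _).mpr hπ.not_isUnit⟩
  · intro y hy
    rw [ValuationSubring.mem_nonunits_iff_exists_mem_maximalIdeal] at hy
    obtain ⟨hyO, hym⟩ := hy
    rw [(IsDiscreteValuationRing.irreducible_iff_uniformizer π).mp hπ,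
      Ideal.mem_span_singleton] at hym
    obtain ⟨z, hz⟩ := hym
    have h1 : y = (π : K₁) * (z : K₁) := by
      have := congrArg (fun w : ↥OK => (w : K₁)) hz
      simpa using this
    have hπ0 : (π : K₁) ≠ 0 := fun h => hπ.ne_zero (Subtype.ext h)
    rw [h1, mul_div_cancel_left₀ _ hπ0]
    exact z.2

/-- an element of valuation one is a unit of `OK` -/
theorem asm_isUnit_of_valuation_eq_one {p : K₁} (hp : OK.valuation p = 1) :
    ∃ h : p ∈ OK, IsUnit (⟨p, h⟩ : ↥OK) := by
  have hmem : p ∈ OK := (OK.valuation_le_one_iff p).mp hp.le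
  exact ⟨hmem, (OK.valuation_eq_one_iff ⟨p, hmem⟩).mpr hp⟩

/-- `1`-units are units of `OK` -/
theorem asm_isUnit_of_sub_one_mem {p : K₁} (hp : p - 1 ∈ OK.nonunits) :
    ∃ h : p ∈ OK, IsUnit (⟨p, h⟩ : ↥OK) :=
  asm_isUnit_of_valuation_eq_one OK (valuation_eq_one_of_sub_one_mem hp)

/-- roots of unity have valuation one -/
theorem asm_valuation_eq_one_of_pow_eq_one {L : Type} [Field L] (V : ValuationSubring L)
    {ω : L} {m : ℕ} (hm : 0 < m) (hω : ω ^ m = 1) : V.valuation ω = 1 := by
  have h1 : V.valuation ω ^ m = 1 := by rw [← map_pow, hω, map_one]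
  exact (pow_eq_one_iff_of_nonneg zero_le hm.ne').mp h1

/-- integers prime to the residue characteristic are units of `OK` -/
theorem asm_isUnit_natCast [IsDiscreteValuationRing ↥OK] {q : ℕ} (hq : q.Prime)
    (hirr : Irreducible ((q : ℕ) : ↥OK)) {m : ℕ} (hqm : ¬ q ∣ m) :
    IsUnit ((m : ℕ) : ↥OK) := by
  by_contra hmu
  have hcop : Nat.Coprime q m := (Nat.Prime.coprime_iff_not_dvd hq).mpr hqm
  have hcopZ : IsCoprime (q : ℤ) (m : ℤ) := Nat.isCoprime_iff_coprime.mpr hcop
  obtain ⟨a, b, hab⟩ := hcopZ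
  have h1 : ((q : ℕ) : ↥OK) ∈ IsLocalRing.maximalIdeal ↥OK := by
    rw [IsLocalRing.mem_maximalIdeal, mem_nonunits_iff]; exact hirr.not_isUnit
  have h2 : ((m : ℕ) : ↥OK) ∈ IsLocalRing.maximalIdeal ↥OK := by
    rw [IsLocalRing.mem_maximalIdeal, mem_nonunits_iff]; exact hmu
  have h3 : (1 : ↥OK) ∈ IsLocalRing.maximalIdeal ↥OK := by
    have h4 : ((a : ↥OK) * ((q : ℕ) : ↥OK) + (b : ↥OK) * ((m : ℕ) : ↥OK)) = 1 := by
      have := congrArg (fun z : ℤ => (z : ↥OK)) hab
      simpa using this
    rw [← h4]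
    exact Ideal.add_mem _ (Ideal.mul_mem_left _ _ h1) (Ideal.mul_mem_left _ _ h2)
  exact (Ideal.ne_top_iff_one _).mp (IsLocalRing.maximalIdeal.isMaximal _).ne_top h3

/-- primitive roots of unity of `K₁` lie in `OK` -/
theorem asm_exists_primitiveRoot {m : ℕ} (hm : 0 < m) (hζ : ∃ ζ : K₁, IsPrimitiveRoot ζ m) :
    ∃ ζ : ↥OK, IsPrimitiveRoot ζ m := by
  obtain ⟨ζ, hζ⟩ := hζ
  have hv := asm_valuation_eq_one_of_pow_eq_one OK hm hζ.pow_eq_one
  have hmem : ζ ∈ OK := (OK.valuation_le_one_iff ζ).mp hv.le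
  exact ⟨⟨ζ, hmem⟩, IsPrimitiveRoot.of_map_of_injective (f := algebraMap ↥OK K₁) hζ
    (IsFractionRing.injective ↥OK K₁)⟩

/-- the canonical algebra structure of `K₁((t))` over `OK` -/
theorem asm_algebraMap_laurent (c : ↥OK) : algebraMap ↥OK (LaurentSeries K₁) c
    = algebraMap K₁ (LaurentSeries K₁) (c : K₁) := by
  simp [HahnSeries.algebraMap_apply', PowerSeries.algebraMap_apply]

/-- elements of `K₁((t))` integral over `OK` are constants of `OK` -/
theorem asm_const_of_isIntegral (z : LaurentSeries K₁) (hz : IsIntegral ↥OK z) :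
    z ∈ (algebraMap ↥OK (LaurentSeries K₁)).range := by
  haveI towK := IsScalarTower.of_algebraMap_eq (R := ↥OK) (S := K₁) (A := LaurentSeries K₁)
    (asm_algebraMap_laurent OK)
  have hz1 : IsAlgebraic K₁ z := (hz.tower_top (A := K₁)).isAlgebraic
  obtain ⟨c, rfl⟩ := Fermat.Agent.H98.KL.exists_const_of_isAlgebraic z hz1
  have hc : IsIntegral ↥OK c :=
    (isIntegral_algebraMap_iff (algebraMap K₁ (LaurentSeries K₁)).injective).mp hz
  obtain ⟨d, rfl⟩ := IsIntegrallyClosed.isIntegral_iff.mp hc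
  exact ⟨d, asm_algebraMap_laurent OK d⟩

end Base

section Model

variable (N : ℕ) [NeZero N] (K₁ : Type) [Field K₁] [Algebra ℚ K₁] (OK : ValuationSubring K₁)
  [Algebra ↥OK (ModelField K₁ N)] [IsScalarTower ↥OK K₁ (ModelField K₁ N)]

theorem asm_algebraMap_injective : Function.Injective (algebraMap ↥OK (ModelField K₁ N)) := by
  have hinjK : Function.Injective (algebraMap ↥OK K₁) := IsFractionRing.injective ↥OK K₁
  intro a b hab
  rw [IsScalarTower.algebraMap_apply ↥OK K₁ (ModelField K₁ N),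
    IsScalarTower.algebraMap_apply ↥OK K₁ (ModelField K₁ N)] at hab
  have h1 := (algebraMap K₁ (ModelField K₁ N)).injective hab
  exact hinjK h1

theorem asm_algebraMap_model (c : ↥OK) :
    algebraMap ↥OK (ModelField K₁ N) c = algebraMap K₁ (ModelField K₁ N) (c : K₁) :=
  IsScalarTower.algebraMap_apply ↥OK K₁ (ModelField K₁ N) c

/-- the tower `OK → E₀ → K₁((t))` (as an equation of algebra maps) -/
theorem asm_algebraMap_tower (c : ↥OK) : algebraMap ↥OK (LaurentSeries K₁) c
    = algebraMap (ModelField K₁ N) (LaurentSeries K₁) (algebraMap ↥OK (ModelField K₁ N) c) := by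
  rw [asm_algebraMap_laurent, asm_algebraMap_model]
  rfl

theorem asm_transcendental (x : ModelField K₁ N) (hx : (x : LaurentSeries K₁) = jqModC K₁) :
    Transcendental ↥OK x :=
  Fermat.Agent.H58.modelTranscendental_jq N K₁ ↥OK x (by rw [ss2_coeffEmb_jq]; exact hx)

theorem asm_finite (x : ModelField K₁ N) (hx : (x : LaurentSeries K₁) = jqModC K₁) :
    ∃ d : ℕ, Nonempty (Module.Basis (Fin d) (chartField ↥OK (ModelField K₁ N) x)
      (ModelField K₁ N)) :=
  Fermat.Agent.H70.SS.modelFinite_jq N K₁ ↥OK x (by rw [ss2_coeffEmb_jq]; exact hx)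

end Model

end Fermat.Agent.H35.SS2
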