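import Fermat.Agent.H35.SS2.AsmGlue

/-!
# P-SS2 (S36), row SS2-C8 (helper35), part (b) ASM: the glue over LARGE bases (`q ≠ 2`, `4 ∣ M'`)

The closed-point rows (P) need a primitive `R`-th root of unity in the base field `K₁`
(`R = M'`, prime to `q`).  This is harmless: the assembly only uses the geometric package over
sufficiently large unramified bases (`AsmGeomLargeStatement`).

* `AsmPointsChartStatement M' q R` : the first half of (P) (closed points of the chart `x`);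
* `AsmPointsInvStatement M' q R`   : the second half of (P) (points at infinity, chart `x⁻¹`);
* `AsmPointsModelRootStatement M' q R` : (P) over bases containing a primitive `R`-th root of
  unity;
* `asmGeomLarge_of_pointsRoot`, `newInvariantFF_of_pointsRoot` : the glue;
* `newInvariantFF_of_halves` : the glue from the two halves (with roots of unity of orders
  `R₁`, `R₂` prime to `q`).
-/

set_option autoImplicit false
set_option linter.style.haveILetI false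
set_option linter.unusedSectionVars false

noncomputable section

namespace Fermat.Agent.H35.SS2

open ModularCurve AlgebraicCurve
open Fermat.Agent.H22.KL Fermat.Agent.H11.SS2 Fermat.Agent.H82.SS
open Fermat.Agent.H7.SS2 Fermat.Agent.H86.SS2 Fermat.Agent.H19.SS2 Fermat.Agent.H93.KL

/-- **(P), chart `x`, at the model level** (`q ≠ 2`, Hauptmodul of level 4), over bases containing
a primitive `R`-th root of unity: every closed point of the special fibre in the chart `x`. -/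
def AsmPointsChartStatement (M' q R : ℕ) [NeZero M'] [NeZero q] : Prop :=
  ∀ (K₁ : Type) [Field K₁] [Algebra ℚ K₁] [FiniteDimensional ℚ K₁] (OK : ValuationSubring K₁)
    [IsDiscreteValuationRing ↥OK]
    [Algebra ↥OK (ModelField K₁ (M' * q))] [IsScalarTower ↥OK K₁ (ModelField K₁ (M' * q))]
    [Algebra ↥OK (ModelField K₁ (M' * q * q))]
    [IsScalarTower ↥OK K₁ (ModelField K₁ (M' * q * q))],
    Irreducible ((q : ℕ) : ↥OK) → (∃ ζ : K₁, IsPrimitiveRoot ζ R) →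
    ∀ (Wq : ModelField K₁ (M' * q) ≃ₐ[K₁] ModelField K₁ (M' * q)),
      IsAtkinLehnerModel K₁ M' q Wq →
    ∀ (x : ModelField K₁ (M' * q * q)) (X₁ Y₁ : ModelField K₁ (M' * q))
      (Z : ModelField K₁ (M' * q * q))
      (V11 V02 : ValuationSubring (ModelField K₁ (M' * q * q))),
      (x : LaurentSeries K₁) = jqModC K₁ →
      (X₁ : LaurentSeries K₁) = sX1 K₁ q → (Y₁ : LaurentSeries K₁) = sY1 K₁ q →
      (Z : LaurentSeries K₁) = sZ K₁ q →
      Val3Data (asmα M' q K₁) (asmβ M' q K₁) (vInf K₁ ↥OK (M' * q))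
        (vZero K₁ ↥OK (M' * q) Wq) (vInf K₁ ↥OK (M' * q * q)) V11 V02 q Y₁ Z →
      AsmGlobal M' q K₁ OK x (vInf K₁ ↥OK (M' * q)) (vZero K₁ ↥OK (M' * q) Wq)
        (vInf K₁ ↥OK (M' * q * q)) V11 V02 Y₁ Z →
      ∀ 𝔪 : Ideal (chartClosure ↥OK (ModelField K₁ (M' * q * q)) x), 𝔪.IsMaximal →
        algebraMap ↥OK (chartClosure ↥OK (ModelField K₁ (M' * q * q)) x) ((q : ℕ) : ↥OK) ∈ 𝔪 →
        AsmPt ↥OK (ModelField K₁ (M' * q)) (ModelField K₁ (M' * q * q)) q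
          (asmα M' q K₁) (asmβ M' q K₁) (vInf K₁ ↥OK (M' * q)) (vZero K₁ ↥OK (M' * q) Wq)
          (vInf K₁ ↥OK (M' * q * q)) V11 V02 x 𝔪

/-- **(P), chart `x⁻¹`, at the model level**, over bases containing a primitive `R`-th root of
unity: every point at infinity of the special fibre (chart `x⁻¹`). -/
def AsmPointsInvStatement (M' q R : ℕ) [NeZero M'] [NeZero q] : Prop :=
  ∀ (K₁ : Type) [Field K₁] [Algebra ℚ K₁] [FiniteDimensional ℚ K₁] (OK : ValuationSubring K₁)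
    [IsDiscreteValuationRing ↥OK]
    [Algebra ↥OK (ModelField K₁ (M' * q))] [IsScalarTower ↥OK K₁ (ModelField K₁ (M' * q))]
    [Algebra ↥OK (ModelField K₁ (M' * q * q))]
    [IsScalarTower ↥OK K₁ (ModelField K₁ (M' * q * q))],
    Irreducible ((q : ℕ) : ↥OK) → (∃ ζ : K₁, IsPrimitiveRoot ζ R) →
    ∀ (Wq : ModelField K₁ (M' * q) ≃ₐ[K₁] ModelField K₁ (M' * q)),
      IsAtkinLehnerModel K₁ M' q Wq →
    ∀ (x : ModelField K₁ (M' * q * q)) (Y₁ : ModelField K₁ (M' * q))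
      (Z : ModelField K₁ (M' * q * q))
      (V20 V11 V02 : ValuationSubring (ModelField K₁ (M' * q * q))),
      AsmGlobal M' q K₁ OK x (vInf K₁ ↥OK (M' * q)) (vZero K₁ ↥OK (M' * q) Wq)
        V20 V11 V02 Y₁ Z →
      ∀ 𝔪 : Ideal (chartClosure ↥OK (ModelField K₁ (M' * q * q)) x⁻¹), 𝔪.IsMaximal →
        algebraMap ↥OK (chartClosure ↥OK (ModelField K₁ (M' * q * q)) x⁻¹) ((q : ℕ) : ↥OK) ∈ 𝔪 →
        (∃ h : x⁻¹ ∈ chartClosure ↥OK (ModelField K₁ (M' * q * q)) x⁻¹,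
          (⟨x⁻¹, h⟩ : chartClosure ↥OK (ModelField K₁ (M' * q * q)) x⁻¹) ∈ 𝔪) →
        AsmPt ↥OK (ModelField K₁ (M' * q)) (ModelField K₁ (M' * q * q)) q
          (asmα M' q K₁) (asmβ M' q K₁) (vInf K₁ ↥OK (M' * q)) (vZero K₁ ↥OK (M' * q) Wq)
          V20 V11 V02 x⁻¹ 𝔪

/-- **(P) at the model level** over bases containing a primitive `R`-th root of unity. -/
def AsmPointsModelRootStatement (M' q R : ℕ) [NeZero M'] [NeZero q] : Prop :=
  ∀ (K₁ : Type) [Field K₁] [Algebra ℚ K₁] [FiniteDimensional ℚ K₁] (OK : ValuationSubring K₁)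
    [IsDiscreteValuationRing ↥OK]
    [Algebra ↥OK (ModelField K₁ (M' * q))] [IsScalarTower ↥OK K₁ (ModelField K₁ (M' * q))]
    [Algebra ↥OK (ModelField K₁ (M' * q * q))]
    [IsScalarTower ↥OK K₁ (ModelField K₁ (M' * q * q))],
    Irreducible ((q : ℕ) : ↥OK) → (∃ ζ : K₁, IsPrimitiveRoot ζ R) →
    ∀ (Wq : ModelField K₁ (M' * q) ≃ₐ[K₁] ModelField K₁ (M' * q)),
      IsAtkinLehnerModel K₁ M' q Wq →
    ∀ (x : ModelField K₁ (M' * q * q)) (X₁ Y₁ : ModelField K₁ (M' * q))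
      (Z : ModelField K₁ (M' * q * q))
      (V11 V02 : ValuationSubring (ModelField K₁ (M' * q * q))),
      (x : LaurentSeries K₁) = jqModC K₁ →
      (X₁ : LaurentSeries K₁) = sX1 K₁ q → (Y₁ : LaurentSeries K₁) = sY1 K₁ q →
      (Z : LaurentSeries K₁) = sZ K₁ q →
      Val3Data (asmα M' q K₁) (asmβ M' q K₁) (vInf K₁ ↥OK (M' * q))
        (vZero K₁ ↥OK (M' * q) Wq) (vInf K₁ ↥OK (M' * q * q)) V11 V02 q Y₁ Z →
      AsmGlobal M' q K₁ OK x (vInf K₁ ↥OK (M' * q)) (vZero K₁ ↥OK (M' * q) Wq)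
        (vInf K₁ ↥OK (M' * q * q)) V11 V02 Y₁ Z →
      AsmPoints M' q K₁ OK x (vInf K₁ ↥OK (M' * q)) (vZero K₁ ↥OK (M' * q) Wq)
        (vInf K₁ ↥OK (M' * q * q)) V11 V02

/-- a primitive `d`-th root of unity from a primitive `R`-th one, `d ∣ R` -/
theorem asm_primitiveRoot_of_dvd {K₁ : Type} [Field K₁] {R d : ℕ} (hR : 0 < R) (hd : d ∣ R)
    (h : ∃ ζ : K₁, IsPrimitiveRoot ζ R) : ∃ ζ : K₁, IsPrimitiveRoot ζ d := by
  obtain ⟨ζ, hζ⟩ := h
  obtain ⟨e, he⟩ := hd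
  exact ⟨ζ ^ e, hζ.pow hR (by rw [he, mul_comm])⟩

/-- (P) from its two halves -/
theorem asmPointsModelRoot_of_halves (M' q R R₁ R₂ : ℕ) [NeZero M'] [NeZero q] (hR : 0 < R)
    (h₁ : R₁ ∣ R) (h₂ : R₂ ∣ R) (hC : AsmPointsChartStatement M' q R₁)
    (hI : AsmPointsInvStatement M' q R₂) : AsmPointsModelRootStatement M' q R := by
  intro K₁ _ _ _ OK _ _ _ _ _ hirr hζ Wq hWq x X₁ Y₁ Z V11 V02 hx hX hY hZ hval hG
  exact ⟨hC K₁ OK hirr (asm_primitiveRoot_of_dvd hR h₁ hζ) Wq hWq x X₁ Y₁ Z V11 V02 hx hX hY hZ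
      hval hG,
    hI K₁ OK hirr (asm_primitiveRoot_of_dvd hR h₂ hζ) Wq hWq x Y₁ Z _ V11 V02 hG⟩

/-- (P) without roots of unity implies (P) with roots of unity -/
theorem asmPointsModelRoot_of_points (M' q R : ℕ) [NeZero M'] [NeZero q]
    (hP : AsmPointsModelStatement M' q) : AsmPointsModelRootStatement M' q R := by
  intro K₁ _ _ _ OK _ _ _ _ _ hirr _ Wq hWq x X₁ Y₁ Z V11 V02 hx hX hY hZ hval hG
  exact hP K₁ OK hirr Wq hWq x X₁ Y₁ Z V11 V02 hx hX hY hZ hval hG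

/-- a primitive `R`-th root of unity of `ℚ̄`, fixed by the inertia group of `A` (`q ∤ R`) -/
theorem asm_exists_fixed_primitiveRoot {q : ℕ} (hq : q.Prime) (A : ValuationSubring QBar)
    (hA : A.LiesOverPrime q) (R : ℕ) (hR : 0 < R) (hqR : ¬ q ∣ R) :
    ∃ ζ : QBar, IsPrimitiveRoot ζ R ∧ ∀ σ ∈ A.inertiaSubgroupIn ℚ, σ ζ = ζ := by
  haveI : NeZero R := ⟨hR.ne'⟩
  haveI : NeZero ((R : ℕ) : QBar) := ⟨Nat.cast_ne_zero.mpr hR.ne'⟩
  obtain ⟨ζ, hζ⟩ := HasEnoughRootsOfUnity.exists_primitiveRoot QBar R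
  refine ⟨ζ, hζ, ?_⟩
  refine ss2_inertia_fixes_root_of_unit hq A hA hR hqR (a := 1) hζ.pow_eq_one A.one_mem ?_
    (fun σ _ => map_one σ)
  intro h1
  exact (ValuationSubring.mem_nonunits_iff A).mp h1 |>.ne (map_one _)

/-- **The geometric package over large bases** for `q ≠ 2`, `4 ∣ M'`, from (P) over bases
containing a primitive `R`-th root of unity (`q ∤ R`). -/
theorem asmGeomLarge_of_pointsRoot (M' q R : ℕ) [NeZero M'] [NeZero q] (hq : q.Prime)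
    (hq2 : q ≠ 2) (h4 : 4 ∣ M') (hqM : ¬ q ∣ M') (hR : 0 < R) (hqR : ¬ q ∣ R)
    (hP : AsmPointsModelRootStatement M' q R) : AsmGeomLargeStatement M' q := by
  intro A hA
  obtain ⟨ζ, hζ, hfix⟩ := asm_exists_fixed_primitiveRoot hq A hA R hR hqR
  refine ⟨{ζ}, ?_, ?_⟩
  · intro s hs σ hσ
    rw [Finset.mem_singleton] at hs
    subst hs
    exact hfix σ hσ
  intro K₁ _ _ _ ι _ hS _ _ _ _ _ hirr
  obtain ⟨ζ₁, hζ₁⟩ := hS ζ (Finset.mem_singleton_self ζ)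
  have hroot : ∃ ζ' : K₁, IsPrimitiveRoot ζ' R :=
    ⟨ζ₁, IsPrimitiveRoot.of_map_of_injective (f := ι) (hζ₁ ▸ hζ) ι.injective⟩
  haveI : Fact q.Prime := ⟨hq⟩
  haveI hN : NeZero (M' * q * q) :=
    ⟨Nat.mul_ne_zero (Nat.mul_ne_zero (NeZero.ne M') (NeZero.ne q)) (NeZero.ne q)⟩
  have hcop : Nat.Coprime M' q := ((Nat.Prime.coprime_iff_not_dvd hq).2 hqM).symm
  obtain ⟨Wq, hWq⟩ := Fermat.Agent.H62.SS.modelAtkinLehnerExists M' q hcop K₁
  obtain ⟨X₁, Y₁, Z, V11, V02, hX, hY, hZ, hval⟩ :=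
    Fermat.Agent.H4.SS2.modelVal3Data_routeB_vInf K₁ ↥(A.comap ι) M' q
      (Fermat.Agent.H93.SS2.modelVertIff M' q (Fermat.Agent.H4.SS2.modelChartEq M' q))
      hq2 h4 hqM hirr Wq hWq
  obtain ⟨x, hx⟩ := asm_exists_chart (M' * q * q) K₁
  have hG := Fermat.Agent.H61.SS2.asmGlobal_of_val3 M' q hq hqM K₁ (A.comap ι) hirr Wq hWq x hx
    (vInf K₁ ↥(A.comap ι) (M' * q * q)) V11 V02 Y₁ Z hval
  exact ⟨x, _, _, _, V11, V02, Y₁, Z, hG,
    hP K₁ (A.comap ι) hirr hroot Wq hWq x X₁ Y₁ Z V11 V02 hx hX hY hZ hval hG,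
    fun n hn _ => Fermat.Agent.H46.SS2.asmCusp_of_global M' q K₁ (A.comap ι) hirr hG n hn⟩

/-- **(KC-FF) at level `M' q²`** for `q ≠ 2`, `4 ∣ M'`, from (P) over bases containing a
primitive `R`-th root of unity (`q ∤ R`). -/
theorem newInvariantFF_of_pointsRoot (M' q R : ℕ) [NeZero M'] [NeZero q] (hq : q.Prime)
    (hq2 : q ≠ 2) (h4 : 4 ∣ M') (hqM : ¬ q ∣ M') (hR : 0 < R) (hqR : ¬ q ∣ R)
    (hP : AsmPointsModelRootStatement M' q R) : NewInvariantFFStatement (M' * q) q :=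
  newInvariantFF_of_geomLarge M' q hq (asmGeomLarge_of_pointsRoot M' q R hq hq2 h4 hqM hR hqR hP)

/-- **(KC-FF) at level `M' q²`** for `q ≠ 2`, `4 ∣ M'`, from the two halves of (P), each over
bases containing a primitive root of unity of order `R₁`, resp. `R₂` (both prime to `q`). -/
theorem newInvariantFF_of_halves (M' q R₁ R₂ : ℕ) [NeZero M'] [NeZero q] (hq : q.Prime)
    (hq2 : q ≠ 2) (h4 : 4 ∣ M') (hqM : ¬ q ∣ M') (hR₁ : 0 < R₁) (hR₂ : 0 < R₂)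
    (hqR₁ : ¬ q ∣ R₁) (hqR₂ : ¬ q ∣ R₂)
    (hC : AsmPointsChartStatement M' q R₁) (hI : AsmPointsInvStatement M' q R₂) :
    NewInvariantFFStatement (M' * q) q :=
  newInvariantFF_of_pointsRoot M' q (R₁ * R₂) hq hq2 h4 hqM (Nat.mul_pos hR₁ hR₂)
    (fun h => (hq.dvd_mul.mp h).elim hqR₁ hqR₂)
    (asmPointsModelRoot_of_halves M' q (R₁ * R₂) R₁ R₂ (Nat.mul_pos hR₁ hR₂)
      (dvd_mul_right R₁ R₂) (dvd_mul_left R₂ R₁) hC hI)

end Fermat.Agent.H35.SS2
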