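import Mathlib
import Fermat.Agent.H11.SS2.Contract
import Fermat.Agent.H93.KL.DescInterfaces

/-!
# P-SS2 row 905 (SS2-C8 DESC + ASM, helper35) : the model-level target

`ModelNewInvBarStatement M' q` : the model-level form of (KC-FF) at level `M' q²` over a number
field `ι : K₁ → ℚ̄` which is UNRAMIFIED at the valuation subring `A` of `ℚ̄` (its image is fixed
pointwise by the inertia group of `A`; `A ∩ K₁` is a discrete valuation ring with uniformiser
`q`) and contains `μ_m`; constants are allowed in the hypotheses on the two norms; the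
CONCLUSION lives over `ℚ̄` (so that the proof may enlarge `K₁` by finite extensions unramified
at `A`).  The exponent `c` depends only on `A` (and `M'`, `q`).

The descent theorem (`Fermat.Agent.H35.SS2.newInvariantFF_of_model`, module `Desc`) is
`q.Prime → ModelNewInvBarStatement M' q → NewInvariantFFStatement (M' * q) q`.
-/

set_option autoImplicit false

noncomputable section

namespace Fermat.Agent.H35.SS2

open AlgebraicCurve ModularCurve Fermat.Agent.H11.SS2 Fermat.Agent.H93.KL

/-- `ι : K₁ → ℚ̄` is unramified at `A`: its image is fixed pointwise by the inertia group of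
`A`. -/
def IsUnramAt {K₁ : Type} [Field K₁] (A : ValuationSubring QBar) (ι : K₁ →+* QBar) : Prop :=
  ∀ σ ∈ A.inertiaSubgroupIn ℚ, ∀ x : K₁, σ (ι x) = ι x

/-- **(KC-MODEL-BAR)**: the model-level statement at level `M' q²` over number fields
`ι : K₁ → ℚ̄` unramified at `A`, with conclusion over `ℚ̄`. -/
def ModelNewInvBarStatement (M' q : ℕ) [NeZero M'] [NeZero q] : Prop :=
  ∀ (A : ValuationSubring QBar), A.LiesOverPrime q →
    ∃ c : ℕ, 0 < c ∧
      ∀ (K₁ : Type) [Field K₁] [Algebra ℚ K₁] [FiniteDimensional ℚ K₁] (ι : K₁ →+* QBar),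
        IsUnramAt A ι →
        IsDiscreteValuationRing ↥(A.comap ι) →
        Irreducible ((q : ℕ) : ↥(A.comap ι)) →
        ∀ (m : ℕ), 0 < m → ¬ q ∣ m → (∃ ζ : K₁, IsPrimitiveRoot ζ m) →
        ∀ u : ↥(laurentBaseChange K₁ (modularFunctionFieldFull (M' * q * q))), u ≠ 0 →
          (∀ P : Place K₁ ↥(laurentBaseChange K₁ (modularFunctionFieldFull (M' * q * q))),
            (m : ℤ) ∣ P.ord u) →
          (∃ (γ : K₁) (h : ↥(laurentBaseChange K₁ (modularFunctionFieldFull (M' * q)))),
            γ ≠ 0 ∧ algebraMap K₁ _ γ * h ^ m = ss2NormAlong (heckeAlphaBar K₁ (M' * q) q) u) →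
          (∃ (γ : K₁) (h : ↥(laurentBaseChange K₁ (modularFunctionFieldFull (M' * q)))),
            γ ≠ 0 ∧ algebraMap K₁ _ γ * h ^ m = ss2NormAlong (heckeBetaBar K₁ (M' * q) q) u) →
          ∃ w : ↥(modularFunctionFieldBar (M' * q * q)),
            w ^ m = (klBc ι (modularFunctionFieldFull (M' * q * q)) u) ^ c

end Fermat.Agent.H35.SS2
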