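import Fermat.Agent.H19.SS2.AsmCoreDefs
import Fermat.Agent.H11.SS2.Val3Defs
import Fermat.Agent.H22.ES.KLModel
import Fermat.Agent.H35.SS2.Defs
import Fermat.Prelude.Def_ModularCurve_HeckeOperator
import Fermat.Prelude.Def_ModularCurve_JqCoeff

/-!
# P-SS2 (S36), row SS2-C8 (helper35), part (b) ASM: the geometric inputs (interface)

Level `L = M' q`, `F = ModelField K₁ (M' q)`, `E₀ = ModelField K₁ (M' q q)`,
`α = heckeAlphaBar K₁ (M' q) q`, `β = heckeBetaBar K₁ (M' q) q`, base `OK` a discrete valuation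
subring of the number field `K₁` with uniformiser `q`, `A₀ = ↥OK`.

* `AsmGlobal`  : (G) the global data: the chart `x = j`, the two vertical valuations `O₁`, `O₂`
  of `F`, the three vertical valuations `V20`, `V11`, `V02` of `E₀` (`Val3Data`), degrees, Gauss
  closure, weak approximation and the four norm reductions for constants;
* `AsmPoints`  : (P) the hypotheses `hptf`, `hpti` of `Fermat.Agent.H19.SS2.AsmCoreStatement`;
* `AsmCusp`    : (C) the cusp block of `AsmCoreStatement` with `Ω = K₁((t))`;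
* `AsmGeomStatement M' q` : all of them, over every unramified base;
* `AsmGeomLargeStatement M' q` : the same over every SUFFICIENTLY LARGE unramified base inside
  `ℚ̄` (the form consumed by the assembly).
-/

set_option autoImplicit false
set_option linter.style.haveILetI false

noncomputable section

namespace Fermat.Agent.H35.SS2

open ModularCurve AlgebraicCurve
open Fermat.Agent.H22.KL Fermat.Agent.H11.SS2 Fermat.Agent.H68.SS2 Fermat.Agent.H19.SS2
open Fermat.Agent.H93.KL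

section Defs

variable (M' q : ℕ) [NeZero M'] [NeZero q] (K₁ : Type) [Field K₁] [Algebra ℚ K₁]
  (OK : ValuationSubring K₁)
  [Algebra ↥OK (ModelField K₁ (M' * q))] [Algebra ↥OK (ModelField K₁ (M' * q * q))]

/-- The first degeneracy embedding as a ring homomorphism. -/
abbrev asmα : ModelField K₁ (M' * q) →+* ModelField K₁ (M' * q * q) :=
  (heckeAlphaBar K₁ (M' * q) q).toRingHom

/-- The second degeneracy embedding as a ring homomorphism. -/
abbrev asmβ : ModelField K₁ (M' * q) →+* ModelField K₁ (M' * q * q) :=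
  (heckeBetaBar K₁ (M' * q) q).toRingHom

/-- **(G) The global geometric data** of the model of level `M' q²` over the base `OK`. -/
structure AsmGlobal (x : ModelField K₁ (M' * q * q))
    (O₁ O₂ : ValuationSubring (ModelField K₁ (M' * q)))
    (V20 V11 V02 : ValuationSubring (ModelField K₁ (M' * q * q)))
    (Y₁ : ModelField K₁ (M' * q)) (Z : ModelField K₁ (M' * q * q)) : Prop where
  /-- the chart is `j` -/
  chart : (x : LaurentSeries K₁) = jqModC K₁
  val3 : Val3Data (asmα M' q K₁) (asmβ M' q K₁) O₁ O₂ V20 V11 V02 q Y₁ Z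
  pir₁ : IsPrincipalIdealRing O₁
  pir₂ : IsPrincipalIdealRing O₂
  unif₁ : DKUnif O₁ ((q : ℕ) : ModelField K₁ (M' * q))
  unif₂ : DKUnif O₂ ((q : ℕ) : ModelField K₁ (M' * q))
  comap₁ : O₁.comap (algebraMap K₁ (ModelField K₁ (M' * q))) = OK
  comap₂ : O₂.comap (algebraMap K₁ (ModelField K₁ (M' * q))) = OK
  degα : @FiniteDimensional (ModelField K₁ (M' * q)) (ModelField K₁ (M' * q * q)) _ _
      (@Algebra.toModule _ _ _ _ (asmα M' q K₁).toAlgebra) ∧
    @Module.finrank (ModelField K₁ (M' * q)) (ModelField K₁ (M' * q * q)) _ _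
      (@Algebra.toModule _ _ _ _ (asmα M' q K₁).toAlgebra) = q
  degβ : @FiniteDimensional (ModelField K₁ (M' * q)) (ModelField K₁ (M' * q * q)) _ _
      (@Algebra.toModule _ _ _ _ (asmβ M' q K₁).toAlgebra) ∧
    @Module.finrank (ModelField K₁ (M' * q)) (ModelField K₁ (M' * q * q)) _ _
      (@Algebra.toModule _ _ _ _ (asmβ M' q K₁).toAlgebra) = q
  gauss : ∀ z : ModelField K₁ (M' * q * q),
    z ∈ gaussClosure ↥OK (ModelField K₁ (M' * q * q)) ((q : ℕ) : ↥OK) x ↔
      z ∈ V20 ∧ z ∈ V11 ∧ z ∈ V02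
  vert : ∀ V' : ValuationSubring (ModelField K₁ (M' * q * q)),
    IsVertical ↥OK (ModelField K₁ (M' * q * q)) ((q : ℕ) : ↥OK) x V' →
      V' = V20 ∨ V' = V11 ∨ V' = V02
  vert20 : IsVertical ↥OK (ModelField K₁ (M' * q * q)) ((q : ℕ) : ↥OK) x V20
  vert11 : IsVertical ↥OK (ModelField K₁ (M' * q * q)) ((q : ℕ) : ↥OK) x V11
  vert02 : IsVertical ↥OK (ModelField K₁ (M' * q * q)) ((q : ℕ) : ↥OK) x V02
  approx : ∀ a b c : ModelField K₁ (M' * q * q), ∃ g : ModelField K₁ (M' * q * q),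
    g - a ∈ V20.nonunits ∧ g - b ∈ V11.nonunits ∧ g - c ∈ V02.nonunits
  nrα₁ : @NormRedConstAt ↥OK _ (ModelField K₁ (M' * q)) (ModelField K₁ (M' * q * q)) _ _ _ _
    (asmα M' q K₁).toAlgebra (Fin 2) _ O₁ ![V20, V11] ![1, q - 1]
  nrα₂ : @NormRedConstAt ↥OK _ (ModelField K₁ (M' * q)) (ModelField K₁ (M' * q * q)) _ _ _ _
    (asmα M' q K₁).toAlgebra (Fin 1) _ O₂ ![V02] ![q]
  nrβ₁ : @NormRedConstAt ↥OK _ (ModelField K₁ (M' * q)) (ModelField K₁ (M' * q * q)) _ _ _ _
    (asmβ M' q K₁).toAlgebra (Fin 1) _ O₁ ![V20] ![q]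
  nrβ₂ : @NormRedConstAt ↥OK _ (ModelField K₁ (M' * q)) (ModelField K₁ (M' * q * q)) _ _ _ _
    (asmβ M' q K₁).toAlgebra (Fin 2) _ O₂ ![V11, V02] ![q - 1, 1]

/-- **(P) The closed points**: the hypotheses `hptf`, `hpti` of
`Fermat.Agent.H19.SS2.AsmCoreStatement`: every closed point of the special fibre in the chart
`x`, and every point at infinity of the chart `x⁻¹`, is a regular triple point (with the TORIC
data along `α` and `β`) or a regular point on exactly one component. -/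
def AsmPoints (x : ModelField K₁ (M' * q * q))
    (O₁ O₂ : ValuationSubring (ModelField K₁ (M' * q)))
    (V20 V11 V02 : ValuationSubring (ModelField K₁ (M' * q * q))) : Prop :=
  (∀ 𝔪 : Ideal (chartClosure ↥OK (ModelField K₁ (M' * q * q)) x), 𝔪.IsMaximal →
      algebraMap ↥OK (chartClosure ↥OK (ModelField K₁ (M' * q * q)) x) ((q : ℕ) : ↥OK) ∈ 𝔪 →
      AsmPt ↥OK (ModelField K₁ (M' * q)) (ModelField K₁ (M' * q * q)) q
        (asmα M' q K₁) (asmβ M' q K₁) O₁ O₂ V20 V11 V02 x 𝔪) ∧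
    (∀ 𝔪 : Ideal (chartClosure ↥OK (ModelField K₁ (M' * q * q)) x⁻¹), 𝔪.IsMaximal →
      algebraMap ↥OK (chartClosure ↥OK (ModelField K₁ (M' * q * q)) x⁻¹) ((q : ℕ) : ↥OK) ∈ 𝔪 →
      (∃ h : x⁻¹ ∈ chartClosure ↥OK (ModelField K₁ (M' * q * q)) x⁻¹,
        (⟨x⁻¹, h⟩ : chartClosure ↥OK (ModelField K₁ (M' * q * q)) x⁻¹) ∈ 𝔪) →
      AsmPt ↥OK (ModelField K₁ (M' * q)) (ModelField K₁ (M' * q * q)) q
        (asmα M' q K₁) (asmβ M' q K₁) O₁ O₂ V20 V11 V02 x⁻¹ 𝔪)

/-- **(C) The cusp**: a closed point `𝔪c` of one of the two charts and a vertical valuation `Vc`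
through it such that every unit `ε` of the local ring at `𝔪c` with `ε ≡ 1` at `Vc` is, up to a
constant `c ∈ 1 + q OK`, an `n`-th power in `K₁((t))`. -/
def AsmCusp (x : ModelField K₁ (M' * q * q))
    (V20 V11 V02 : ValuationSubring (ModelField K₁ (M' * q * q))) (n : ℕ) : Prop :=
  ∃ (yc : ModelField K₁ (M' * q * q)), (yc = x ∨ yc = x⁻¹) ∧
    ∃ 𝔪c : Ideal (chartClosure ↥OK (ModelField K₁ (M' * q * q)) yc), 𝔪c.IsMaximal ∧
      algebraMap ↥OK (chartClosure ↥OK (ModelField K₁ (M' * q * q)) yc) ((q : ℕ) : ↥OK) ∈ 𝔪c ∧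
      ∃ Vc : ValuationSubring (ModelField K₁ (M' * q * q)),
        (Vc = V20 ∨ Vc = V11 ∨ Vc = V02) ∧
        Through ↥OK (ModelField K₁ (M' * q * q)) yc 𝔪c Vc ∧
        ∀ ε : ModelField K₁ (M' * q * q),
          IsLocUnit ↥OK (ModelField K₁ (M' * q * q)) yc 𝔪c ε →
          CongrAt (ModelField K₁ (M' * q * q)) Vc ε 1 →
          ∃ (c d : ↥OK) (ω : LaurentSeries K₁), c = 1 + ((q : ℕ) : ↥OK) * d ∧
            ω ^ n = algebraMap K₁ (LaurentSeries K₁) (c : K₁) * (ε : LaurentSeries K₁)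

/-- **The geometric package** over the base `OK`: (G) + (P) + (C). -/
def AsmGeom : Prop :=
  ∃ (x : ModelField K₁ (M' * q * q))
    (O₁ O₂ : ValuationSubring (ModelField K₁ (M' * q)))
    (V20 V11 V02 : ValuationSubring (ModelField K₁ (M' * q * q)))
    (Y₁ : ModelField K₁ (M' * q)) (Z : ModelField K₁ (M' * q * q)),
    AsmGlobal M' q K₁ OK x O₁ O₂ V20 V11 V02 Y₁ Z ∧
    AsmPoints M' q K₁ OK x O₁ O₂ V20 V11 V02 ∧
    ∀ n : ℕ, 0 < n → IsUnit ((n : ℕ) : ↥OK) → AsmCusp M' q K₁ OK x V20 V11 V02 n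

end Defs

/-- **The geometric input of ASM**, over every unramified base: for every number field `K₁` and
every discrete valuation subring `OK` of `K₁` with uniformiser `q`, the geometric package
holds. -/
def AsmGeomStatement (M' q : ℕ) [NeZero M'] [NeZero q] : Prop :=
  ∀ (K₁ : Type) [Field K₁] [Algebra ℚ K₁] [FiniteDimensional ℚ K₁] (OK : ValuationSubring K₁)
    [IsDiscreteValuationRing ↥OK]
    [Algebra ↥OK (ModelField K₁ (M' * q))] [IsScalarTower ↥OK K₁ (ModelField K₁ (M' * q))]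
    [Algebra ↥OK (ModelField K₁ (M' * q * q))]
    [IsScalarTower ↥OK K₁ (ModelField K₁ (M' * q * q))],
    Irreducible ((q : ℕ) : ↥OK) → AsmGeom M' q K₁ OK

/-- **The geometric input of ASM, in the form consumed by the assembly**: for every valuation
subring `A` of `ℚ̄` above `q` there is a finite set `S` of inertia-fixed numbers such that the
geometric package holds over every number field `ι : K₁ → ℚ̄`, unramified at `A`, whose image
contains `S`. -/
def AsmGeomLargeStatement (M' q : ℕ) [NeZero M'] [NeZero q] : Prop :=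
  ∀ (A : ValuationSubring QBar), A.LiesOverPrime q →
    ∃ S : Finset QBar, (∀ s ∈ S, ∀ σ ∈ A.inertiaSubgroupIn ℚ, σ s = s) ∧
      ∀ (K₁ : Type) [Field K₁] [Algebra ℚ K₁] [FiniteDimensional ℚ K₁] (ι : K₁ →+* QBar),
        IsUnramAt A ι → (∀ s ∈ S, s ∈ ι.range) →
        ∀ [IsDiscreteValuationRing ↥(A.comap ι)]
          [Algebra ↥(A.comap ι) (ModelField K₁ (M' * q))]
          [IsScalarTower ↥(A.comap ι) K₁ (ModelField K₁ (M' * q))]
          [Algebra ↥(A.comap ι) (ModelField K₁ (M' * q * q))]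
          [IsScalarTower ↥(A.comap ι) K₁ (ModelField K₁ (M' * q * q))],
          Irreducible ((q : ℕ) : ↥(A.comap ι)) → AsmGeom M' q K₁ (A.comap ι)

theorem asmGeomLarge_of_asmGeom (M' q : ℕ) [NeZero M'] [NeZero q]
    (h : AsmGeomStatement M' q) : AsmGeomLargeStatement M' q := by
  intro A _
  refine ⟨∅, fun s hs => absurd hs (Finset.notMem_empty s), ?_⟩
  intro K₁ _ _ _ ι _ _ _ _ _ _ _ hirr
  exact h K₁ (A.comap ι) hirr

end Fermat.Agent.H35.SS2
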