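import Fermat.Agent.H53.SS2.InvRepGalois

/-!
# P-SS2 row 905 (helper35), step S0 : invariant representative

`exists_invariant_rep` : let `H` be a subgroup of `Gal(ℚ̄/ℚ)` and `f ≠ 0` a modular function of
level `N` over `ℚ̄` with `m ∣ div f` such that `σ f / f` is an `m`-th power for every `σ ∈ H`.
Then there are `f₀, g ≠ 0` with `f₀ = f * g ^ m` and `σ f₀ = f₀` (coefficientwise) for all
`σ ∈ H`.  (`H53.jZero_exists_invariant_datum` applied to the class of `(div f) / m`.)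
-/

set_option autoImplicit false
set_option linter.style.haveILetI false

noncomputable section

namespace Fermat.Agent.H35.SS2

open AlgebraicCurve ModularCurve

section General

variable {K F : Type*} [Field K] [Field F] [Algebra K F]

theorem ss2_ord_pow (v : Place K F) (g : F) (m : ℕ) : v.ord (g ^ m) = (m : ℤ) * v.ord g := by
  have := v.ord_zpow g (m : ℤ)
  rwa [zpow_natCast] at this

/-- Division of a divisor by `m`. -/
theorem ss2_exists_div (m : ℕ) (Df : Divisor K F)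
    (h : ∀ v : Place K F, (m : ℤ) ∣ Df v) :
    ∃ D : Divisor K F, ∀ v : Place K F, (m : ℤ) * D v = Df v := by
  refine ⟨Finsupp.mapRange (fun k : ℤ => k / (m : ℤ)) (by simp) Df, fun v => ?_⟩
  rw [Finsupp.mapRange_apply]
  exact Int.mul_ediv_cancel' (h v)

theorem ss2_degree_eq_zero (m : ℕ) (hm : 0 < m) (D Df : Divisor K F)
    (h : ∀ v : Place K F, (m : ℤ) * D v = Df v) (hdeg : Divisor.degree Df = 0) :
    Divisor.degree D = 0 := by
  have hm0 : (m : ℤ) ≠ 0 := Int.natCast_ne_zero.mpr hm.ne'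
  have hmD : (m : ℤ) • D = Df := by
    ext v
    rw [Finsupp.smul_apply, smul_eq_mul, h v]
  have h1 : (m : ℤ) • Divisor.degree D = 0 := by
    rw [← map_zsmul, hmD, hdeg]
  rcases smul_eq_zero.mp h1 with h | h
  · exact absurd h hm0
  · exact h

/-- If `m D = div f` and `w ^ m * f = g • f`, the class of `D` is fixed by `g`. -/
theorem ss2_class_fixed (m : ℕ) (hm : 0 < m) (D : Divisor.degZero (K := K) (F := F))
    (f : F) (hf : f ≠ 0)
    (hD : ∀ v : Place K F, (m : ℤ) * (D : Divisor K F) v = v.ord f)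
    (g : SemilinearAut K F) (w : F) (hw : w ^ m * f = g • f) :
    g • Pic0.mk D = Pic0.mk D := by
  have hm0 : (m : ℤ) ≠ 0 := Int.natCast_ne_zero.mpr hm.ne'
  have hgf0 : g • f ≠ 0 := (smul_ne_zero_iff_ne g).mpr hf
  have hw0 : w ≠ 0 := by
    rintro rfl
    rw [zero_pow hm.ne', zero_mul] at hw
    exact hgf0 hw.symm
  rw [SemilinearAut.pic0_smul_mk, Fermat.Agent.H53.pic0_mk_eq_iff]
  refine ⟨w⁻¹, inv_ne_zero hw0, fun v => ?_⟩
  rw [SemilinearAut.coe_degZeroSMulHom]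
  have h1 : v.ord (g • f) = (g⁻¹ • v).ord f := by
    have := SemilinearAut.ord_smul g (g⁻¹ • v) f
    rwa [smul_inv_smul] at this
  have h2 : v.ord (g • f) = (m : ℤ) * v.ord w + v.ord f := by
    rw [← hw, v.ord_mul (pow_ne_zero m hw0) hf, ss2_ord_pow]
  have h3 : (m : ℤ) * (g • (D : Divisor K F)) v = (m : ℤ) * (v.ord w + (D : Divisor K F) v) := by
    rw [SemilinearAut.divisor_smul_apply, hD, ← h1, h2, mul_add, hD]
  have h4 := mul_left_cancel₀ hm0 h3
  rw [h4, v.ord_inv]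
  ring

/-- Two functions with `div f0 = div f - m div g` differ by a constant times `g ^ m`. -/
theorem ss2_eq_const_mul (hRR : Fermat.Agent.H58.RRHyp K F) (m : ℕ)
    (f f0 g : F) (hf : f ≠ 0) (hf0 : f0 ≠ 0) (hg : g ≠ 0)
    (h : ∀ v : Place K F, v.ord f0 = v.ord f - (m : ℤ) * v.ord g) :
    ∃ c : K, c ≠ 0 ∧ f0 * g ^ m = algebraMap K F c * f := by
  haveI := hRR.principal
  obtain ⟨v₀⟩ := hRR.exists_place
  have hmem : f0 * g ^ m * f⁻¹ ∈ riemannRochSpace (0 : Divisor K F) := by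
    rw [mem_riemannRochSpace_iff]
    intro w
    right
    rw [w.ord_mul (mul_ne_zero hf0 (pow_ne_zero m hg)) (inv_ne_zero hf),
      w.ord_mul hf0 (pow_ne_zero m hg), w.ord_inv, ss2_ord_pow, h]
    simp
  obtain ⟨c, hc⟩ := (Fermat.Agent.H58.rr_mem_zero_iff hRR.deg_one v₀).mp hmem
  have hc0 : c ≠ 0 := by
    rintro rfl
    rw [map_zero] at hc
    exact mul_ne_zero (mul_ne_zero hf0 (pow_ne_zero m hg)) (inv_ne_zero hf) hc
  refine ⟨c, hc0, ?_⟩
  rw [← hc, mul_assoc, mul_assoc, inv_mul_cancel₀ hf, mul_one]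

end General

/-- **S0** (invariant representative). -/
theorem exists_invariant_rep (N : ℕ) [NeZero N]
    (H : Subgroup (AlgebraicClosure ℚ ≃ₐ[ℚ] AlgebraicClosure ℚ)) (m : ℕ) (hm : 0 < m)
    (f : modularFunctionFieldBar N) (hf : f ≠ 0)
    (hord : ∀ P : Place (AlgebraicClosure ℚ) (modularFunctionFieldBar N), (m : ℤ) ∣ P.ord f)
    (hinv : ∀ σ ∈ H, ∃ w : modularFunctionFieldBar N,
      w ^ m * f = arithmeticGalois (modularFunctionFieldFull N) σ • f) :
    ∃ (f0 g : modularFunctionFieldBar N), f0 ≠ 0 ∧ g ≠ 0 ∧ f0 = f * g ^ m ∧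
      ∀ σ ∈ H, arithmeticGalois (modularFunctionFieldFull N) σ • f0 = f0 := by
  classical
  have hRR := Fermat.Agent.H58.rrHyp_modularFunctionFieldBar N
  haveI := hRR.principal
  have hm0 : (m : ℤ) ≠ 0 := Int.natCast_ne_zero.mpr hm.ne'
  obtain ⟨Df, hDf, hdeg⟩ := HasPrincipalDivisors.exists_divisor (K := AlgebraicClosure ℚ) f hf
  obtain ⟨D, hD⟩ := ss2_exists_div m Df (fun v => by rw [hDf v]; exact hord v)
  have hDdeg : Divisor.degree D = 0 := ss2_degree_eq_zero m hm D Df hD hdeg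
  have hDv : ∀ v : Place (AlgebraicClosure ℚ) (modularFunctionFieldBar N),
      (m : ℤ) * D v = v.ord f := fun v => by rw [hD v, hDf v]
  obtain ⟨D0, hD0⟩ : ∃ D0 : Divisor.degZero (K := AlgebraicClosure ℚ)
      (F := modularFunctionFieldBar N), (D0 : Divisor _ _) = D :=
    ⟨⟨D, Divisor.mem_degZero.mpr hDdeg⟩, rfl⟩
  have hD0v : ∀ v : Place (AlgebraicClosure ℚ) (modularFunctionFieldBar N),
      (m : ℤ) * (D0 : Divisor _ _) v = v.ord f := fun v => by rw [hD0, hDv v]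
  have hmx : (m : ℤ) • (Pic0.mk D0 : JZero N) = 0 := by
    have h1 : Pic0.mk ((m : ℤ) • D0) = (m : ℤ) • Pic0.mk D0 :=
      map_zsmul (QuotientAddGroup.mk' _) (m : ℤ) D0
    rw [← h1, Fermat.Agent.H53.pic0_mk_eq_zero_iff]
    refine ⟨f, hf, fun v => ?_⟩
    show ((m : ℤ) • (D0 : Divisor _ _)) v = v.ord f
    rw [Finsupp.smul_apply, smul_eq_mul, hD0v v]
  -- invariance of the class
  have hσx : ∀ σ ∈ H, σ • (Pic0.mk D0 : JZero N) = Pic0.mk D0 := by
    intro σ hσ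
    obtain ⟨w, hw⟩ := hinv σ hσ
    rw [galois_smul_pic0_def]
    exact ss2_class_fixed m hm D0 f hf hD0v _ w hw
  obtain ⟨P₀, n, E, f0, hP₀, hE, hEP, hrep, hn, hrank, hf0, hdiv, hfix⟩ :=
    Fermat.Agent.H53.jZero_exists_invariant_datum N (m : ℤ) (Pic0.mk D0) hmx
  obtain ⟨D', hD'x, hED'⟩ := hrep
  obtain ⟨g, hg0, hg⟩ := (Fermat.Agent.H53.pic0_mk_eq_iff D' D0).mp hD'x
  have hordf0 : ∀ v : Place (AlgebraicClosure ℚ) (modularFunctionFieldBar N),
      v.ord f0 = v.ord f - (m : ℤ) * v.ord g := by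
    intro v
    have h1 : E v - (Finsupp.single P₀ (n : ℤ) : Divisor _ _) v = (D' : Divisor _ _) v := by
      rw [hED']
      simp
    rw [hdiv v, h1, ← hD0v v, hg v]
    ring
  obtain ⟨c, hc0, hc⟩ := ss2_eq_const_mul hRR m f f0 g hf hf0 hg0 hordf0
  obtain ⟨κ, hκ⟩ := IsAlgClosed.exists_pow_nat_eq c hm
  have hκ0 : κ ≠ 0 := by
    rintro rfl
    rw [zero_pow hm.ne'] at hκ
    exact hc0 hκ.symm
  refine ⟨f0, algebraMap (AlgebraicClosure ℚ) (modularFunctionFieldBar N) κ * g⁻¹, hf0,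
    mul_ne_zero ((map_ne_zero _).mpr hκ0) (inv_ne_zero hg0), ?_, fun σ hσ => (hfix σ (hσx σ hσ)).2⟩
  have h1 : f0 = algebraMap (AlgebraicClosure ℚ) (modularFunctionFieldBar N) c * f * (g ^ m)⁻¹ := by
    rw [← hc, mul_assoc, mul_inv_cancel₀ (pow_ne_zero m hg0), mul_one]
  rw [h1, mul_pow, ← map_pow, hκ, inv_pow]
  ring
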