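import Fermat.Agent.H35.SS2.Defs

/-!
# P-SS2 row 905 (helper35) : two self-contained inputs of the descent (DESC)

* `UnramUniformiserStatement` **(U)** : for a number field `ι : K₁ → ℚ̄` whose image is fixed
  pointwise by the inertia group of a valuation subring `A` of `ℚ̄` over `q`, the prime `q` is a
  uniformiser of the discrete valuation ring `A ∩ K₁` ("the inertia field is unramified").
* `NormBaseChangeStatement` **(N)** : the norms along the two degeneracy maps `α`, `β` commute
  with the coefficient extension `K₁ → ℚ̄`.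
-/

set_option autoImplicit false

noncomputable section

namespace Fermat.Agent.H35.SS2

open AlgebraicCurve ModularCurve Fermat.Agent.H11.SS2 Fermat.Agent.H93.KL

/-- **(U)** the inertia field is unramified. -/
def UnramUniformiserStatement : Prop :=
  ∀ (q : ℕ), q.Prime → ∀ (A : ValuationSubring QBar), A.LiesOverPrime q →
    ∀ (K₁ : Type) [Field K₁] [Algebra ℚ K₁] [FiniteDimensional ℚ K₁] (ι : K₁ →+* QBar),
      IsUnramAt A ι → Irreducible ((q : ℕ) : ↥(A.comap ι))

/-- **(N)** norms along `α`, `β` commute with the extension of the field of constants. -/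
def NormBaseChangeStatement : Prop :=
  ∀ (L ℓ : ℕ) [NeZero L] [NeZero ℓ] (K₁ : Type) [Field K₁] [Algebra ℚ K₁] (ι : K₁ →+* QBar)
    (u : ↥(laurentBaseChange K₁ (modularFunctionFieldFull (L * ℓ)))),
    klBc ι (modularFunctionFieldFull L) (ss2NormAlong (heckeAlphaBar K₁ L ℓ) u) =
        ss2NormAlong (heckeAlphaBar QBar L ℓ) (klBc ι (modularFunctionFieldFull (L * ℓ)) u) ∧
    klBc ι (modularFunctionFieldFull L) (ss2NormAlong (heckeBetaBar K₁ L ℓ) u) =
        ss2NormAlong (heckeBetaBar QBar L ℓ) (klBc ι (modularFunctionFieldFull (L * ℓ)) u)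

end Fermat.Agent.H35.SS2
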