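import Fermat.Agent.H35.SS2.DescFinal

/-!
# P-SS2 row 905 (helper35) : small adapters for the model-level assembly (ASM)

* `ss2_isUnit_natCast_comap` : `m` is a unit of `A₀ = A ∩ K₁` (`q ∤ m`).
* `ss2_exists_primitiveRoot_comap` : the primitive `m`-th root of unity of `K₁` lies in `A₀`.
* `ss2_not_isUnit_q_comap` : `q` is not a unit of `A₀`.
* `ss2_ascend` : from `w₁ ^ m = κ u ^ c` over `K₁` (`κ ∈ K₁ˣ`) to `w ^ m = (klBc u) ^ c` over
  `ℚ̄`.
* `modelHyps_statement_of_const` : `ModelNewInvHypsStatement` from the version with a constant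
  and with an enlargement of `K₁` in the conclusion.
-/

set_option autoImplicit false
set_option linter.style.haveILetI false

noncomputable section

namespace Fermat.Agent.H35.SS2

open AlgebraicCurve ModularCurve Fermat.Agent.H11.SS2 Fermat.Agent.H93.KL

section Units

variable {K₁ : Type} [Field K₁] (ι : K₁ →+* QBar) (A : ValuationSubring QBar)

/-- Membership in `A ∩ K₁` of the inverse of an element which is not in the maximal ideal. -/
theorem ss2_isUnit_comap_of_notMem {c : K₁} (hc : c ∈ A.comap ι) (hn : ι c ∉ A.nonunits) :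
    IsUnit (⟨c, hc⟩ : ↥(A.comap ι)) := by
  have hcA : ι c ∈ A := hc
  have hc0 : c ≠ 0 := by
    rintro rfl
    rw [map_zero] at hn
    exact hn A.nonunits.zero_mem
  have hinv : ι c⁻¹ ∈ A := by
    rw [map_inv₀]
    by_contra hcon
    apply hn
    rw [ValuationSubring.mem_nonunits_iff]
    have h1 : ¬ A.valuation (ι c)⁻¹ ≤ 1 := fun h =>
      hcon ((ValuationSubring.valuation_le_one_iff A _).mp h)
    rw [not_le, map_inv₀] at h1
    have h0 : A.valuation (ι c) ≠ 0 := (Valuation.ne_zero_iff _).mpr ((map_ne_zero ι).mpr hc0)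
    exact (one_lt_inv₀ (zero_lt_iff.mpr h0)).mp h1
  exact isUnit_iff_exists_inv.mpr ⟨⟨c⁻¹, hinv⟩, Subtype.ext (mul_inv_cancel₀ hc0)⟩

/-- `m` is a unit of `A ∩ K₁` when `q ∤ m`. -/
theorem ss2_isUnit_natCast_comap {q : ℕ} (hq : q.Prime) (hA : A.LiesOverPrime q) {m : ℕ}
    (hqm : ¬ q ∣ m) : IsUnit ((m : ℕ) : ↥(A.comap ι)) := by
  have hmem : (m : K₁) ∈ A.comap ι := by
    rw [ValuationSubring.mem_comap, map_natCast]
    exact natCast_mem A m
  have h1 : ((m : ℕ) : ↥(A.comap ι)) = ⟨(m : K₁), hmem⟩ := Subtype.ext (by simp)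
  rw [h1]
  refine ss2_isUnit_comap_of_notMem ι A hmem ?_
  rw [map_natCast]
  exact ss2_natCast_notMem_nonunits hq A hA hqm

/-- `q` is not a unit of `A ∩ K₁`. -/
theorem ss2_not_isUnit_q_comap {q : ℕ} (hA : A.LiesOverPrime q) :
    ¬ IsUnit ((q : ℕ) : ↥(A.comap ι)) := by
  intro hu
  obtain ⟨c, hc⟩ := isUnit_iff_exists_inv.mp hu
  have hc' : (q : K₁) * (c : K₁) = 1 := by
    have := congrArg (fun z : ↥(A.comap ι) => (z : K₁)) hc
    simpa using this
  have h2 : (q : QBar) ∈ A.nonunits := hA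
  rw [ValuationSubring.mem_nonunits_iff] at h2
  have h3 : A.valuation (ι (c : K₁)) ≤ 1 := (ValuationSubring.valuation_le_one_iff A _).mpr c.2
  have h4 : A.valuation ((q : QBar) * ι (c : K₁)) = 1 := by
    rw [← map_natCast ι, ← map_mul, hc', map_one, map_one]
  rw [map_mul] at h4
  have h5 : A.valuation (q : QBar) * A.valuation (ι (c : K₁)) < 1 :=
    lt_of_le_of_lt (mul_le_of_le_one_right' h3) h2
  rw [h4] at h5
  exact lt_irrefl _ h5

/-- The primitive `m`-th roots of unity of `K₁` lie in `A ∩ K₁`. -/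
theorem ss2_exists_primitiveRoot_comap {m : ℕ} (hm : 0 < m)
    (hζ : ∃ ζ : K₁, IsPrimitiveRoot ζ m) : ∃ ζ : ↥(A.comap ι), IsPrimitiveRoot ζ m := by
  obtain ⟨ζ, hζ⟩ := hζ
  have hmem : ζ ∈ A.comap ι := by
    rw [ValuationSubring.mem_comap, ← ValuationSubring.valuation_le_one_iff]
    have h1 : A.valuation (ι ζ) ^ m = 1 := by
      rw [← map_pow, ← map_pow, hζ.pow_eq_one, map_one, map_one]
    exact le_of_eq ((pow_eq_one_iff_of_nonneg zero_le hm.ne').mp h1)
  refine ⟨⟨ζ, hmem⟩, ?_⟩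
  exact IsPrimitiveRoot.of_map_of_injective (f := (A.comap ι).subtype) hζ
    Subtype.val_injective

end Units

section Ascend

variable {K₁ : Type} [Field K₁] [Algebra ℚ K₁]

/-- `klBc` of a constant. -/
theorem ss2_klBc_algebraMap (ι : K₁ →+* QBar) (F₀ : IntermediateField ℚ (LaurentSeries ℚ))
    (κ : K₁) :
    klBc ι F₀ (algebraMap K₁ ↥(laurentBaseChange K₁ F₀) κ) =
      algebraMap QBar ↥(laurentBaseChange QBar F₀) (ι κ) := by
  apply Subtype.ext
  rw [klBc_coe]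
  show coeffMap ι (algebraMap K₁ (LaurentSeries K₁) κ) = algebraMap QBar (LaurentSeries QBar) (ι κ)
  rw [algebraMap_laurentSeries_eq_single, coeffMap_single, ← algebraMap_laurentSeries_eq_single]

/-- **Ascent**: a constant of `K₁` is an `m`-th power in `ℚ̄`. -/
theorem ss2_ascend (ι : K₁ →+* QBar) (F₀ : IntermediateField ℚ (LaurentSeries ℚ))
    (m : ℕ) (hm : 0 < m) (c : ℕ) (u w₁ : ↥(laurentBaseChange K₁ F₀)) (κ : K₁) (hκ : κ ≠ 0)
    (h : w₁ ^ m = algebraMap K₁ ↥(laurentBaseChange K₁ F₀) κ * u ^ c) :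
    ∃ w : ↥(laurentBaseChange QBar F₀), w ^ m = (klBc ι F₀ u) ^ c := by
  obtain ⟨θ, hθ⟩ := IsAlgClosed.exists_pow_nat_eq (ι κ) hm
  have hθ0 : θ ≠ 0 := by
    rintro rfl
    rw [zero_pow hm.ne'] at hθ
    exact (map_ne_zero ι).mpr hκ hθ.symm
  have hθ' : algebraMap QBar ↥(laurentBaseChange QBar F₀) θ ≠ 0 := (map_ne_zero _).mpr hθ0
  refine ⟨klBc ι F₀ w₁ * (algebraMap QBar ↥(laurentBaseChange QBar F₀) θ)⁻¹, ?_⟩
  have h1 := congrArg (klBc ι F₀) h
  rw [map_pow, map_mul, map_pow, ss2_klBc_algebraMap, ← hθ, map_pow] at h1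
  rw [mul_pow, h1, inv_pow, mul_comm (_ ^ m) _, mul_assoc,
    mul_inv_cancel₀ (pow_ne_zero m hθ'), mul_one]

end Ascend

/-- **The target of ASM with constants and enlargements**: it suffices to find, for every
`(K₁, ι, u)` with `SS2ModelHyps`, a number field `ι₂ : K₂ → ℚ̄`, `u₂ ∈ F_{K₂}` with the same image
in `F_{ℚ̄}` as `u`, a constant `κ ∈ K₂ˣ` and `w₂ ∈ F_{K₂}` with `w₂ ^ m = κ u₂ ^ c`. -/
theorem modelHyps_statement_of_const (M' q : ℕ) [NeZero M'] [NeZero q]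
    (h : ∀ (A : ValuationSubring QBar), A.LiesOverPrime q →
      ∃ c : ℕ, 0 < c ∧
        ∀ (K₁ : Type) [Field K₁] [Algebra ℚ K₁] [FiniteDimensional ℚ K₁] (ι : K₁ →+* QBar)
          (m : ℕ), 0 < m → ¬ q ∣ m →
          ∀ u : ↥(laurentBaseChange K₁ (modularFunctionFieldFull (M' * q * q))),
            SS2ModelHyps M' q A m K₁ ι u →
            ∃ (K₂ : Type) (_ : Field K₂) (_ : Algebra ℚ K₂) (ι₂ : K₂ →+* QBar)
              (u₂ w₂ : ↥(laurentBaseChange K₂ (modularFunctionFieldFull (M' * q * q))))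
              (κ : K₂), κ ≠ 0 ∧
              klBc ι₂ (modularFunctionFieldFull (M' * q * q)) u₂ =
                klBc ι (modularFunctionFieldFull (M' * q * q)) u ∧
              w₂ ^ m = algebraMap K₂ _ κ * u₂ ^ c) :
    ModelNewInvHypsStatement M' q := by
  intro A hA
  obtain ⟨c, hc, hc'⟩ := h A hA
  refine ⟨c, hc, fun K₁ _ _ _ ι m hm hqm u hu => ?_⟩
  obtain ⟨K₂, _, _, ι₂, u₂, w₂, κ, hκ, hbc, hw⟩ := hc' K₁ ι m hm hqm u hu
  obtain ⟨w, hw'⟩ := ss2_ascend ι₂ _ m hm c u₂ w₂ κ hκ hw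
  exact ⟨w, by rw [hw', hbc]⟩

end Fermat.Agent.H35.SS2
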