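import Fermat.Agent.H35.SS2.Package
import Fermat.Agent.H3.SS2.Unram
import Fermat.Agent.H36.SS2.NormBC

/-!
# P-SS2 row 905 (helper35) : DESC, unconditional form

(U) = `Fermat.Agent.H3.SS2.unramUniformiser` (helper3, row 987) and
(N) = `Fermat.Agent.H36.SS2.normBaseChange` (helper36, row 988) plugged in:

* `desc_of_modelHyps` : `q.Prime → ModelNewInvHypsStatement M' q →
  NewInvariantFFStatement (M' * q) q`   (**the target of ASM is `ModelNewInvHypsStatement`**);
* `desc_of_modelBar` : the same from `ModelNewInvBarStatement M' q`;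
* `modelHyps_of_bar`, `modelHyps_enlarge` : the package lemmas without hypotheses (U), (N).
-/

set_option autoImplicit false

noncomputable section

namespace Fermat.Agent.H35.SS2

open AlgebraicCurve ModularCurve Fermat.Agent.H11.SS2 Fermat.Agent.H93.KL

/-- **DESC** (unconditional): (KC-FF) at level `M' q²` from the model-level statement with all
hypotheses. -/
theorem desc_of_modelHyps (M' q : ℕ) [NeZero M'] [NeZero q] (hq : q.Prime)
    (hM : ModelNewInvHypsStatement M' q) : NewInvariantFFStatement (M' * q) q :=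
  newInvariantFF_of_modelHyps M' q hq Fermat.Agent.H3.SS2.unramUniformiser
    Fermat.Agent.H36.SS2.normBaseChange hM

/-- **DESC** (unconditional), from `ModelNewInvBarStatement`. -/
theorem desc_of_modelBar (M' q : ℕ) [NeZero M'] [NeZero q] (hq : q.Prime)
    (hM : ModelNewInvBarStatement M' q) : NewInvariantFFStatement (M' * q) q :=
  newInvariantFF_of_model M' q hq Fermat.Agent.H3.SS2.unramUniformiser
    Fermat.Agent.H36.SS2.normBaseChange hM

/-- (KC-FF) for inertia-fixed functions from the model-level statement (unconditional). -/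
theorem inv_of_modelHyps_final (M' q : ℕ) [NeZero M'] [NeZero q] (hq : q.Prime)
    (hM : ModelNewInvHypsStatement M' q) : InvNewInvariantFFStatement M' q :=
  inv_of_modelHyps M' q hq Fermat.Agent.H3.SS2.unramUniformiser
    Fermat.Agent.H36.SS2.normBaseChange hM

/-- The package (unconditional): the model-level hypotheses over any unramified number field of
definition. -/
theorem modelHyps_of_bar (M' q : ℕ) [NeZero M'] [NeZero q] (hq : q.Prime)
    (A : ValuationSubring QBar) (hA : A.LiesOverPrime q) (m : ℕ) (hm : 0 < m)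
    (K₁ : Type) [Field K₁] [Algebra ℚ K₁] [FiniteDimensional ℚ K₁] (ι : K₁ →+* QBar)
    (hunr : IsUnramAt A ι) (hζ : ∃ ζ : K₁, IsPrimitiveRoot ζ m)
    (u : ↥(laurentBaseChange K₁ (modularFunctionFieldFull (M' * q * q)))) (hu : u ≠ 0)
    (hord : ∀ P : Place QBar ↥(modularFunctionFieldBar (M' * q * q)),
      (m : ℤ) ∣ P.ord (klBc ι (modularFunctionFieldFull (M' * q * q)) u))
    (hα : ∃ h : ↥(modularFunctionFieldBar (M' * q)), h ^ m =
      ss2NormAlong (heckeAlphaBar QBar (M' * q) q)
        (klBc ι (modularFunctionFieldFull (M' * q * q)) u))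
    (hβ : ∃ h : ↥(modularFunctionFieldBar (M' * q)), h ^ m =
      ss2NormAlong (heckeBetaBar QBar (M' * q) q)
        (klBc ι (modularFunctionFieldFull (M' * q * q)) u)) :
    SS2ModelHyps M' q A m K₁ ι u :=
  ss2_modelHyps_of_bar M' q hq Fermat.Agent.H3.SS2.unramUniformiser
    Fermat.Agent.H36.SS2.normBaseChange A hA m hm K₁ ι hunr hζ u hu hord hα hβ

/-- The hypotheses pass to every larger unramified number field (unconditional). -/
theorem modelHyps_enlarge {M' q : ℕ} [NeZero M'] [NeZero q] (hq : q.Prime)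
    {A : ValuationSubring QBar} (hA : A.LiesOverPrime q) {m : ℕ} (hm : 0 < m)
    {K₁ : Type} [Field K₁] [Algebra ℚ K₁] {ι : K₁ →+* QBar}
    {u : ↥(laurentBaseChange K₁ (modularFunctionFieldFull (M' * q * q)))}
    (h : SS2ModelHyps M' q A m K₁ ι u)
    (K₂ : Type) [Field K₂] [Algebra ℚ K₂] [FiniteDimensional ℚ K₂] (ι₂ : K₂ →+* QBar)
    (hunr₂ : IsUnramAt A ι₂) (j : K₁ →+* K₂) (hj : ι₂.comp j = ι) :
    ∃ u₂ : ↥(laurentBaseChange K₂ (modularFunctionFieldFull (M' * q * q))),
      klBc ι₂ (modularFunctionFieldFull (M' * q * q)) u₂ =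
        klBc ι (modularFunctionFieldFull (M' * q * q)) u ∧
      (u₂ : LaurentSeries K₂) = coeffMap j (u : LaurentSeries K₁) ∧
      SS2ModelHyps M' q A m K₂ ι₂ u₂ :=
  SS2ModelHyps.enlarge hq Fermat.Agent.H3.SS2.unramUniformiser
    Fermat.Agent.H36.SS2.normBaseChange hA hm h K₂ ι₂ hunr₂ j hj

end Fermat.Agent.H35.SS2
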