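import Fermat.Agent.H35.SS2.AsmStep
import Fermat.Agent.H35.SS2.AsmPrep
import Fermat.Agent.H35.SS2.DescFinal

/-!
# P-SS2 (S36), row SS2-C8 (helper35), part (b) ASM: the final assembly

* `asm_norm_transfer` : the norm equations `γ h ^ m = N u` pass to a larger field of constants
  with the SAME constant;
* `asm_final_aux` : the assembly over one (large) unramified number field;
* `modelNewInvHyps_of_geomLarge` : `AsmGeomLargeStatement M' q → ModelNewInvHypsStatement M' q`;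
* `newInvariantFF_of_geomLarge`, `newInvariantFF_of_geom` : (KC-FF) at level `M' q²` from the
  geometric package.
-/

set_option autoImplicit false
set_option linter.style.haveILetI false
set_option linter.unusedSectionVars false

noncomputable section

namespace Fermat.Agent.H35.SS2

open ModularCurve AlgebraicCurve
open Fermat.Agent.H22.KL Fermat.Agent.H11.SS2 Fermat.Agent.H93.KL Fermat.Agent.H87.SS2

section Transfer

variable {K₁ K₂ : Type} [Field K₁] [Algebra ℚ K₁] [Field K₂] [Algebra ℚ K₂]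

/-- `klBc` is injective -/
theorem asm_klBc_injective (ι : K₁ →+* QBar) (F₀ : IntermediateField ℚ (LaurentSeries ℚ)) :
    Function.Injective (klBc ι F₀) :=
  (klBc ι F₀).injective

/-- the base change of a function along `j : K₁ → K₂` -/
def asmBc (j : K₁ →+* K₂) (F₀ : IntermediateField ℚ (LaurentSeries ℚ))
    (f : ↥(laurentBaseChange K₁ F₀)) : ↥(laurentBaseChange K₂ F₀) :=
  ⟨coeffMap j (f : LaurentSeries K₁), ss2_coeffMap_mem j F₀ f.2⟩

theorem klBc_asmBc (ι : K₁ →+* QBar) (ι₂ : K₂ →+* QBar) (j : K₁ →+* K₂) (hj : ι₂.comp j = ι)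
    (F₀ : IntermediateField ℚ (LaurentSeries ℚ)) (f : ↥(laurentBaseChange K₁ F₀)) :
    klBc ι₂ F₀ (asmBc j F₀ f) = klBc ι F₀ f := by
  apply Subtype.ext
  rw [klBc_coe, klBc_coe]
  show coeffMap ι₂ (coeffMap j (f : LaurentSeries K₁)) = _
  rw [coeffMap_coeffMap, coeffMap_congr hj]

/-- **Norm transfer**: a norm equation `γ h ^ m = N u` over `K₁` gives the norm equation
`j(γ) h₂ ^ m = N u₂` over `K₂` for the base change `u₂` of `u`. -/
theorem asm_norm_transfer (L ℓ : ℕ) [NeZero L] [NeZero ℓ]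
    (ι : K₁ →+* QBar) (ι₂ : K₂ →+* QBar) (j : K₁ →+* K₂) (hj : ι₂.comp j = ι)
    (u : ↥(laurentBaseChange K₁ (modularFunctionFieldFull (L * ℓ))))
    (u₂ : ↥(laurentBaseChange K₂ (modularFunctionFieldFull (L * ℓ))))
    (hu : klBc ι₂ (modularFunctionFieldFull (L * ℓ)) u₂ =
      klBc ι (modularFunctionFieldFull (L * ℓ)) u)
    (m : ℕ) (γ : K₁) (h : ↥(laurentBaseChange K₁ (modularFunctionFieldFull L))) :
    (algebraMap K₁ _ γ * h ^ m = ss2NormAlong (heckeAlphaBar K₁ L ℓ) u →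
      algebraMap K₂ _ (j γ) * (asmBc j (modularFunctionFieldFull L) h) ^ m =
        ss2NormAlong (heckeAlphaBar K₂ L ℓ) u₂) ∧
    (algebraMap K₁ _ γ * h ^ m = ss2NormAlong (heckeBetaBar K₁ L ℓ) u →
      algebraMap K₂ _ (j γ) * (asmBc j (modularFunctionFieldFull L) h) ^ m =
        ss2NormAlong (heckeBetaBar K₂ L ℓ) u₂) := by
  obtain ⟨hα₁, hβ₁⟩ := Fermat.Agent.H36.SS2.normBaseChange L ℓ K₁ ι u
  obtain ⟨hα₂, hβ₂⟩ := Fermat.Agent.H36.SS2.normBaseChange L ℓ K₂ ι₂ u₂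
  have hjγ : ι₂ (j γ) = ι γ := by rw [← hj]; rfl
  have key : klBc ι₂ (modularFunctionFieldFull L)
      (algebraMap K₂ _ (j γ) * (asmBc j (modularFunctionFieldFull L) h) ^ m)
      = klBc ι (modularFunctionFieldFull L) (algebraMap K₁ _ γ * h ^ m) := by
    rw [map_mul, map_pow, ss2_klBc_algebraMap, klBc_asmBc ι ι₂ j hj, hjγ, map_mul, map_pow,
      ss2_klBc_algebraMap]
  constructor
  · intro hN
    apply asm_klBc_injective ι₂
    rw [key, hN, hα₁, hα₂, hu]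
  · intro hN
    apply asm_klBc_injective ι₂
    rw [key, hN, hβ₁, hβ₂, hu]

end Transfer

section Final

variable (M' q : ℕ) [NeZero M'] [NeZero q]

/-- The exponent of the assembly. -/
def asmExponent (q : ℕ) : ℕ := (q + 1) * (q - 1) * (q * (q ^ 2 - 1))

theorem asmExponent_pos {q : ℕ} (hq : q.Prime) : 0 < asmExponent q := by
  have h2 : 2 ≤ q := hq.two_le
  have h1 : 0 < q - 1 := by omega
  have h3 : 0 < q ^ 2 - 1 := by
    have : 1 < q ^ 2 := Nat.one_lt_pow (by norm_num) (by omega)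
    omega
  unfold asmExponent
  positivity

/-- **The assembly over one unramified number field** `ι₂ : K₂ → ℚ̄` containing `K₁` and
`m`-th roots of the unit parts of the two norm constants. -/
theorem asm_final_aux (hq : q.Prime) (A : ValuationSubring QBar) (hA : A.LiesOverPrime q)
    (K₁ : Type) [Field K₁] [Algebra ℚ K₁] (ι : K₁ →+* QBar)
    (m : ℕ) (hm : 0 < m) (hqm : ¬ q ∣ m)
    (u : ↥(laurentBaseChange K₁ (modularFunctionFieldFull (M' * q * q))))
    (hyp : SS2ModelHyps M' q A m K₁ ι u)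
    (γα γβ : K₁) (hα hβ : ↥(laurentBaseChange K₁ (modularFunctionFieldFull (M' * q))))
    (hNα : algebraMap K₁ _ γα * hα ^ m = ss2NormAlong (heckeAlphaBar K₁ (M' * q) q) u)
    (hNβ : algebraMap K₁ _ γβ * hβ ^ m = ss2NormAlong (heckeBetaBar K₁ (M' * q) q) u)
    (K₂ : Type) [Field K₂] [Algebra ℚ K₂] [FiniteDimensional ℚ K₂] (ι₂ : K₂ →+* QBar)
    (hunr₂ : IsUnramAt A ι₂) (j : K₁ →+* K₂) (hj : ι₂.comp j = ι)
    (aα aβ : ℤ) (rα rβ : K₂) (hrα : j γα = (q : K₂) ^ aα * rα ^ m)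
    (hrβ : j γβ = (q : K₂) ^ aβ * rβ ^ m)
    (hgeom : ∀ [IsDiscreteValuationRing ↥(A.comap ι₂)]
      [Algebra ↥(A.comap ι₂) (ModelField K₂ (M' * q))]
      [IsScalarTower ↥(A.comap ι₂) K₂ (ModelField K₂ (M' * q))]
      [Algebra ↥(A.comap ι₂) (ModelField K₂ (M' * q * q))]
      [IsScalarTower ↥(A.comap ι₂) K₂ (ModelField K₂ (M' * q * q))],
      Irreducible ((q : ℕ) : ↥(A.comap ι₂)) → AsmGeom M' q K₂ (A.comap ι₂)) :
    ∃ (u₂ w₂ : ↥(laurentBaseChange K₂ (modularFunctionFieldFull (M' * q * q)))) (κ : K₂),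
      κ ≠ 0 ∧
      klBc ι₂ (modularFunctionFieldFull (M' * q * q)) u₂ =
        klBc ι (modularFunctionFieldFull (M' * q * q)) u ∧
      w₂ ^ m = algebraMap K₂ _ κ * u₂ ^ asmExponent q := by
  classical
  obtain ⟨u₂, hbc, -, hyp₂⟩ := modelHyps_enlarge hq hA hm hyp K₂ ι₂ hunr₂ j hj
  obtain ⟨hTα, -⟩ := asm_norm_transfer (M' * q) q ι ι₂ j hj u u₂ hbc m γα hα
  obtain ⟨-, hTβ⟩ := asm_norm_transfer (M' * q) q ι ι₂ j hj u u₂ hbc m γβ hβ
  have hNα₂ := hTα hNα
  have hNβ₂ := hTβ hNβ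
  haveI hdvr : IsDiscreteValuationRing ↥(A.comap ι₂) := hyp₂.dvr
  letI algF : Algebra ↥(A.comap ι₂) (ModelField K₂ (M' * q)) :=
    ((algebraMap K₂ (ModelField K₂ (M' * q))).comp (algebraMap ↥(A.comap ι₂) K₂)).toAlgebra
  haveI : IsScalarTower ↥(A.comap ι₂) K₂ (ModelField K₂ (M' * q)) :=
    IsScalarTower.of_algebraMap_eq (fun _ => rfl)
  letI algE : Algebra ↥(A.comap ι₂) (ModelField K₂ (M' * q * q)) :=
    ((algebraMap K₂ (ModelField K₂ (M' * q * q))).comp (algebraMap ↥(A.comap ι₂) K₂)).toAlgebra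
  haveI : IsScalarTower ↥(A.comap ι₂) K₂ (ModelField K₂ (M' * q * q)) :=
    IsScalarTower.of_algebraMap_eq (fun _ => rfl)
  have hG := hgeom hyp₂.unif
  obtain ⟨κ, w, hκ, hw⟩ := asm_step M' q K₂ (A.comap ι₂) hq hyp₂.unif hG m hm hqm hyp₂.roots
    u₂ hyp₂.ne_zero hyp₂.ord
    ⟨aα, algebraMap K₂ _ rα * asmBc j (modularFunctionFieldFull (M' * q)) hα, by
      rw [← hNα₂, hrα, map_mul, map_pow, mul_pow]
      ring⟩
    ⟨aβ, algebraMap K₂ _ rβ * asmBc j (modularFunctionFieldFull (M' * q)) hβ, by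
      rw [← hNβ₂, hrβ, map_mul, map_pow, mul_pow]
      ring⟩
  exact ⟨u₂, w, κ, hκ, hbc, hw⟩

/-- the unit part of a nonzero constant, and an inertia-fixed `m`-th root of it in `ℚ̄` -/
theorem asm_exists_root (hq : q.Prime) (A : ValuationSubring QBar) (hA : A.LiesOverPrime q)
    (K₁ : Type) [Field K₁] (ι : K₁ →+* QBar) (hunr : IsUnramAt A ι)
    [IsDiscreteValuationRing ↥(A.comap ι)] (hirr : Irreducible ((q : ℕ) : ↥(A.comap ι)))
    (m : ℕ) (hm : 0 < m) (hqm : ¬ q ∣ m) (γ : K₁) (hγ : γ ≠ 0) :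
    ∃ (a : ℤ) (r : QBar), ι γ = (q : QBar) ^ a * r ^ m ∧
      ∀ σ ∈ A.inertiaSubgroupIn ℚ, σ r = r := by
  have hqOK : (((q : ℕ) : ↥(A.comap ι)) : K₁) = (q : K₁) := by simp
  have hunifK : DKUnif (A.comap ι) (q : K₁) :=
    hqOK ▸ asm_dkUnif_of_irreducible (A.comap ι) hirr
  have hdK := discAt_of_dkUnif (inferInstance : IsPrincipalIdealRing ↥(A.comap ι)) hunifK
  set a := ordAt (A.comap ι) (q : K₁) γ with ha
  have hu : VUnit (A.comap ι) (γ / (q : K₁) ^ a) := vUnit_div_ordAt hdK hγ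
  have hq0 : (q : K₁) ≠ 0 := hunifK.1
  have hγ₀ : γ / (q : K₁) ^ a ≠ 0 := div_ne_zero hγ (zpow_ne_zero _ hq0)
  have hu' : VUnit A (ι (γ / (q : K₁) ^ a)) := (vUnit_comap_iff ι A (γ / (q : K₁) ^ a)).mp hu
  have hv : A.valuation (ι (γ / (q : K₁) ^ a)) = 1 :=
    (vUnit_iff_valuation ((map_ne_zero ι).mpr hγ₀)).mp hu'
  obtain ⟨r, hr⟩ := IsAlgClosed.exists_pow_nat_eq (ι (γ / (q : K₁) ^ a)) hm
  refine ⟨a, r, ?_, ?_⟩
  · rw [hr, map_div₀, map_zpow₀, map_natCast,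
      mul_div_cancel₀ _ (zpow_ne_zero _ (by
        have : ι (q : K₁) ≠ 0 := (map_ne_zero ι).mpr hq0
        rwa [map_natCast] at this))]
  · refine ss2_inertia_fixes_root_of_unit hq A hA hm hqm hr hu'.1 ?_
      (fun σ hσ => hunr σ hσ _)
    intro hn
    rw [mem_nonunits_iff_valuation, hv] at hn
    exact lt_irrefl _ hn

/-- **ASM**: the model-level statement from the geometric package (over sufficiently large
unramified bases). -/
theorem modelNewInvHyps_of_geomLarge (hq : q.Prime) (hgeom : AsmGeomLargeStatement M' q) :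
    ModelNewInvHypsStatement M' q := by
  classical
  apply modelHyps_statement_of_const
  intro A hA
  obtain ⟨S, hS, hgeomA⟩ := hgeom A hA
  refine ⟨asmExponent q, asmExponent_pos hq, ?_⟩
  intro K₁ _ _ _ ι m hm hqm u hyp
  obtain ⟨γα, hα, hγα0, hNα⟩ := hyp.normα
  obtain ⟨γβ, hβ, hγβ0, hNβ⟩ := hyp.normβ
  haveI := hyp.dvr
  obtain ⟨aα, rα, hrα, hfixα⟩ :=
    asm_exists_root q hq A hA K₁ ι hyp.unram hyp.unif m hm hqm γα hγα0
  obtain ⟨aβ, rβ, hrβ, hfixβ⟩ :=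
    asm_exists_root q hq A hA K₁ ι hyp.unram hyp.unif m hm hqm γβ hγβ0
  obtain ⟨K₂, hK₂fin, hK₂unr, hSK₂, j, hj⟩ := exists_unram_enlargement A ι hyp.unram
    (S ∪ {rα, rβ}) (by
      intro s hs σ hσ
      rw [Finset.mem_union, Finset.mem_insert, Finset.mem_singleton] at hs
      rcases hs with hs | rfl | rfl
      · exact hS s hs σ hσ
      · exact hfixα σ hσ
      · exact hfixβ σ hσ)
  haveI := hK₂fin
  have hrαK : rα ∈ K₂ := hSK₂ rα (by simp)
  have hrβK : rβ ∈ K₂ := hSK₂ rβ (by simp)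
  have hinj : Function.Injective (algebraMap ↥K₂ QBar) := (algebraMap ↥K₂ QBar).injective
  have hjα : j γα = ((q : ℕ) : ↥K₂) ^ aα * (⟨rα, hrαK⟩ : ↥K₂) ^ m := by
    apply hinj
    have h1 : algebraMap ↥K₂ QBar (j γα) = ι γα := by rw [← hj]; rfl
    rw [h1, hrα, map_mul, map_zpow₀, map_pow, map_natCast]
    rfl
  have hjβ : j γβ = ((q : ℕ) : ↥K₂) ^ aβ * (⟨rβ, hrβK⟩ : ↥K₂) ^ m := by
    apply hinj
    have h1 : algebraMap ↥K₂ QBar (j γβ) = ι γβ := by rw [← hj]; rfl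
    rw [h1, hrβ, map_mul, map_zpow₀, map_pow, map_natCast]
    rfl
  obtain ⟨u₂, w₂, κ, hκ, hbc, hw⟩ := asm_final_aux M' q hq A hA K₁ ι m hm hqm u hyp γα γβ
    hα hβ hNα hNβ ↥K₂ (algebraMap ↥K₂ QBar) hK₂unr j hj aα aβ ⟨rα, hrαK⟩ ⟨rβ, hrβK⟩ hjα hjβ
    (hgeomA ↥K₂ (algebraMap ↥K₂ QBar) hK₂unr
      (fun s hs => ⟨⟨s, hSK₂ s (Finset.mem_union_left _ hs)⟩, rfl⟩))
  exact ⟨↥K₂, inferInstance, inferInstance, algebraMap ↥K₂ QBar, u₂, w₂, κ, hκ, hbc, hw⟩

/-- **(KC-FF) at level `M' q²`** from the geometric package over sufficiently large unramified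
bases. -/
theorem newInvariantFF_of_geomLarge (hq : q.Prime) (hgeom : AsmGeomLargeStatement M' q) :
    NewInvariantFFStatement (M' * q) q :=
  desc_of_modelHyps M' q hq (modelNewInvHyps_of_geomLarge M' q hq hgeom)

/-- **(KC-FF) at level `M' q²`** from the geometric package over all unramified bases. -/
theorem newInvariantFF_of_geom (hq : q.Prime) (hgeom : AsmGeomStatement M' q) :
    NewInvariantFFStatement (M' * q) q :=
  newInvariantFF_of_geomLarge M' q hq (asmGeomLarge_of_asmGeom M' q hgeom)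

end Final

end Fermat.Agent.H35.SS2
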