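import Fermat.Agent.H35.SS2.AsmBase
import Fermat.Agent.H19.SS2.AsmCoreF

/-!
# P-SS2 (S36), row SS2-C8 (helper35), part (b) ASM: the global data from a minimal package

`AsmGlobalMin` : the chart, `Val3Data`, the base facts on `O₁`, `O₂`, the two degrees, the Gauss
closure and the exhaustion of the vertical valuations.

`asmGlobal_of_min` : `AsmGlobalMin → AsmGlobal` : the three `IsVertical`, weak approximation
(`Fermat.Agent.H37.SS2.weakApprox_dvr`) and the four norm reductions for constants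
(`Fermat.Agent.H68.SS2.normRedConstAt_val3`) are consequences.
-/

set_option autoImplicit false
set_option linter.style.haveILetI false
set_option linter.unusedSectionVars false

noncomputable section

namespace Fermat.Agent.H35.SS2

open ModularCurve AlgebraicCurve
open Fermat.Agent.H22.KL Fermat.Agent.H11.SS2 Fermat.Agent.H68.SS2 Fermat.Agent.H19.SS2

section Min

variable (M' q : ℕ) [NeZero M'] [NeZero q] (K₁ : Type) [Field K₁] [Algebra ℚ K₁]
  (OK : ValuationSubring K₁)
  [Algebra ↥OK (ModelField K₁ (M' * q))] [Algebra ↥OK (ModelField K₁ (M' * q * q))]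

/-- **The minimal global package.** -/
structure AsmGlobalMin (x : ModelField K₁ (M' * q * q))
    (O₁ O₂ : ValuationSubring (ModelField K₁ (M' * q)))
    (V20 V11 V02 : ValuationSubring (ModelField K₁ (M' * q * q)))
    (Y₁ : ModelField K₁ (M' * q)) (Z : ModelField K₁ (M' * q * q)) : Prop where
  chart : (x : LaurentSeries K₁) = jqModC K₁
  val3 : Val3Data (asmα M' q K₁) (asmβ M' q K₁) O₁ O₂ V20 V11 V02 q Y₁ Z
  pir₁ : IsPrincipalIdealRing O₁
  pir₂ : IsPrincipalIdealRing O₂
  unif₁ : DKUnif O₁ ((q : ℕ) : ModelField K₁ (M' * q))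
  unif₂ : DKUnif O₂ ((q : ℕ) : ModelField K₁ (M' * q))
  comap₁ : O₁.comap (algebraMap K₁ (ModelField K₁ (M' * q))) = OK
  comap₂ : O₂.comap (algebraMap K₁ (ModelField K₁ (M' * q))) = OK
  degα : @FiniteDimensional (ModelField K₁ (M' * q)) (ModelField K₁ (M' * q * q)) _ _
      (@Algebra.toModule _ _ _ _ (asmα M' q K₁).toAlgebra) ∧
    @Module.finrank (ModelField K₁ (M' * q)) (ModelField K₁ (M' * q * q)) _ _
      (@Algebra.toModule _ _ _ _ (asmα M' q K₁).toAlgebra) = q
  degβ : @FiniteDimensional (ModelField K₁ (M' * q)) (ModelField K₁ (M' * q * q)) _ _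
      (@Algebra.toModule _ _ _ _ (asmβ M' q K₁).toAlgebra) ∧
    @Module.finrank (ModelField K₁ (M' * q)) (ModelField K₁ (M' * q * q)) _ _
      (@Algebra.toModule _ _ _ _ (asmβ M' q K₁).toAlgebra) = q
  gauss : ∀ z : ModelField K₁ (M' * q * q),
    z ∈ gaussClosure ↥OK (ModelField K₁ (M' * q * q)) ((q : ℕ) : ↥OK) x ↔
      z ∈ V20 ∧ z ∈ V11 ∧ z ∈ V02
  vert : ∀ V' : ValuationSubring (ModelField K₁ (M' * q * q)),
    IsVertical ↥OK (ModelField K₁ (M' * q * q)) ((q : ℕ) : ↥OK) x V' →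
      V' = V20 ∨ V' = V11 ∨ V' = V02

variable [IsScalarTower ↥OK K₁ (ModelField K₁ (M' * q))]
  [IsScalarTower ↥OK K₁ (ModelField K₁ (M' * q * q))]

/-- **The global data from the minimal package.** -/
theorem asmGlobal_of_min (hq : q.Prime) {x : ModelField K₁ (M' * q * q)}
    {O₁ O₂ : ValuationSubring (ModelField K₁ (M' * q))}
    {V20 V11 V02 : ValuationSubring (ModelField K₁ (M' * q * q))}
    {Y₁ : ModelField K₁ (M' * q)} {Z : ModelField K₁ (M' * q * q)}
    (h : AsmGlobalMin M' q K₁ OK x O₁ O₂ V20 V11 V02 Y₁ Z) :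
    AsmGlobal M' q K₁ OK x O₁ O₂ V20 V11 V02 Y₁ Z := by
  classical
  haveI : CharZero K₁ := algebraRat.charZero K₁
  haveI : CharZero (ModelField K₁ (M' * q)) :=
    charZero_of_injective_algebraMap (algebraMap K₁ (ModelField K₁ (M' * q))).injective
  have hD := h.val3
  have hιq : algebraMap ↥OK (ModelField K₁ (M' * q * q)) ((q : ℕ) : ↥OK)
      = ((q : ℕ) : ModelField K₁ (M' * q * q)) := map_natCast _ q
  have hαA : ∀ a : ↥OK, (asmα M' q K₁) (algebraMap ↥OK (ModelField K₁ (M' * q)) a)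
      = algebraMap ↥OK (ModelField K₁ (M' * q * q)) a := fun a => by
    rw [asm_algebraMap_model, asm_algebraMap_model]
    exact (heckeAlphaBar K₁ (M' * q) q).commutes _
  have hβA : ∀ a : ↥OK, (asmβ M' q K₁) (algebraMap ↥OK (ModelField K₁ (M' * q)) a)
      = algebraMap ↥OK (ModelField K₁ (M' * q * q)) a := fun a => by
    rw [asm_algebraMap_model, asm_algebraMap_model]
    exact (heckeBetaBar K₁ (M' * q) q).commutes _
  have hA₁ : ∀ a : ↥OK, algebraMap ↥OK (ModelField K₁ (M' * q)) a ∈ O₁ := fun a => by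
    rw [asm_algebraMap_model]
    have h1 : (a : K₁) ∈ O₁.comap (algebraMap K₁ (ModelField K₁ (M' * q))) := by
      rw [h.comap₁]; exact a.2
    exact h1
  have hA₂ : ∀ a : ↥OK, algebraMap ↥OK (ModelField K₁ (M' * q)) a ∈ O₂ := fun a => by
    rw [asm_algebraMap_model]
    have h1 : (a : K₁) ∈ O₂.comap (algebraMap K₁ (ModelField K₁ (M' * q))) := by
      rw [h.comap₂]; exact a.2
    exact h1
  obtain ⟨N1, N2, N3, N4⟩ := normRedConstAt_val3 ↥OK (asmα M' q K₁) (asmβ M' q K₁) hαA hβA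
    O₁ O₂ h.pir₁ h.pir₂ hA₁ hA₂ V20 V11 V02 q hq.pos Y₁ Z h.unif₁ h.unif₂ h.degα h.degβ hD
  -- the three vertical valuations
  have hU20 : IsUniformiser (ModelField K₁ (M' * q * q)) V20
      ((q : ℕ) : ModelField K₁ (M' * q * q)) := hD.unif₂₀
  have hU02 : IsUniformiser (ModelField K₁ (M' * q * q)) V02
      ((q : ℕ) : ModelField K₁ (M' * q * q)) := hD.unif₀₂
  have hZ : IsUniformiser (ModelField K₁ (M' * q * q)) V11 Z := hD.unif₁₁
  have hq0 : ((q : ℕ) : ModelField K₁ (M' * q * q)) ≠ 0 := hU20.1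
  have hZ0 : Z ≠ 0 := hZ.1
  have hq11 : ((q : ℕ) : ModelField K₁ (M' * q * q)) ∈ V11.nonunits := by
    have e : ((q : ℕ) : ModelField K₁ (M' * q * q))
        = ((q : ℕ) : ModelField K₁ (M' * q * q)) / Z ^ (q - 1) * Z ^ (q - 2) * Z := by
      have hq2 : q - 1 = (q - 2) + 1 := by have := hq.two_le; omega
      rw [hq2, pow_succ]
      field_simp
    rw [e]
    exact asm_mul_mem_nonunits
      (V11.mul_mem _ _ hD.ram₁₁.1 (V11.pow_mem (V11.nonunits_le hZ.2.1) _)) hZ.2.1
  have hV20 : IsVertical ↥OK (ModelField K₁ (M' * q * q)) ((q : ℕ) : ↥OK) x V20 :=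
    ⟨asm_ne_top_of_mem_nonunits hq0 hU20.2.1, hD.pir₂₀, fun z hz => ((h.gauss z).1 hz).1,
      by rw [hιq]; exact hU20.2.1⟩
  have hV11 : IsVertical ↥OK (ModelField K₁ (M' * q * q)) ((q : ℕ) : ↥OK) x V11 :=
    ⟨asm_ne_top_of_mem_nonunits hq0 hq11, hD.pir₁₁, fun z hz => ((h.gauss z).1 hz).2.1,
      by rw [hιq]; exact hq11⟩
  have hV02 : IsVertical ↥OK (ModelField K₁ (M' * q * q)) ((q : ℕ) : ↥OK) x V02 :=
    ⟨asm_ne_top_of_mem_nonunits hq0 hU02.2.1, hD.pir₀₂, fun z hz => ((h.gauss z).1 hz).2.2,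
      by rw [hιq]; exact hU02.2.1⟩
  -- weak approximation
  have hdvr : ∀ V : ValuationSubring (ModelField K₁ (M' * q * q)), IsPrincipalIdealRing V →
      ((q : ℕ) : ModelField K₁ (M' * q * q)) ∈ V.nonunits → IsDiscreteValuationRing V := by
    intro V hpir hqV
    haveI := hpir
    exact
      { not_a_field' := by
          intro hbot
          have hmem : (⟨((q : ℕ) : ModelField K₁ (M' * q * q)), V.nonunits_le hqV⟩ : V)
              ∈ IsLocalRing.maximalIdeal V :=
            ValuationSubring.coe_mem_nonunits_iff.1 hqV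
          rw [hbot, Ideal.mem_bot] at hmem
          exact hq0 (congrArg (fun t : V => (t : ModelField K₁ (M' * q * q))) hmem) }
  have happ : ∀ a b c : ModelField K₁ (M' * q * q), ∃ g : ModelField K₁ (M' * q * q),
      g - a ∈ V20.nonunits ∧ g - b ∈ V11.nonunits ∧ g - c ∈ V02.nonunits := by
    intro a b c
    have hVinj : Function.Injective ![V20, V11, V02] := by
      intro i j hij
      fin_cases i <;> fin_cases j <;> first
        | rfl
        | exact absurd hij hD.ne₁
        | exact absurd hij hD.ne₂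
        | exact absurd hij hD.ne₃
        | exact absurd hij.symm hD.ne₁
        | exact absurd hij.symm hD.ne₂
        | exact absurd hij.symm hD.ne₃
    obtain ⟨g, hg⟩ := Fermat.Agent.H37.SS2.weakApprox_dvr ![V20, V11, V02] hVinj
      (by
        intro i
        fin_cases i
        · exact hdvr V20 hD.pir₂₀ hU20.2.1
        · exact hdvr V11 hD.pir₁₁ hq11
        · exact hdvr V02 hD.pir₀₂ hU02.2.1)
      ![a, b, c] ![((q : ℕ) : ModelField K₁ (M' * q * q)), ((q : ℕ) : ModelField K₁ (M' * q * q)),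
        ((q : ℕ) : ModelField K₁ (M' * q * q))]
      (by intro i; fin_cases i <;> exact hq0)
    obtain ⟨c0, hc0, e0⟩ := hg 0
    obtain ⟨c1, hc1, e1⟩ := hg 1
    obtain ⟨c2, hc2, e2⟩ := hg 2
    simp only [Matrix.cons_val_zero, Matrix.cons_val_one, Matrix.cons_val] at e0 e1 e2 hc0 hc1 hc2
    refine ⟨g, ?_, ?_, ?_⟩
    · rw [e0, mul_comm ((q : ℕ) : ModelField K₁ (M' * q * q)) c0]
      exact asm_mul_mem_nonunits hc0 hU20.2.1
    · rw [e1, mul_comm ((q : ℕ) : ModelField K₁ (M' * q * q)) c1]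
      exact asm_mul_mem_nonunits hc1 hq11
    · rw [e2, mul_comm ((q : ℕ) : ModelField K₁ (M' * q * q)) c2]
      exact asm_mul_mem_nonunits hc2 hU02.2.1
  exact
    { chart := h.chart
      val3 := h.val3
      pir₁ := h.pir₁
      pir₂ := h.pir₂
      unif₁ := h.unif₁
      unif₂ := h.unif₂
      comap₁ := h.comap₁
      comap₂ := h.comap₂
      degα := h.degα
      degβ := h.degβ
      gauss := h.gauss
      vert := h.vert
      vert20 := hV20
      vert11 := hV11
      vert02 := hV02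
      approx := happ
      nrα₁ := N1
      nrα₂ := N2
      nrβ₁ := N3
      nrβ₂ := N4 }

end Min

end Fermat.Agent.H35.SS2
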