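import Fermat.Agent.H35.SS2.AsmFinal
import Fermat.Agent.H4.SS2.ModelVal3B
import Fermat.Agent.H4.SS2.ChartEq
import Fermat.Agent.H93.SS2.VertIff
import Fermat.Agent.H61.SS2.AsmGlobal
import Fermat.Agent.H46.SS2.AsmCusp

/-!
# P-SS2 (S36), row SS2-C8 (helper35), part (b) ASM: the glue for `q ≠ 2`, `4 ∣ M'`

Plugged in (all landed, unconditional):
* the keystone `Fermat.Agent.H4.SS2.modelVal3Data_routeB_vInf` (helper4; `Val3Data` for
  `O₁ = vInf`, `O₂ = vZero Wq`, `V₂₀ = vInf` of level `M' q q`), with VERT-IFF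
  (`Fermat.Agent.H93.SS2.modelVertIff`, helper93) and CHART-EQ (`Fermat.Agent.H4.SS2.modelChartEq`);
* the Atkin-Lehner involution `Fermat.Agent.H62.SS.modelAtkinLehnerExists`;
* (G) `Fermat.Agent.H61.SS2.asmGlobal_of_val3` (helper61);
* (C) `Fermat.Agent.H46.SS2.asmCusp_of_global` (helper46).

The only remaining input is (P): `AsmPointsModelStatement M' q`.

* `asmGeom_of_points` : `AsmPointsModelStatement M' q → AsmGeomStatement M' q`;
* `newInvariantFF_of_points` : `AsmPointsModelStatement M' q → NewInvariantFFStatement (M' q) q`.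
-/

set_option autoImplicit false
set_option linter.style.haveILetI false
set_option linter.unusedSectionVars false

noncomputable section

namespace Fermat.Agent.H35.SS2

open ModularCurve AlgebraicCurve
open Fermat.Agent.H22.KL Fermat.Agent.H11.SS2 Fermat.Agent.H82.SS
open Fermat.Agent.H7.SS2 Fermat.Agent.H86.SS2

/-- **(P) at the model level** (`q ≠ 2`, Hauptmodul of level 4): the closed points of the model
of level `M' q²`, for the valuations of the keystone.  All available data are hypotheses. -/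
def AsmPointsModelStatement (M' q : ℕ) [NeZero M'] [NeZero q] : Prop :=
  ∀ (K₁ : Type) [Field K₁] [Algebra ℚ K₁] [FiniteDimensional ℚ K₁] (OK : ValuationSubring K₁)
    [IsDiscreteValuationRing ↥OK]
    [Algebra ↥OK (ModelField K₁ (M' * q))] [IsScalarTower ↥OK K₁ (ModelField K₁ (M' * q))]
    [Algebra ↥OK (ModelField K₁ (M' * q * q))]
    [IsScalarTower ↥OK K₁ (ModelField K₁ (M' * q * q))],
    Irreducible ((q : ℕ) : ↥OK) →
    ∀ (Wq : ModelField K₁ (M' * q) ≃ₐ[K₁] ModelField K₁ (M' * q)),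
      IsAtkinLehnerModel K₁ M' q Wq →
    ∀ (x : ModelField K₁ (M' * q * q)) (X₁ Y₁ : ModelField K₁ (M' * q))
      (Z : ModelField K₁ (M' * q * q))
      (V11 V02 : ValuationSubring (ModelField K₁ (M' * q * q))),
      (x : LaurentSeries K₁) = jqModC K₁ →
      (X₁ : LaurentSeries K₁) = sX1 K₁ q → (Y₁ : LaurentSeries K₁) = sY1 K₁ q →
      (Z : LaurentSeries K₁) = sZ K₁ q →
      Val3Data (asmα M' q K₁) (asmβ M' q K₁) (vInf K₁ ↥OK (M' * q))
        (vZero K₁ ↥OK (M' * q) Wq) (vInf K₁ ↥OK (M' * q * q)) V11 V02 q Y₁ Z →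
      AsmGlobal M' q K₁ OK x (vInf K₁ ↥OK (M' * q)) (vZero K₁ ↥OK (M' * q) Wq)
        (vInf K₁ ↥OK (M' * q * q)) V11 V02 Y₁ Z →
      AsmPoints M' q K₁ OK x (vInf K₁ ↥OK (M' * q)) (vZero K₁ ↥OK (M' * q) Wq)
        (vInf K₁ ↥OK (M' * q * q)) V11 V02

/-- the chart `j` of the model field -/
theorem asm_exists_chart (N : ℕ) [NeZero N] (K₁ : Type) [Field K₁] [Algebra ℚ K₁] :
    ∃ x : ModelField K₁ N, (x : LaurentSeries K₁) = jqModC K₁ := by
  have h : jqModC K₁ ∈ laurentBaseChange K₁ (modularFunctionFieldFull N) := by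
    rw [← ss2_coeffEmb_jq]
    exact coeffEmb_mem_laurentBaseChange K₁ (jqModC_mem_full ℚ N)
  exact ⟨⟨_, h⟩, rfl⟩

/-- **The geometric package** for `q ≠ 2`, `4 ∣ M'` from (P). -/
theorem asmGeom_of_points (M' q : ℕ) [NeZero M'] [NeZero q] (hq : q.Prime) (hq2 : q ≠ 2)
    (h4 : 4 ∣ M') (hqM : ¬ q ∣ M') (hP : AsmPointsModelStatement M' q) :
    AsmGeomStatement M' q := by
  intro K₁ _ _ _ OK _ _ _ _ _ hirr
  haveI : Fact q.Prime := ⟨hq⟩
  haveI hN : NeZero (M' * q * q) :=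
    ⟨Nat.mul_ne_zero (Nat.mul_ne_zero (NeZero.ne M') (NeZero.ne q)) (NeZero.ne q)⟩
  have hcop : Nat.Coprime M' q := ((Nat.Prime.coprime_iff_not_dvd hq).2 hqM).symm
  obtain ⟨Wq, hWq⟩ := Fermat.Agent.H62.SS.modelAtkinLehnerExists M' q hcop K₁
  obtain ⟨X₁, Y₁, Z, V11, V02, hX, hY, hZ, hval⟩ :=
    Fermat.Agent.H4.SS2.modelVal3Data_routeB_vInf K₁ ↥OK M' q
      (Fermat.Agent.H93.SS2.modelVertIff M' q (Fermat.Agent.H4.SS2.modelChartEq M' q))
      hq2 h4 hqM hirr Wq hWq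
  obtain ⟨x, hx⟩ := asm_exists_chart (M' * q * q) K₁
  have hG := Fermat.Agent.H61.SS2.asmGlobal_of_val3 M' q hq hqM K₁ OK hirr Wq hWq x hx
    (vInf K₁ ↥OK (M' * q * q)) V11 V02 Y₁ Z hval
  exact ⟨x, _, _, _, V11, V02, Y₁, Z, hG,
    hP K₁ OK hirr Wq hWq x X₁ Y₁ Z V11 V02 hx hX hY hZ hval hG,
    fun n hn _ => Fermat.Agent.H46.SS2.asmCusp_of_global M' q K₁ OK hirr hG n hn⟩

/-- **(KC-FF) at level `M' q²`** for `q ≠ 2`, `4 ∣ M'`, from (P). -/
theorem newInvariantFF_of_points (M' q : ℕ) [NeZero M'] [NeZero q] (hq : q.Prime) (hq2 : q ≠ 2)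
    (h4 : 4 ∣ M') (hqM : ¬ q ∣ M') (hP : AsmPointsModelStatement M' q) :
    NewInvariantFFStatement (M' * q) q :=
  newInvariantFF_of_geom M' q hq (asmGeom_of_points M' q hq hq2 h4 hqM hP)

end Fermat.Agent.H35.SS2
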