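import Fermat.Agent.H35.SS2.AsmGlue2

/-!
# P-SS2 (S36), row SS2-C8 (helper35), part (b) ASM: the glue for ALL primes `q` (Hauptmodul-free)

For the twin `q = 2`, `9 ∣ M'` (and as a uniform form): the keystone (`Val3Data` for
`O₁ = vInf`, `O₂ = vZero Wq`) and the closed points (P) enter as ONE hypothesis
`AsmValPointsStatement M' q R` over the bases containing a primitive `R`-th root of unity
(`q ∤ R`); (G) `Fermat.Agent.H61.SS2.asmGlobal_of_val3`, (C) `Fermat.Agent.H46.SS2.asmCusp_of_global`,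
the Atkin-Lehner involution and the whole assembly + descent are plugged in.

* `asmGeomLarge_of_valPoints` : `AsmValPointsStatement M' q R → AsmGeomLargeStatement M' q`;
* `newInvariantFF_of_valPoints` : `AsmValPointsStatement M' q R → NewInvariantFFStatement (M' q) q`;
* `asmValPoints_of_pointsRoot` : the case `q ≠ 2`, `4 ∣ M'` from `AsmPointsModelRootStatement`.
-/

set_option autoImplicit false
set_option linter.style.haveILetI false
set_option linter.unusedSectionVars false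

noncomputable section

namespace Fermat.Agent.H35.SS2

open ModularCurve AlgebraicCurve
open Fermat.Agent.H22.KL Fermat.Agent.H11.SS2 Fermat.Agent.H82.SS
open Fermat.Agent.H7.SS2 Fermat.Agent.H86.SS2 Fermat.Agent.H19.SS2 Fermat.Agent.H93.KL

/-- **Keystone + (P)**, for any prime `q`: over every unramified base containing a primitive
`R`-th root of unity there are `Val3Data` for `O₁ = vInf`, `O₂ = vZero Wq` such that the closed
points of the model of level `M' q²` are as required by the assembly. -/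
def AsmValPointsStatement (M' q R : ℕ) [NeZero M'] [NeZero q] : Prop :=
  ∀ (K₁ : Type) [Field K₁] [Algebra ℚ K₁] [FiniteDimensional ℚ K₁] (OK : ValuationSubring K₁)
    [IsDiscreteValuationRing ↥OK]
    [Algebra ↥OK (ModelField K₁ (M' * q))] [IsScalarTower ↥OK K₁ (ModelField K₁ (M' * q))]
    [Algebra ↥OK (ModelField K₁ (M' * q * q))]
    [IsScalarTower ↥OK K₁ (ModelField K₁ (M' * q * q))],
    Irreducible ((q : ℕ) : ↥OK) → (∃ ζ : K₁, IsPrimitiveRoot ζ R) →
    ∀ (Wq : ModelField K₁ (M' * q) ≃ₐ[K₁] ModelField K₁ (M' * q)),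
      IsAtkinLehnerModel K₁ M' q Wq →
    ∀ (x : ModelField K₁ (M' * q * q)), (x : LaurentSeries K₁) = jqModC K₁ →
      ∃ (Y₁ : ModelField K₁ (M' * q)) (Z : ModelField K₁ (M' * q * q))
        (V20 V11 V02 : ValuationSubring (ModelField K₁ (M' * q * q))),
        Val3Data (asmα M' q K₁) (asmβ M' q K₁) (vInf K₁ ↥OK (M' * q))
          (vZero K₁ ↥OK (M' * q) Wq) V20 V11 V02 q Y₁ Z ∧
        (AsmGlobal M' q K₁ OK x (vInf K₁ ↥OK (M' * q)) (vZero K₁ ↥OK (M' * q) Wq)
            V20 V11 V02 Y₁ Z →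
          AsmPoints M' q K₁ OK x (vInf K₁ ↥OK (M' * q)) (vZero K₁ ↥OK (M' * q) Wq)
            V20 V11 V02)

/-- **The geometric package over large bases**, any prime `q ∤ M'`, from keystone + (P). -/
theorem asmGeomLarge_of_valPoints (M' q R : ℕ) [NeZero M'] [NeZero q] (hq : q.Prime)
    (hqM : ¬ q ∣ M') (hR : 0 < R) (hqR : ¬ q ∣ R)
    (hP : AsmValPointsStatement M' q R) : AsmGeomLargeStatement M' q := by
  intro A hA
  obtain ⟨ζ, hζ, hfix⟩ := asm_exists_fixed_primitiveRoot hq A hA R hR hqR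
  refine ⟨{ζ}, ?_, ?_⟩
  · intro s hs σ hσ
    rw [Finset.mem_singleton] at hs
    subst hs
    exact hfix σ hσ
  intro K₁ _ _ _ ι _ hS _ _ _ _ _ hirr
  obtain ⟨ζ₁, hζ₁⟩ := hS ζ (Finset.mem_singleton_self ζ)
  have hroot : ∃ ζ' : K₁, IsPrimitiveRoot ζ' R :=
    ⟨ζ₁, IsPrimitiveRoot.of_map_of_injective (f := ι) (hζ₁ ▸ hζ) ι.injective⟩
  haveI : Fact q.Prime := ⟨hq⟩
  haveI hN : NeZero (M' * q * q) :=
    ⟨Nat.mul_ne_zero (Nat.mul_ne_zero (NeZero.ne M') (NeZero.ne q)) (NeZero.ne q)⟩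
  have hcop : Nat.Coprime M' q := ((Nat.Prime.coprime_iff_not_dvd hq).2 hqM).symm
  obtain ⟨Wq, hWq⟩ := Fermat.Agent.H62.SS.modelAtkinLehnerExists M' q hcop K₁
  obtain ⟨x, hx⟩ := asm_exists_chart (M' * q * q) K₁
  obtain ⟨Y₁, Z, V20, V11, V02, hval, hpts⟩ := hP K₁ (A.comap ι) hirr hroot Wq hWq x hx
  have hG := Fermat.Agent.H61.SS2.asmGlobal_of_val3 M' q hq hqM K₁ (A.comap ι) hirr Wq hWq x hx
    V20 V11 V02 Y₁ Z hval
  exact ⟨x, _, _, V20, V11, V02, Y₁, Z, hG, hpts hG,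
    fun n hn _ => Fermat.Agent.H46.SS2.asmCusp_of_global M' q K₁ (A.comap ι) hirr hG n hn⟩

/-- **(KC-FF) at level `M' q²`**, any prime `q ∤ M'`, from keystone + (P). -/
theorem newInvariantFF_of_valPoints (M' q R : ℕ) [NeZero M'] [NeZero q] (hq : q.Prime)
    (hqM : ¬ q ∣ M') (hR : 0 < R) (hqR : ¬ q ∣ R)
    (hP : AsmValPointsStatement M' q R) : NewInvariantFFStatement (M' * q) q :=
  newInvariantFF_of_geomLarge M' q hq (asmGeomLarge_of_valPoints M' q R hq hqM hR hqR hP)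

/-- the case `q ≠ 2`, `4 ∣ M'`: keystone + (P) from (P) (keystone of helper4 plugged in) -/
theorem asmValPoints_of_pointsRoot (M' q R : ℕ) [NeZero M'] [NeZero q] (hq : q.Prime)
    (hq2 : q ≠ 2) (h4 : 4 ∣ M') (hqM : ¬ q ∣ M')
    (hP : AsmPointsModelRootStatement M' q R) : AsmValPointsStatement M' q R := by
  intro K₁ _ _ _ OK _ _ _ _ _ hirr hroot Wq hWq x hx
  haveI : Fact q.Prime := ⟨hq⟩
  obtain ⟨X₁, Y₁, Z, V11, V02, hX, hY, hZ, hval⟩ :=
    Fermat.Agent.H4.SS2.modelVal3Data_routeB_vInf K₁ ↥OK M' q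
      (Fermat.Agent.H93.SS2.modelVertIff M' q (Fermat.Agent.H4.SS2.modelChartEq M' q))
      hq2 h4 hqM hirr Wq hWq
  exact ⟨Y₁, Z, _, V11, V02, hval,
    fun hG => hP K₁ OK hirr hroot Wq hWq x X₁ Y₁ Z V11 V02 hx hX hY hZ hval hG⟩

end Fermat.Agent.H35.SS2
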