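import Fermat.Agent.H35.SS2.AsmGlue3
import Fermat.Agent.H22.SS2.PointsInv

/-!
# P-SS2 (S36), row SS2-C8 (helper35), part (b) ASM: the chart `x⁻¹` half of (P) plugged in

helper22's `Fermat.Agent.H22.SS2.asmPointsInv` (all primes `q ∤ M'`, bases containing a primitive
`M'`-th root of unity) is plugged into the glue.  The ONLY remaining input is the chart `x` half
of (P):

* `asmPointsInv_model` : `AsmPointsInvStatement M' q M'`;
* `newInvariantFF_of_chart` (`q ≠ 2`, `4 ∣ M'`) :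
  `AsmPointsChartStatement M' q R → NewInvariantFFStatement (M' * q) q`;
* `AsmValChartStatement M' q R`, `newInvariantFF_of_valChart` (all primes `q ∤ M'`,
  Hauptmodul-free): keystone + chart `x` half as one hypothesis.
-/

set_option autoImplicit false
set_option linter.style.haveILetI false
set_option linter.unusedSectionVars false

noncomputable section

namespace Fermat.Agent.H35.SS2

open ModularCurve AlgebraicCurve
open Fermat.Agent.H22.KL Fermat.Agent.H11.SS2 Fermat.Agent.H82.SS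
open Fermat.Agent.H7.SS2 Fermat.Agent.H86.SS2 Fermat.Agent.H19.SS2 Fermat.Agent.H93.KL

/-- **(P), chart `x⁻¹`** (helper22), all primes `q ∤ M'`. -/
theorem asmPointsInv_model (M' q : ℕ) [NeZero M'] [NeZero q] (hq : q.Prime) (hqM : ¬ q ∣ M') :
    AsmPointsInvStatement M' q M' := by
  intro K₁ _ _ _ OK _ _ _ _ _ hirr hζ Wq hWq x Y₁ Z V20 V11 V02 hG
  exact Fermat.Agent.H22.SS2.asmPointsInv M' q hq hqM K₁ OK hirr hζ Wq hWq hG

/-- **(KC-FF) at level `M' q²`** for `q ≠ 2`, `4 ∣ M'`, from the chart `x` half of (P) over bases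
containing a primitive `R`-th root of unity (`q ∤ R`). -/
theorem newInvariantFF_of_chart (M' q R : ℕ) [NeZero M'] [NeZero q] (hq : q.Prime)
    (hq2 : q ≠ 2) (h4 : 4 ∣ M') (hqM : ¬ q ∣ M') (hR : 0 < R) (hqR : ¬ q ∣ R)
    (hC : AsmPointsChartStatement M' q R) : NewInvariantFFStatement (M' * q) q :=
  newInvariantFF_of_halves M' q R M' hq hq2 h4 hqM hR (Nat.pos_of_ne_zero (NeZero.ne M'))
    hqR hqM hC (asmPointsInv_model M' q hq hqM)

/-- **Keystone + (P), chart `x`**, for any prime `q`: over every unramified base containing a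
primitive `R`-th root of unity there are `Val3Data` for `O₁ = vInf`, `O₂ = vZero Wq` such that the
closed points of the chart `x` of the model of level `M' q²` are as required by the assembly. -/
def AsmValChartStatement (M' q R : ℕ) [NeZero M'] [NeZero q] : Prop :=
  ∀ (K₁ : Type) [Field K₁] [Algebra ℚ K₁] [FiniteDimensional ℚ K₁] (OK : ValuationSubring K₁)
    [IsDiscreteValuationRing ↥OK]
    [Algebra ↥OK (ModelField K₁ (M' * q))] [IsScalarTower ↥OK K₁ (ModelField K₁ (M' * q))]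
    [Algebra ↥OK (ModelField K₁ (M' * q * q))]
    [IsScalarTower ↥OK K₁ (ModelField K₁ (M' * q * q))],
    Irreducible ((q : ℕ) : ↥OK) → (∃ ζ : K₁, IsPrimitiveRoot ζ R) →
    ∀ (Wq : ModelField K₁ (M' * q) ≃ₐ[K₁] ModelField K₁ (M' * q)),
      IsAtkinLehnerModel K₁ M' q Wq →
    ∀ (x : ModelField K₁ (M' * q * q)), (x : LaurentSeries K₁) = jqModC K₁ →
      ∃ (Y₁ : ModelField K₁ (M' * q)) (Z : ModelField K₁ (M' * q * q))
        (V20 V11 V02 : ValuationSubring (ModelField K₁ (M' * q * q))),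
        Val3Data (asmα M' q K₁) (asmβ M' q K₁) (vInf K₁ ↥OK (M' * q))
          (vZero K₁ ↥OK (M' * q) Wq) V20 V11 V02 q Y₁ Z ∧
        (AsmGlobal M' q K₁ OK x (vInf K₁ ↥OK (M' * q)) (vZero K₁ ↥OK (M' * q) Wq)
            V20 V11 V02 Y₁ Z →
          ∀ 𝔪 : Ideal (chartClosure ↥OK (ModelField K₁ (M' * q * q)) x), 𝔪.IsMaximal →
            algebraMap ↥OK (chartClosure ↥OK (ModelField K₁ (M' * q * q)) x) ((q : ℕ) : ↥OK)
              ∈ 𝔪 →
            AsmPt ↥OK (ModelField K₁ (M' * q)) (ModelField K₁ (M' * q * q)) q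
              (asmα M' q K₁) (asmβ M' q K₁) (vInf K₁ ↥OK (M' * q))
              (vZero K₁ ↥OK (M' * q) Wq) V20 V11 V02 x 𝔪)

/-- keystone + (P) from keystone + chart `x` half (helper22's chart `x⁻¹` half plugged in) -/
theorem asmValPoints_of_valChart (M' q R : ℕ) [NeZero M'] [NeZero q] (hq : q.Prime)
    (hqM : ¬ q ∣ M') (hR : 0 < R) (hC : AsmValChartStatement M' q R) :
    AsmValPointsStatement M' q (R * M') := by
  intro K₁ _ _ _ OK _ _ _ _ _ hirr hζ Wq hWq x hx
  have hRM : 0 < R * M' := Nat.mul_pos hR (Nat.pos_of_ne_zero (NeZero.ne M'))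
  obtain ⟨Y₁, Z, V20, V11, V02, hval, hpts⟩ :=
    hC K₁ OK hirr (asm_primitiveRoot_of_dvd hRM (dvd_mul_right R M') hζ) Wq hWq x hx
  exact ⟨Y₁, Z, V20, V11, V02, hval, fun hG => ⟨hpts hG,
    Fermat.Agent.H22.SS2.asmPointsInv M' q hq hqM K₁ OK hirr
      (asm_primitiveRoot_of_dvd hRM (dvd_mul_left M' R) hζ) Wq hWq hG⟩⟩

/-- **(KC-FF) at level `M' q²`**, any prime `q ∤ M'`, from keystone + chart `x` half of (P). -/
theorem newInvariantFF_of_valChart (M' q R : ℕ) [NeZero M'] [NeZero q] (hq : q.Prime)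
    (hqM : ¬ q ∣ M') (hR : 0 < R) (hqR : ¬ q ∣ R)
    (hC : AsmValChartStatement M' q R) : NewInvariantFFStatement (M' * q) q :=
  newInvariantFF_of_valPoints M' q (R * M') hq hqM
    (Nat.mul_pos hR (Nat.pos_of_ne_zero (NeZero.ne M')))
    (fun h => (hq.dvd_mul.mp h).elim hqR hqM)
    (asmValPoints_of_valChart M' q R hq hqM hR hC)

end Fermat.Agent.H35.SS2
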