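import Fermat.Agent.H35.SS2.AsmBase
import Fermat.Agent.H19.SS2.AsmCore
import Fermat.Agent.H87.SS2.Val3Final
import Fermat.Agent.H55.SS.KTAsmLemmas

/-!
# P-SS2 (S36), row SS2-C8 (helper35), part (b) ASM: the assembly step over one base

`asm_step` : over a base `OK` (discrete valuation subring of `K₁` with uniformiser `q`) carrying
the geometric package `AsmGeom`, a function `u ≠ 0` of level `M' q²` whose divisor is divisible by
`m` (`q ∤ m`) and whose two norms are `q ^ a · (m-th power)` satisfies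
`w ^ m = κ · u ^ ((q + 1) (q - 1) · (q (q² - 1)))` for a constant `κ ≠ 0`.

Chain: `Fermat.Agent.H87.SS2.val3_one_unit` (steps S1-S2, `asm_val3Base`) and
`Fermat.Agent.H19.SS2.asmCore` (steps S3-S5, `asm_apply_core`).
-/

set_option autoImplicit false
set_option linter.style.haveILetI false
set_option linter.unusedSectionVars false

noncomputable section

namespace Fermat.Agent.H35.SS2

open ModularCurve AlgebraicCurve
open Fermat.Agent.H22.KL Fermat.Agent.H11.SS2 Fermat.Agent.H68.SS2 Fermat.Agent.H19.SS2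
open Fermat.Agent.H93.KL Fermat.Agent.H87.SS2

section Norm

/-- the norm along a finite embedding of fields does not vanish on nonzero elements -/
theorem asm_norm_ne_zero {F E : Type} [Field F] [Field E] (φ : F →+* E)
    (hfd : @FiniteDimensional F E _ _ (@Algebra.toModule F E _ _ φ.toAlgebra)) {u : E}
    (hu : u ≠ 0) : @Algebra.norm F E _ _ φ.toAlgebra u ≠ 0 := by
  letI := φ.toAlgebra
  haveI := hfd
  exact Algebra.norm_ne_zero_iff.mpr hu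

end Norm

section Step

variable (M' q : ℕ) [NeZero M'] [NeZero q] (K₁ : Type) [Field K₁] [Algebra ℚ K₁]
  (OK : ValuationSubring K₁) [IsDiscreteValuationRing ↥OK]
  [Algebra ↥OK (ModelField K₁ (M' * q))] [IsScalarTower ↥OK K₁ (ModelField K₁ (M' * q))]
  [Algebra ↥OK (ModelField K₁ (M' * q * q))]
  [IsScalarTower ↥OK K₁ (ModelField K₁ (M' * q * q))]

/-- the unit `q` of `K₁` -/
def asmQ (hq : q.Prime) : K₁ˣ :=
  haveI : CharZero K₁ := algebraRat.charZero K₁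
  Units.mk0 (q : K₁) (Nat.cast_ne_zero.mpr hq.ne_zero)

theorem asmQ_zpow (hq : q.Prime) (a : ℤ) : ((asmQ q K₁ hq ^ a : K₁ˣ) : K₁) = (q : K₁) ^ a := by
  rw [Units.val_zpow_eq_zpow_val]
  rfl

/-- **The base of the table** (`Val3Base`) with constants `K0 = q ^ ℤ`. -/
theorem asm_val3Base (hq : q.Prime) (hirr : Irreducible ((q : ℕ) : ↥OK))
    {x : ModelField K₁ (M' * q * q)}
    {O₁ O₂ : ValuationSubring (ModelField K₁ (M' * q))}
    {V20 V11 V02 : ValuationSubring (ModelField K₁ (M' * q * q))}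
    {Y₁ : ModelField K₁ (M' * q)} {Z : ModelField K₁ (M' * q * q)}
    (hG : AsmGlobal M' q K₁ OK x O₁ O₂ V20 V11 V02 Y₁ Z)
    (m : ℕ) (hm : 0 < m) (hζ : ∃ ζ : K₁, IsPrimitiveRoot ζ m) :
    Val3Base (algebraMap K₁ (ModelField K₁ (M' * q))) (asmα M' q K₁) (asmβ M' q K₁)
      OK O₁ O₂ q m (Subgroup.zpowers (asmQ q K₁ hq)) := by
  have hqOK : (((q : ℕ) : ↥OK) : K₁) = (q : K₁) := by simp
  have hunifK : DKUnif OK (q : K₁) := hqOK ▸ asm_dkUnif_of_irreducible OK hirr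
  exact
    { αβ := fun c => by
        show heckeAlphaBar K₁ (M' * q) q (algebraMap K₁ _ c)
          = heckeBetaBar K₁ (M' * q) q (algebraMap K₁ _ c)
        rw [AlgHom.commutes, AlgHom.commutes]
      pirK := inferInstance
      pir₁ := hG.pir₁
      pir₂ := hG.pir₂
      unifK := hunifK
      unif₁ := hG.unif₁
      unif₂ := hG.unif₂
      comap₁ := hG.comap₁
      comap₂ := hG.comap₂
      q_mem := ⟨asmQ q K₁ hq, Subgroup.mem_zpowers _, rfl⟩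
      const := by
        intro c hc hcu
        obtain ⟨a, rfl⟩ := Subgroup.mem_zpowers_iff.mp hc
        have hc0 : ((asmQ q K₁ hq ^ a : K₁ˣ) : K₁) ≠ 0 := Units.ne_zero _
        have h1 : OK.valuation ((asmQ q K₁ hq ^ a : K₁ˣ) : K₁) = 1 :=
          (vUnit_iff_valuation hc0).mp hcu
        rw [asmQ_zpow, map_zpow₀] at h1
        have hlt : OK.valuation (q : K₁) < 1 := mem_nonunits_iff_valuation.mp hunifK.2.1
        have ha : a = 0 := (zpow_eq_one_iff_right₀ zero_le hlt.ne).mp h1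
        subst ha
        refine ⟨1, vUnit_one, ?_⟩
        simp only [zpow_zero, Units.val_one, one_pow, div_one, sub_self]
        exact OK.nonunits.zero_mem
      m_pos := hm
      roots := hζ }

/-- conversion of the norm data of `val3_one_unit` into the form of `asmCore` -/
theorem asm_norm_data {φ : ModelField K₁ (M' * q) →+* ModelField K₁ (M' * q * q)}
    {O₁ O₂ : ValuationSubring (ModelField K₁ (M' * q))}
    {m : ℕ} (hm : 0 < m) {u₂ : ModelField K₁ (M' * q * q)}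
    {p : K₁} {h₂ : ModelField K₁ (M' * q)} {ω10 ω01 : K₁}
    (hp : p - 1 ∈ OK.nonunits) (hω10 : ω10 ^ m = 1) (hω01 : ω01 ^ m = 1)
    (hN : @Algebra.norm _ _ _ _ φ.toAlgebra u₂ = algebraMap K₁ (ModelField K₁ (M' * q)) p * h₂ ^ m)
    (hc₁ : h₂ / algebraMap K₁ (ModelField K₁ (M' * q)) ω10 - 1 ∈ O₁.nonunits)
    (hc₂ : h₂ / algebraMap K₁ (ModelField K₁ (M' * q)) ω01 - 1 ∈ O₂.nonunits) :
    ∃ (p' ω₁ ω₂ : ↥OK), IsUnit p' ∧
      algebraMap ↥OK (ModelField K₁ (M' * q)) p' * h₂ ^ m = @Algebra.norm _ _ _ _ φ.toAlgebra u₂ ∧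
      ω₁ ^ m = 1 ∧ ω₂ ^ m = 1 ∧
      h₂ - algebraMap ↥OK (ModelField K₁ (M' * q)) ω₁ ∈ O₁.nonunits ∧
      h₂ - algebraMap ↥OK (ModelField K₁ (M' * q)) ω₂ ∈ O₂.nonunits := by
  obtain ⟨hpm, hpu⟩ := asm_isUnit_of_sub_one_mem OK hp
  have hv10 := asm_valuation_eq_one_of_pow_eq_one OK hm hω10
  have hv01 := asm_valuation_eq_one_of_pow_eq_one OK hm hω01
  have hm10 : ω10 ∈ OK := (OK.valuation_le_one_iff ω10).mp hv10.le
  have hm01 : ω01 ∈ OK := (OK.valuation_le_one_iff ω01).mp hv01.le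
  have hpow10 : (algebraMap K₁ (ModelField K₁ (M' * q)) ω10) ^ m = 1 := by
    rw [← map_pow, hω10, map_one]
  have hpow01 : (algebraMap K₁ (ModelField K₁ (M' * q)) ω01) ^ m = 1 := by
    rw [← map_pow, hω01, map_one]
  refine ⟨⟨p, hpm⟩, ⟨ω10, hm10⟩, ⟨ω01, hm01⟩, hpu, ?_, Subtype.ext (by simpa using hω10),
    Subtype.ext (by simpa using hω01), ?_, ?_⟩
  · rw [asm_algebraMap_model, hN]
  · rw [asm_algebraMap_model]
    exact sub_mem_of_div_sub_one_mem (asm_valuation_eq_one_of_pow_eq_one O₁ hm hpow10) hc₁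
  · rw [asm_algebraMap_model]
    exact sub_mem_of_div_sub_one_mem (asm_valuation_eq_one_of_pow_eq_one O₂ hm hpow01) hc₂

/-- **Steps S3-S5**: `asmCore` at the model fields. -/
theorem asm_apply_core (hq : q.Prime) (hirr : Irreducible ((q : ℕ) : ↥OK))
    {x : ModelField K₁ (M' * q * q)}
    {O₁ O₂ : ValuationSubring (ModelField K₁ (M' * q))}
    {V20 V11 V02 : ValuationSubring (ModelField K₁ (M' * q * q))}
    {Y₁ : ModelField K₁ (M' * q)} {Z : ModelField K₁ (M' * q * q)}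
    (hG : AsmGlobal M' q K₁ OK x O₁ O₂ V20 V11 V02 Y₁ Z)
    (hP : AsmPoints M' q K₁ OK x O₁ O₂ V20 V11 V02)
    (m : ℕ) (hm : 0 < m) (hqm : ¬ q ∣ m) (hζ : ∃ ζ : K₁, IsPrimitiveRoot ζ m)
    (hC : AsmCusp M' q K₁ OK x V20 V11 V02 m)
    (u₂ : ModelField K₁ (M' * q * q))
    (h20 : u₂ - 1 ∈ V20.nonunits) (h11 : u₂ - 1 ∈ V11.nonunits) (h02 : u₂ - 1 ∈ V02.nonunits)
    (hord : ∀ V' : ValuationSubring (ModelField K₁ (M' * q * q)),
      IsPlace ↥OK (ModelField K₁ (M' * q * q)) V' → OrdDvd (ModelField K₁ (M' * q * q)) V' m u₂)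
    (hα : ∃ (p' ω₁ ω₂ : ↥OK) (h₂ : ModelField K₁ (M' * q)), IsUnit p' ∧
      algebraMap ↥OK (ModelField K₁ (M' * q)) p' * h₂ ^ m =
        @Algebra.norm _ _ _ _ (asmα M' q K₁).toAlgebra u₂ ∧
      ω₁ ^ m = 1 ∧ ω₂ ^ m = 1 ∧
      h₂ - algebraMap ↥OK (ModelField K₁ (M' * q)) ω₁ ∈ O₁.nonunits ∧
      h₂ - algebraMap ↥OK (ModelField K₁ (M' * q)) ω₂ ∈ O₂.nonunits)
    (hβ : ∃ (p' ω₁ ω₂ : ↥OK) (h₂ : ModelField K₁ (M' * q)), IsUnit p' ∧
      algebraMap ↥OK (ModelField K₁ (M' * q)) p' * h₂ ^ m =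
        @Algebra.norm _ _ _ _ (asmβ M' q K₁).toAlgebra u₂ ∧
      ω₁ ^ m = 1 ∧ ω₂ ^ m = 1 ∧
      h₂ - algebraMap ↥OK (ModelField K₁ (M' * q)) ω₁ ∈ O₁.nonunits ∧
      h₂ - algebraMap ↥OK (ModelField K₁ (M' * q)) ω₂ ∈ O₂.nonunits) :
    ∃ (c d : ↥OK) (w₀ : ModelField K₁ (M' * q * q)), c = 1 + ((q : ℕ) : ↥OK) * d ∧
      w₀ ^ m = algebraMap ↥OK (ModelField K₁ (M' * q * q)) c * u₂ ^ (q * (q ^ 2 - 1)) := by
  classical
  haveI : CharZero K₁ := algebraRat.charZero K₁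
  haveI : CharZero (ModelField K₁ (M' * q * q)) :=
    charZero_of_injective_algebraMap (algebraMap K₁ (ModelField K₁ (M' * q * q))).injective
  have hinjE := asm_algebraMap_injective (M' * q * q) K₁ OK
  have htr := asm_transcendental (M' * q * q) K₁ OK x hG.chart
  have hfd := asm_finite (M' * q * q) K₁ OK x hG.chart
  have hmA := asm_isUnit_natCast OK hq hirr hqm
  obtain ⟨ζ, hζA⟩ := asm_exists_primitiveRoot OK hm hζ
  haveI towE := IsScalarTower.of_algebraMap_eq (R := ↥OK) (S := ModelField K₁ (M' * q * q))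
    (A := LaurentSeries K₁) (asm_algebraMap_tower (M' * q * q) K₁ OK)
  obtain ⟨pα, ωα₁, ωα₂, h₂α, hpα, hNα, hωα₁, hωα₂, hcα₁, hcα₂⟩ := hα
  obtain ⟨pβ, ωβ₁, ωβ₂, h₂β, hpβ, hNβ, hωβ₁, hωβ₂, hcβ₁, hcβ₂⟩ := hβ
  obtain ⟨yc, hyc, 𝔪c, h𝔪c, hqc, Vc, hVc, hTc, hcusp⟩ := hC
  have hmem : ∀ V : ValuationSubring (ModelField K₁ (M' * q * q)), u₂ - 1 ∈ V.nonunits →
      CongrAt (ModelField K₁ (M' * q * q)) V u₂ 1 := by
    intro V hV
    refine ⟨?_, hV⟩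
    have h1 : u₂ = (u₂ - 1) + 1 := by ring
    rw [h1]
    exact V.add_mem _ _ (nonunits_mem hV) V.one_mem
  -- `Z ^ q / q ∈ V11`
  have hZq : Z ^ q / ((q : ℕ) : ModelField K₁ (M' * q * q)) ∈ V11 := by
    have h1 : Z ∈ V11 := nonunits_mem hG.val3.unif₁₁.2.1
    have h2 : (((q : ℕ) : ModelField K₁ (M' * q * q)) / Z ^ (q - 1))⁻¹ ∈ V11 := hG.val3.ram₁₁.2
    have h3 : Z ^ q / ((q : ℕ) : ModelField K₁ (M' * q * q))
        = Z * (((q : ℕ) : ModelField K₁ (M' * q * q)) / Z ^ (q - 1))⁻¹ := by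
      rw [inv_div, mul_div_assoc', ← pow_succ', Nat.sub_add_cancel hq.one_le]
    rw [h3]
    exact V11.mul_mem _ _ h1 h2
  exact asmCore ↥OK (ModelField K₁ (M' * q)) (ModelField K₁ (M' * q * q)) (LaurentSeries K₁)
    hinjE q hq hirr x htr hfd (asm_const_of_isIntegral OK) m hm hmA ζ hζA V20 V11 V02
    hG.gauss hG.vert hG.vert20 hG.val3.unif₂₀ hG.vert11 Z hG.val3.unif₁₁ hZq hG.vert02
    hG.val3.unif₀₂ hG.approx (asmα M' q K₁) (asmβ M' q K₁)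
    (fun a => by
      rw [asm_algebraMap_model, asm_algebraMap_model]
      exact (heckeAlphaBar K₁ (M' * q) q).commutes _)
    (fun a => by
      rw [asm_algebraMap_model, asm_algebraMap_model]
      exact (heckeBetaBar K₁ (M' * q) q).commutes _)
    hG.degα.1 hG.degβ.1 O₁ O₂ hG.nrα₁ hG.nrα₂ hG.nrβ₁ hG.nrβ₂
    u₂ (hmem V20 h20) (hmem V11 h11) (hmem V02 h02) hord
    h₂α pα ωα₁ ωα₂ hpα hNα hωα₁ hωα₂ hcα₁ hcα₂
    h₂β pβ ωβ₁ ωβ₂ hpβ hNβ hωβ₁ hωβ₂ hcβ₁ hcβ₂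
    hP.1 hP.2 yc hyc 𝔪c h𝔪c hqc Vc hVc hTc
    (fun ε hε hε1 => by
      obtain ⟨c, d, ω, hcd, hω⟩ := hcusp ε hε hε1
      refine ⟨c, d, ω, hcd, ?_⟩
      rw [hω, asm_algebraMap_laurent]
      rfl)

/-- constants have order zero at every place -/
theorem asm_ordDvd_const {E : Type} [Field E] [Algebra K₁ E] [Algebra ↥OK E]
    [IsScalarTower ↥OK K₁ E] (V : ValuationSubring E) (hV : IsPlace ↥OK E V) (n : ℕ) (κ : K₁) :
    OrdDvd E V n (algebraMap K₁ E κ) := by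
  obtain ⟨P, rfl⟩ := klAsm_exists_place (K₁ := K₁) V hV
  refine ⟨1, one_ne_zero, ?_, ?_⟩
  · rw [one_pow, mul_one]
    exact P.algebraMap_mem' κ
  · rw [one_pow, mul_one, ← map_inv₀]
    exact P.algebraMap_mem' κ⁻¹

/-- **The assembly step**: steps S1-S5 over one base carrying the geometric package. -/
theorem asm_step (hq : q.Prime) (hirr : Irreducible ((q : ℕ) : ↥OK))
    (hgeom : AsmGeom M' q K₁ OK)
    (m : ℕ) (hm : 0 < m) (hqm : ¬ q ∣ m) (hζ : ∃ ζ : K₁, IsPrimitiveRoot ζ m)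
    (u : ModelField K₁ (M' * q * q)) (hu : u ≠ 0)
    (hord : ∀ P : Place K₁ (ModelField K₁ (M' * q * q)), (m : ℤ) ∣ P.ord u)
    (hα : ∃ (a : ℤ) (h : ModelField K₁ (M' * q)),
      algebraMap K₁ (ModelField K₁ (M' * q)) ((q : K₁) ^ a) * h ^ m =
        ss2NormAlong (heckeAlphaBar K₁ (M' * q) q) u)
    (hβ : ∃ (a : ℤ) (h : ModelField K₁ (M' * q)),
      algebraMap K₁ (ModelField K₁ (M' * q)) ((q : K₁) ^ a) * h ^ m =
        ss2NormAlong (heckeBetaBar K₁ (M' * q) q) u) :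
    ∃ (κ : K₁) (w : ModelField K₁ (M' * q * q)), κ ≠ 0 ∧
      w ^ m = algebraMap K₁ (ModelField K₁ (M' * q * q)) κ *
        u ^ ((q + 1) * (q - 1) * (q * (q ^ 2 - 1))) := by
  classical
  obtain ⟨x, O₁, O₂, V20, V11, V02, Y₁, Z, hG, hP, hC⟩ := hgeom
  obtain ⟨aα, hα', hNα⟩ := hα
  obtain ⟨aβ, hβ', hNβ⟩ := hβ
  haveI : CharZero K₁ := algebraRat.charZero K₁
  haveI : CharZero (ModelField K₁ (M' * q)) :=
    charZero_of_injective_algebraMap (algebraMap K₁ (ModelField K₁ (M' * q))).injective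
  have hB := asm_val3Base M' q K₁ OK hq hirr hG m hm hζ
  -- the two norms of `u`
  have hNu_α : ss2NormAlong (heckeAlphaBar K₁ (M' * q) q) u ≠ 0 :=
    asm_norm_ne_zero (asmα M' q K₁) hG.degα.1 hu
  have hNu_β : ss2NormAlong (heckeBetaBar K₁ (M' * q) q) u ≠ 0 :=
    asm_norm_ne_zero (asmβ M' q K₁) hG.degβ.1 hu
  have hα0 : hα' ≠ 0 := by
    rintro rfl
    rw [zero_pow hm.ne', mul_zero] at hNα
    exact hNu_α hNα.symm
  have hβ0 : hβ' ≠ 0 := by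
    rintro rfl
    rw [zero_pow hm.ne', mul_zero] at hNβ
    exact hNu_β hNβ.symm
  have hcop : Nat.Coprime q m := (Nat.Prime.coprime_iff_not_dvd hq).mpr hqm
  -- steps S1-S2
  obtain ⟨κ, G, u₂, -, hu₂, h20, h11, h02, ⟨pα, h₂α, ωα₁₀, ωα₀₁, hpα, -, hωα₁₀, hωα₀₁, hN₂α,
      hcα₁, hcα₂⟩, ⟨pβ, h₂β, ωβ₁₀, ωβ₀₁, hpβ, -, hωβ₁₀, hωβ₀₁, hN₂β, hcβ₁, hcβ₂⟩⟩ :=
    val3_one_unit hq hB hG.val3 hG.degα hG.degβ hcop (Units.mk0 u hu)
      (asmQ q K₁ hq ^ aα) (asmQ q K₁ hq ^ aβ)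
      (Subgroup.zpow_mem_zpowers _ aα) (Subgroup.zpow_mem_zpowers _ aβ)
      (Units.mk0 hα' hα0) (Units.mk0 hβ' hβ0)
      (by rw [asmQ_zpow]; exact hNα.symm) (by rw [asmQ_zpow]; exact hNβ.symm)
  have hκE : (asmα M' q K₁) (algebraMap K₁ (ModelField K₁ (M' * q)) (κ : K₁))
      = algebraMap K₁ (ModelField K₁ (M' * q * q)) (κ : K₁) :=
    (heckeAlphaBar K₁ (M' * q) q).commutes _
  rw [hκE, Units.val_mk0] at hu₂
  -- the order of `u₂` at the places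
  have hord₂ : ∀ V' : ValuationSubring (ModelField K₁ (M' * q * q)),
      IsPlace ↥OK (ModelField K₁ (M' * q * q)) V' →
      OrdDvd (ModelField K₁ (M' * q * q)) V' m (u₂ : ModelField K₁ (M' * q * q)) := by
    intro V' hV'
    rw [hu₂]
    refine Fermat.Agent.H55.SS.kta_ordDvd_mul V' m (Fermat.Agent.H55.SS.kta_ordDvd_mul V' m
      (Fermat.Agent.H55.SS.kta_ordDvd_pow V' m ?_ _) (asm_ordDvd_const K₁ OK V' hV' m _))
      (Fermat.Agent.H55.SS.kta_ordDvd_pow_self V' m (Units.ne_zero G))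
    exact Fermat.Agent.H55.SS.kta_ordDvd_all_of_places (A₀ := ↥OK) m hu hord V' hV'
  -- steps S3-S5
  obtain ⟨pα', ωα₁, ωα₂, hpα', hNα', hωα₁, hωα₂, hcα₁', hcα₂'⟩ :=
    asm_norm_data M' q K₁ OK hm hpα hωα₁₀ hωα₀₁ hN₂α hcα₁ hcα₂
  obtain ⟨pβ', ωβ₁, ωβ₂, hpβ', hNβ', hωβ₁, hωβ₂, hcβ₁', hcβ₂'⟩ :=
    asm_norm_data M' q K₁ OK hm hpβ hωβ₁₀ hωβ₀₁ hN₂β hcβ₁ hcβ₂
  obtain ⟨c, d, w₀, hcd, hw₀⟩ := asm_apply_core M' q K₁ OK hq hirr hG hP m hm hqm hζ
    (hC m hm (asm_isUnit_natCast OK hq hirr hqm)) (u₂ : ModelField K₁ (M' * q * q))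
    h20 h11 h02 hord₂
    ⟨pα', ωα₁, ωα₂, h₂α, hpα', hNα', hωα₁, hωα₂, hcα₁', hcα₂'⟩
    ⟨pβ', ωβ₁, ωβ₂, h₂β, hpβ', hNβ', hωβ₁, hωβ₂, hcβ₁', hcβ₂'⟩
  -- conclusion
  have hc0 : (c : K₁) ≠ 0 := by
    intro h0
    have hc0' : c = 0 := Subtype.ext h0
    rw [hc0'] at hcd
    have h1 : ((q : ℕ) : ↥OK) * (-d) = 1 := by
      have h2 : ((q : ℕ) : ↥OK) * d = -1 := by
        have := congrArg (fun z => z - 1) hcd
        simp only [zero_sub, add_sub_cancel_left] at this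
        exact this.symm
      rw [mul_neg, h2, neg_neg]
    exact hirr.not_isUnit (IsUnit.of_mul_eq_one _ h1)
  have hG0 : (G : ModelField K₁ (M' * q * q)) ≠ 0 := Units.ne_zero G
  refine ⟨(c : K₁) * (κ : K₁) ^ (q * (q ^ 2 - 1)),
    w₀ / (G : ModelField K₁ (M' * q * q)) ^ (q * (q ^ 2 - 1)),
    mul_ne_zero hc0 (pow_ne_zero _ (Units.ne_zero κ)), ?_⟩
  rw [div_pow, hw₀, hu₂, asm_algebraMap_model, map_mul, map_pow, div_eq_iff
    (pow_ne_zero _ (pow_ne_zero _ hG0))]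
  ring

end Step

end Fermat.Agent.H35.SS2
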