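import Fermat.Agent.H35.SS2.Defs
import Fermat.Agent.H27.FF.FixedDescent
import Fermat.Agent.H93.KL.AsmStepB

/-!
# P-SS2 row 905 (helper35) : coefficient descent and Kummer descent

* `ss2_coeffMap_mem` : coefficientwise base change along any `g : K → L` preserves the function
  fields `laurentBaseChange _ F₀`.
* `exists_klBc_eq_of_fixed` : an element of `F_{ℚ̄}` fixed (coefficientwise) by every
  automorphism of `ℚ̄` fixing `ι(K₁)` pointwise comes from `F_{K₁}`.
* `kummer_descent` : if `a ∈ F_{K₁}` becomes an `m`-th power in `F_{ℚ̄}`, then `a = γ h₁ ^ m`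
  with `γ ∈ K₁ˣ` and `h₁ ∈ F_{K₁}`.
-/

set_option autoImplicit false
set_option linter.style.haveILetI false

noncomputable section

namespace Fermat.Agent.H35.SS2

open AlgebraicCurve ModularCurve Fermat.Agent.H93.KL

section General

variable {K L : Type} [Field K] [Field L] [Algebra ℚ K] [Algebra ℚ L]

/-- Coefficientwise base change preserves the function fields. -/
theorem ss2_coeffMap_mem (g : K →+* L) (F₀ : IntermediateField ℚ (LaurentSeries ℚ))
    {f : LaurentSeries K} (hf : f ∈ laurentBaseChange K F₀) :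
    coeffMap g f ∈ laurentBaseChange L F₀ := by
  rw [mem_laurentBaseChange_iff] at hf
  induction hf using Subfield.closure_induction with
  | mem y hy =>
      rcases hy with ⟨a, rfl⟩ | ⟨z, hz, rfl⟩
      · rw [algebraMap_laurentSeries_eq_single, coeffMap_single,
          ← algebraMap_laurentSeries_eq_single]
        exact (laurentBaseChange L F₀).algebraMap_mem _
      · have h : coeffMap g (coeffEmb K z) = coeffEmb L z := by
          rw [coeffEmb, coeffMap_coeffMap]
          exact coeffMap_congr (RingHom.ext fun c => by simp) z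
        rw [h]
        exact coeffEmb_mem_laurentBaseChange L hz
  | one => simp
  | add x y _ _ hx hy => simpa using add_mem hx hy
  | neg x _ hx => simpa using neg_mem hx
  | inv x _ hx => simpa using inv_mem hx
  | mul x y _ _ hx hy => simpa using mul_mem hx hy

end General

theorem ss2_isGalois_rat_qbar : IsGalois ℚ QBar := by
  haveI halg : Algebra.IsAlgebraic ℚ (AlgebraicClosure ℚ) := AlgebraicClosure.isAlgebraic ℚ
  haveI hcl : IsAlgClosure ℚ (AlgebraicClosure ℚ) := ⟨inferInstance, inferInstance⟩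
  haveI hnorm : Normal ℚ (AlgebraicClosure ℚ) := IsAlgClosure.normal ℚ (AlgebraicClosure ℚ)
  exact ⟨⟩

section Fixed

variable {K₁ : Type} [Field K₁] [Algebra ℚ K₁]

/-- An element of `ℚ̄` fixed by every automorphism fixing `ι(K₁)` lies in `ι(K₁)`. -/
theorem ss2_mem_range_of_fixed (ι : K₁ →+* QBar) (c : QBar)
    (hc : ∀ σ : QBar ≃ₐ[ℚ] QBar, (∀ x : K₁, σ (ι x) = ι x) → σ c = c) :
    ∃ x : K₁, ι x = c := by
  haveI := ss2_isGalois_rat_qbar
  have h1 : c ∈ IntermediateField.fixedField (ι.toRatAlgHom.fieldRange).fixingSubgroup := by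
    rw [IntermediateField.mem_fixedField_iff]
    intro σ hσ
    apply hc
    intro x
    exact (IntermediateField.mem_fixingSubgroup_iff _ σ).mp hσ (ι x) ⟨x, rfl⟩
  rw [InfiniteGalois.fixedField_fixingSubgroup] at h1
  obtain ⟨x, hx⟩ := h1
  exact ⟨x, hx⟩

/-- Descent of a function whose `q`-expansion is fixed by `Gal(ℚ̄/ι K₁)`. -/
theorem exists_klBc_eq_of_fixed (ι : K₁ →+* QBar) (F₀ : IntermediateField ℚ (LaurentSeries ℚ))
    (f : ↥(laurentBaseChange QBar F₀))
    (hfix : ∀ σ : QBar ≃ₐ[ℚ] QBar, (∀ x : K₁, σ (ι x) = ι x) →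
      coeffMap ((σ : QBar ≃ₐ[ℚ] QBar) : QBar →+* QBar) (f : LaurentSeries QBar) = f) :
    ∃ f₁ : ↥(laurentBaseChange K₁ F₀), klBc ι F₀ f₁ = f := by
  classical
  set H : Subgroup (QBar ≃ₐ[ℚ] QBar) := (ι.toRatAlgHom.fieldRange).fixingSubgroup with hH
  have hHfix : ∀ σ ∈ H, ∀ x : K₁, σ (ι x) = ι x := fun σ hσ x =>
    (IntermediateField.mem_fixingSubgroup_iff _ σ).mp hσ (ι x) ⟨x, rfl⟩
  obtain ⟨g, hg, hgf⟩ := Fermat.Agent.H27.FF.fixedDescent F₀ H (f : LaurentSeries QBar) f.2
    (fun σ hσ => hfix σ (hHfix σ hσ))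
  -- every element of the fixed field comes from `K₁`
  have hmem : ∀ c : ↥(IntermediateField.fixedField H), ∃ x : K₁, ι x = (c : QBar) := by
    intro c
    refine ss2_mem_range_of_fixed ι (c : QBar) (fun σ hσ => ?_)
    have hσH : σ ∈ H := by
      rw [hH, IntermediateField.mem_fixingSubgroup_iff]
      rintro _ ⟨x, rfl⟩
      exact hσ x
    exact (IntermediateField.mem_fixedField_iff H (c : QBar)).mp c.2 σ hσH
  choose e he using hmem
  have hι : Function.Injective ι := ι.injective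
  let e' : ↥(IntermediateField.fixedField H) →+* K₁ :=
    { toFun := e
      map_one' := hι (by rw [he, map_one]; rfl)
      map_mul' := fun x y => hι (by rw [he, map_mul, he, he]; rfl)
      map_zero' := hι (by rw [he, map_zero]; rfl)
      map_add' := fun x y => hι (by rw [he, map_add, he, he]; rfl) }
  have he' : ι.comp e' = algebraMap ↥(IntermediateField.fixedField H) QBar :=
    RingHom.ext fun c => he c
  refine ⟨⟨coeffMap e' g, ss2_coeffMap_mem e' F₀ hg⟩, Subtype.ext ?_⟩
  rw [klBc_coe]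
  show coeffMap ι (coeffMap e' g) = (f : LaurentSeries QBar)
  rw [coeffMap_coeffMap, coeffMap_congr he', hgf]

end Fixed

section Kummer

variable {K₁ : Type} [Field K₁] [Algebra ℚ K₁]

/-- `klBc` is injective. -/
theorem ss2_klBc_injective (ι : K₁ →+* QBar) (F₀ : IntermediateField ℚ (LaurentSeries ℚ)) :
    Function.Injective (klBc ι F₀) := (klBc ι F₀).injective

/-- A Laurent series `z` over `ℚ̄` with `z ^ m = 1` and leading coefficient `1` is `1`. -/
theorem ss2_eq_one_of_pow_eq_one (m : ℕ) (hm : 0 < m) (z : LaurentSeries QBar)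
    (hz : z ^ m = 1) (hlc : z.leadingCoeff = 1) : z = 1 := by
  have halg : IsAlgebraic QBar z := by
    refine ⟨Polynomial.X ^ m - 1, ?_, ?_⟩
    · have := Polynomial.X_pow_sub_C_ne_zero hm (1 : QBar)
      rwa [map_one] at this
    · simp [hz]
  obtain ⟨c, hc⟩ := Fermat.Agent.H98.KL.exists_const_of_isAlgebraic z halg
  have hc1 : c = 1 := by
    rw [← hc, Fermat.Agent.H98.KL.algebraMap_eq_C] at hlc
    rcases eq_or_ne c 0 with h0 | h0
    · rw [h0, map_zero, HahnSeries.leadingCoeff_zero] at hlc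
      exact absurd hlc zero_ne_one
    · rw [HahnSeries.C_apply, HahnSeries.leadingCoeff_of_single] at hlc
      exact hlc
  rw [← hc, hc1, map_one]

/-- **Kummer descent.**  If `a ∈ F_{K₁}` is an `m`-th power in `F_{ℚ̄}`, it is a constant of
`K₁` times an `m`-th power in `F_{K₁}`. -/
theorem kummer_descent (ι : K₁ →+* QBar) (F₀ : IntermediateField ℚ (LaurentSeries ℚ))
    (m : ℕ) (hm : 0 < m) (a : ↥(laurentBaseChange K₁ F₀))
    (h : ↥(laurentBaseChange QBar F₀)) (hh : h ^ m = klBc ι F₀ a) :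
    ∃ (γ : K₁) (h₁ : ↥(laurentBaseChange K₁ F₀)), γ ≠ 0 ∧
      algebraMap K₁ ↥(laurentBaseChange K₁ F₀) γ * h₁ ^ m = a := by
  classical
  rcases eq_or_ne a 0 with rfl | ha
  · exact ⟨1, 0, one_ne_zero, by rw [zero_pow hm.ne', mul_zero]⟩
  have hι : Function.Injective ι := ι.injective
  have hbc0 : klBc ι F₀ a ≠ 0 := (map_ne_zero _).mpr ha
  have hh0 : h ≠ 0 := by
    rintro rfl
    rw [zero_pow hm.ne'] at hh
    exact hbc0 hh.symm
  have hhL : (h : LaurentSeries QBar) ≠ 0 := fun h0 => hh0 (Subtype.ext h0)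
  have haL : (a : LaurentSeries K₁) ≠ 0 := fun h0 => ha (Subtype.ext h0)
  set c : QBar := (h : LaurentSeries QBar).leadingCoeff with hc
  have hc0 : c ≠ 0 := HahnSeries.leadingCoeff_ne_zero.mpr hhL
  set γ : K₁ := (a : LaurentSeries K₁).leadingCoeff with hγ
  have hγ0 : γ ≠ 0 := HahnSeries.leadingCoeff_ne_zero.mpr haL
  have hhcoe : (h : LaurentSeries QBar) ^ m = coeffMap ι (a : LaurentSeries K₁) := by
    have := congrArg (fun z : ↥(laurentBaseChange QBar F₀) => (z : LaurentSeries QBar)) hh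
    simpa using this
  have hcγ : c ^ m = ι γ := by
    rw [hc, ← Fermat.Agent.H22.KL.klAsm_leadingCoeff_pow, hhcoe, leadingCoeff_coeffMap ι hι]
  -- the normalised root
  set h' : ↥(laurentBaseChange QBar F₀) :=
    algebraMap QBar ↥(laurentBaseChange QBar F₀) c⁻¹ * h with hh'
  have hh'coe : (h' : LaurentSeries QBar) = HahnSeries.C c⁻¹ * (h : LaurentSeries QBar) := by
    rw [hh']
    show algebraMap QBar (LaurentSeries QBar) c⁻¹ * (h : LaurentSeries QBar) = _
    rw [Fermat.Agent.H98.KL.algebraMap_eq_C]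
  have hh'0 : (h' : LaurentSeries QBar) ≠ 0 := by
    rw [hh'coe]
    exact mul_ne_zero (by rw [Ne, map_eq_zero]; exact inv_ne_zero hc0) hhL
  have hh'lc : (h' : LaurentSeries QBar).leadingCoeff = 1 := by
    rw [hh'coe, HahnSeries.leadingCoeff_mul, HahnSeries.C_apply,
      HahnSeries.leadingCoeff_of_single, ← hc, inv_mul_cancel₀ hc0]
  have hh'pow : (h' : LaurentSeries QBar) ^ m =
      HahnSeries.C (ι γ)⁻¹ * coeffMap ι (a : LaurentSeries K₁) := by
    rw [hh'coe, mul_pow, hhcoe, ← map_pow, inv_pow, hcγ]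
  -- `h'` is fixed by `Gal(ℚ̄ / ι K₁)`
  have hfix : ∀ σ : QBar ≃ₐ[ℚ] QBar, (∀ x : K₁, σ (ι x) = ι x) →
      coeffMap ((σ : QBar ≃ₐ[ℚ] QBar) : QBar →+* QBar) (h' : LaurentSeries QBar) = h' := by
    intro σ hσ
    set s : LaurentSeries QBar :=
      coeffMap ((σ : QBar ≃ₐ[ℚ] QBar) : QBar →+* QBar) (h' : LaurentSeries QBar) with hs
    have hσinj : Function.Injective ((σ : QBar ≃ₐ[ℚ] QBar) : QBar →+* QBar) := σ.injective
    have hslc : s.leadingCoeff = 1 := by
      rw [hs, leadingCoeff_coeffMap _ hσinj, hh'lc]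
      exact map_one σ
    have hspow : s ^ m = (h' : LaurentSeries QBar) ^ m := by
      rw [hs, ← map_pow, hh'pow, map_mul, coeffMap_coeffMap]
      congr 1
      · ext k
        rw [coeffMap_coeff, HahnSeries.C_apply]
        by_cases hk : k = 0
        · subst hk
          rw [HahnSeries.coeff_single_same]
          show σ (ι γ)⁻¹ = (ι γ)⁻¹
          rw [map_inv₀, hσ]
        · rw [HahnSeries.coeff_single_of_ne hk]
          exact map_zero _
      · exact coeffMap_congr (RingHom.ext fun x => hσ x) _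
    have hz : (s * (h' : LaurentSeries QBar)⁻¹) ^ m = 1 := by
      rw [mul_pow, hspow, inv_pow, mul_inv_cancel₀ (pow_ne_zero m hh'0)]
    have hzlc : (s * (h' : LaurentSeries QBar)⁻¹).leadingCoeff = 1 := by
      have h1 : (s * (h' : LaurentSeries QBar)⁻¹).leadingCoeff *
          (h' : LaurentSeries QBar).leadingCoeff = s.leadingCoeff := by
        rw [← HahnSeries.leadingCoeff_mul, mul_assoc, inv_mul_cancel₀ hh'0, mul_one]
      rw [hh'lc, mul_one, hslc] at h1
      exact h1
    have h1 := ss2_eq_one_of_pow_eq_one m hm _ hz hzlc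
    have h2 : s = s * (h' : LaurentSeries QBar)⁻¹ * (h' : LaurentSeries QBar) := by
      rw [mul_assoc, inv_mul_cancel₀ hh'0, mul_one]
    rw [h2, h1, one_mul]
  obtain ⟨h₁, hh₁⟩ := exists_klBc_eq_of_fixed ι F₀ h' hfix
  refine ⟨γ, h₁, hγ0, ?_⟩
  apply ss2_klBc_injective ι F₀
  apply Subtype.ext
  rw [map_mul, map_pow, hh₁]
  show ((klBc ι F₀ (algebraMap K₁ ↥(laurentBaseChange K₁ F₀) γ) : ↥(laurentBaseChange QBar F₀)) :
      LaurentSeries QBar) * (h' : LaurentSeries QBar) ^ m = coeffMap ι (a : LaurentSeries K₁)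
  rw [hh'pow, klBc_coe]
  have h3 : ((algebraMap K₁ ↥(laurentBaseChange K₁ F₀) γ : ↥(laurentBaseChange K₁ F₀)) :
      LaurentSeries K₁) = HahnSeries.C γ := by
    show algebraMap K₁ (LaurentSeries K₁) γ = _
    rw [Fermat.Agent.H98.KL.algebraMap_eq_C]
  rw [h3]
  have h4 : coeffMap ι (HahnSeries.C γ) = HahnSeries.C (ι γ) := by
    rw [HahnSeries.C_apply, coeffMap_single, HahnSeries.C_apply]
  rw [h4, ← mul_assoc, ← map_mul, mul_inv_cancel₀ ((map_ne_zero ι).mpr hγ0), map_one, one_mul]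

end Kummer

end Fermat.Agent.H35.SS2
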