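import Fermat.Agent.H35.SS2.Interfaces
import Fermat.Agent.H35.SS2.InvRed
import Fermat.Agent.H35.SS2.CoeffDesc
import Fermat.Agent.H93.KL.DescFinal
import Fermat.Agent.H53.ES.CycloFrob

/-!
# P-SS2 row 905 (helper35) : DESC, the descent from `ℚ̄` to an unramified number field

* `exists_unram_numberField` : a function `f ∈ F_{ℚ̄}` fixed by the inertia group `I_A` comes
  from `F_K` for a number field `K ⊆ ℚ̄` which is fixed pointwise by `I_A` and contains `μ_m`
  (`q ∤ m`).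
* `newInvariantFF_of_model` : **DESC**,
  `q.Prime → (U) → (N) → ModelNewInvBarStatement M' q → NewInvariantFFStatement (M' * q) q`.
-/

set_option autoImplicit false
set_option linter.style.haveILetI false

noncomputable section

namespace Fermat.Agent.H35.SS2

open AlgebraicCurve ModularCurve Fermat.Agent.H11.SS2 Fermat.Agent.H93.KL

/-- An integer prime to `q` is not in the maximal ideal of a valuation subring over `q`. -/
theorem ss2_natCast_notMem_nonunits {q : ℕ} (hq : q.Prime) (A : ValuationSubring QBar)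
    (hA : A.LiesOverPrime q) {m : ℕ} (hqm : ¬ q ∣ m) : (m : QBar) ∉ A.nonunits := by
  intro hmem
  have hcop : IsCoprime (q : ℤ) (m : ℤ) :=
    Nat.isCoprime_iff_coprime.mpr ((Nat.Prime.coprime_iff_not_dvd hq).mpr hqm)
  obtain ⟨u, w, huw⟩ := hcop
  have h1 : ((u : QBar) * (q : QBar) + (w : QBar) * (m : QBar)) = 1 := by
    exact_mod_cast congrArg (Int.cast (R := QBar)) huw
  have hu : A.valuation (u : QBar) ≤ 1 := (A.valuation_le_one_iff _).mpr (intCast_mem A u)
  have hw : A.valuation (w : QBar) ≤ 1 := (A.valuation_le_one_iff _).mpr (intCast_mem A w)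
  have hq1 : A.valuation (q : QBar) < 1 := (A.mem_nonunits_iff).mp hA
  have hm1 : A.valuation (m : QBar) < 1 := (A.mem_nonunits_iff).mp hmem
  have h2 : A.valuation ((u : QBar) * (q : QBar) + (w : QBar) * (m : QBar)) < 1 := by
    refine lt_of_le_of_lt (A.valuation.map_add _ _) (max_lt ?_ ?_)
    · rw [map_mul]
      exact lt_of_le_of_lt (mul_le_of_le_one_left' hu) hq1
    · rw [map_mul]
      exact lt_of_le_of_lt (mul_le_of_le_one_left' hw) hm1
  rw [h1, map_one] at h2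
  exact lt_irrefl _ h2

/-- **Descent to an unramified number field.** -/
theorem exists_unram_numberField {q : ℕ} (hq : q.Prime) (A : ValuationSubring QBar)
    (hA : A.LiesOverPrime q) (F₀ : IntermediateField ℚ (LaurentSeries ℚ))
    (m : ℕ) (hm : 0 < m) (hqm : ¬ q ∣ m) (f : ↥(laurentBaseChange QBar F₀))
    (hfix : ∀ σ ∈ A.inertiaSubgroupIn ℚ, arithmeticGalois F₀ σ • f = f) :
    ∃ K : IntermediateField ℚ QBar, FiniteDimensional ℚ ↥K ∧
      IsUnramAt A (algebraMap ↥K QBar) ∧ (∃ ζ : ↥K, IsPrimitiveRoot ζ m) ∧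
      ∃ f₁ : ↥(laurentBaseChange ↥K F₀), klBc (algebraMap ↥K QBar) F₀ f₁ = f := by
  classical
  haveI := ss2_isGalois_rat_qbar
  obtain ⟨K₀, hK₀fin, hK₀⟩ := coeffDescentFinal F₀ (f : LaurentSeries QBar) f.2
  haveI := hK₀fin
  obtain ⟨g₀, -, hg₀f⟩ := hK₀ ↥K₀ (algebraMap ↥K₀ QBar) (fun c hc => ⟨⟨c, hc⟩, rfl⟩)
  have hcoefK₀ : ∀ n, (f : LaurentSeries QBar).coeff n ∈ K₀ := by
    intro n
    rw [← hg₀f, coeffMap_coeff]
    exact (g₀.coeff n).2
  set KI : IntermediateField ℚ QBar := IntermediateField.fixedField (A.inertiaSubgroupIn ℚ)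
    with hKI
  have hcoefKI : ∀ n, (f : LaurentSeries QBar).coeff n ∈ KI := by
    intro n
    rw [hKI, IntermediateField.mem_fixedField_iff]
    intro σ hσ
    have h1 := congrArg (fun z : ↥(laurentBaseChange QBar F₀) =>
      (z : LaurentSeries QBar).coeff n) (hfix σ hσ)
    simp only [coe_arithmeticGalois_smul, coeffMap_coeff] at h1
    exact h1
  -- the roots of unity
  haveI : NeZero ((m : ℕ) : QBar) := ⟨Nat.cast_ne_zero.mpr hm.ne'⟩
  obtain ⟨ζ, hζ⟩ := HasEnoughRootsOfUnity.exists_primitiveRoot QBar m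
  have hζKI : ζ ∈ KI := by
    rw [hKI, IntermediateField.mem_fixedField_iff]
    intro σ hσ
    exact Fermat.Agent.H53.apply_rootOfUnity_of_mem_inertiaSubgroupIn hσ
      (ss2_natCast_notMem_nonunits hq A hA hqm) hζ.pow_eq_one
  -- the field
  have hle : K₀ ⊓ KI ≤ K₀ := inf_le_left
  haveI : FiniteDimensional ℚ ↥(K₀ ⊓ KI) :=
    FiniteDimensional.of_injective (IntermediateField.inclusion hle).toLinearMap
      (IntermediateField.inclusion_injective hle)
  have halg : Algebra.IsAlgebraic ℚ QBar := AlgebraicClosure.isAlgebraic ℚ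
  haveI : FiniteDimensional ℚ ↥(IntermediateField.adjoin ℚ ({ζ} : Set QBar)) :=
    IntermediateField.adjoin.finiteDimensional
      (Algebra.IsAlgebraic.isAlgebraic (R := ℚ) ζ).isIntegral
  set K : IntermediateField ℚ QBar := (K₀ ⊓ KI) ⊔ IntermediateField.adjoin ℚ ({ζ} : Set QBar)
    with hK
  have hKfin : FiniteDimensional ℚ ↥K := IntermediateField.finiteDimensional_sup _ _
  have hKle : K ≤ KI := by
    rw [hK]
    refine sup_le inf_le_right ?_
    rw [IntermediateField.adjoin_le_iff]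
    intro x hx
    rw [Set.mem_singleton_iff] at hx
    rw [hx]
    exact hζKI
  have hζK : ζ ∈ K :=
    (le_sup_right : IntermediateField.adjoin ℚ ({ζ} : Set QBar) ≤ K)
      (IntermediateField.subset_adjoin ℚ _ (Set.mem_singleton ζ))
  have hcoefK : ∀ n, (f : LaurentSeries QBar).coeff n ∈ K := fun n =>
    (le_sup_left : K₀ ⊓ KI ≤ K) ⟨hcoefK₀ n, hcoefKI n⟩
  refine ⟨K, hKfin, ?_, ⟨⟨ζ, hζK⟩, ?_⟩, ?_⟩
  · intro σ hσ x
    exact (IntermediateField.mem_fixedField_iff _ _).mp (hKle x.2) σ hσ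
  · exact IsPrimitiveRoot.of_map_of_injective (f := algebraMap ↥K QBar) hζ
      (algebraMap ↥K QBar).injective
  · refine exists_klBc_eq_of_fixed (algebraMap ↥K QBar) F₀ f (fun σ hσ => ?_)
    ext n
    rw [coeffMap_coeff]
    exact hσ ⟨_, hcoefK n⟩

/-! ### Norms -/

section Norm

variable {K F F' : Type*} [Field K] [Field F] [Field F'] [Algebra K F] [Algebra K F']

theorem ss2NormAlong_mul (φ : F →ₐ[K] F') (x y : F') :
    ss2NormAlong φ (x * y) = ss2NormAlong φ x * ss2NormAlong φ y := by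
  unfold ss2NormAlong
  exact map_mul _ _ _

theorem ss2NormAlong_pow (φ : F →ₐ[K] F') (x : F') (n : ℕ) :
    ss2NormAlong φ (x ^ n) = ss2NormAlong φ x ^ n := by
  unfold ss2NormAlong
  exact map_pow _ _ _

end Norm

section Step

variable {K₁ : Type} [Field K₁] [Algebra ℚ K₁]

/-- Divisibility of the orders descends. -/
theorem ss2_ord_descent (ι : K₁ →+* QBar) (F₀ : IntermediateField ℚ (LaurentSeries ℚ))
    (m : ℕ) (f₁ : ↥(laurentBaseChange K₁ F₀))
    (h : ∀ P : Place QBar ↥(laurentBaseChange QBar F₀), (m : ℤ) ∣ P.ord (klBc ι F₀ f₁))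
    (P₁ : Place K₁ ↥(laurentBaseChange K₁ F₀)) : (m : ℤ) ∣ P₁.ord f₁ := by
  obtain ⟨P, hP⟩ := placeDescent F₀ K₁ ι P₁
  rw [← hP f₁]
  exact h P

/-- Kummer descent of a norm hypothesis. -/
theorem ss2_kummer_of_eq (ι : K₁ →+* QBar) (F₀ : IntermediateField ℚ (LaurentSeries ℚ))
    (m : ℕ) (hm : 0 < m) (a : ↥(laurentBaseChange K₁ F₀)) (b : ↥(laurentBaseChange QBar F₀))
    (hab : klBc ι F₀ a = b) (hb : ∃ h : ↥(laurentBaseChange QBar F₀), h ^ m = b) :
    ∃ (γ : K₁) (h₁ : ↥(laurentBaseChange K₁ F₀)), γ ≠ 0 ∧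
      algebraMap K₁ ↥(laurentBaseChange K₁ F₀) γ * h₁ ^ m = a := by
  obtain ⟨h, hh⟩ := hb
  exact kummer_descent ι F₀ m hm a h (by rw [hh, hab])

end Step

/-- **DESC**: (KC-FF) at level `M' q²` from the model-level statement. -/
theorem newInvariantFF_of_model (M' q : ℕ) [NeZero M'] [NeZero q] (hq : q.Prime)
    (hU : UnramUniformiserStatement) (hN : NormBaseChangeStatement)
    (hM : ModelNewInvBarStatement M' q) : NewInvariantFFStatement (M' * q) q := by
  classical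
  intro A hA
  obtain ⟨c, hc, hmodel⟩ := hM A hA
  refine ⟨c, hc, fun m hm hqm f hf hord hinv hα hβ => ?_⟩
  -- S0 : invariant representative
  obtain ⟨f0, g, hf0, hg, hfg, hfix⟩ :=
    exists_invariant_rep (M' * q * q) (A.inertiaSubgroupIn ℚ) m hm f hf hord hinv
  -- descent to an unramified number field
  obtain ⟨K, hKfin, hKunr, hζ, f₁, hf₁⟩ :=
    exists_unram_numberField hq A hA (modularFunctionFieldFull (M' * q * q)) m hm hqm f0 hfix
  haveI := hKfin
  have hf₁0 : f₁ ≠ 0 := by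
    rintro rfl
    rw [map_zero] at hf₁
    exact hf0 hf₁.symm
  -- orders
  have hord0 : ∀ P : Place QBar ↥(modularFunctionFieldBar (M' * q * q)),
      (m : ℤ) ∣ P.ord f0 := by
    intro P
    rw [hfg, P.ord_mul hf (pow_ne_zero m hg), ss2_ord_pow]
    exact dvd_add (hord P) (dvd_mul_right _ _)
  have hord₁ := ss2_ord_descent (algebraMap ↥K QBar) (modularFunctionFieldFull (M' * q * q)) m f₁
    (by rw [hf₁]; exact hord0)
  -- norms
  have hnorm : ∀ (φ : ↥(modularFunctionFieldBar (M' * q)) →ₐ[QBar]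
      ↥(modularFunctionFieldBar (M' * q * q))),
      (∃ h : ↥(modularFunctionFieldBar (M' * q)), h ^ m = ss2NormAlong φ f) →
      ∃ h : ↥(modularFunctionFieldBar (M' * q)), h ^ m = ss2NormAlong φ f0 := by
    rintro φ ⟨h, hh⟩
    refine ⟨h * ss2NormAlong φ g, ?_⟩
    rw [hfg, ss2NormAlong_mul, ss2NormAlong_pow, mul_pow, hh]
  obtain ⟨hNα, hNβ⟩ := hN (M' * q) q ↥K (algebraMap ↥K QBar) f₁
  rw [hf₁] at hNα hNβ
  have hα₁ := ss2_kummer_of_eq (algebraMap ↥K QBar) (modularFunctionFieldFull (M' * q)) m hm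
    _ _ hNα (hnorm _ hα)
  have hβ₁ := ss2_kummer_of_eq (algebraMap ↥K QBar) (modularFunctionFieldFull (M' * q)) m hm
    _ _ hNβ (hnorm _ hβ)
  -- the model statement
  obtain ⟨w, hw⟩ := hmodel ↥K (algebraMap ↥K QBar) hKunr
    (Fermat.Agent.H34.modelDVR ↥K (algebraMap ↥K QBar) A q hq hA)
    (hU q hq A hA ↥K (algebraMap ↥K QBar) hKunr) m hm hqm hζ f₁ hf₁0 hord₁ hα₁ hβ₁
  rw [hf₁, hfg] at hw
  refine ⟨w * (g ^ c)⁻¹, ?_⟩
  have e : (g ^ c) ^ m = (g ^ m) ^ c := by
    rw [← pow_mul, ← pow_mul, Nat.mul_comm c m]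
  have hgc : (g ^ m) ^ c ≠ 0 := pow_ne_zero _ (pow_ne_zero _ hg)
  calc (w * (g ^ c)⁻¹) ^ m = w ^ m * ((g ^ c) ^ m)⁻¹ := by rw [mul_pow, inv_pow]
    _ = f ^ c * (g ^ m) ^ c * ((g ^ m) ^ c)⁻¹ := by rw [hw, mul_pow, e]
    _ = f ^ c := mul_inv_cancel_right₀ hgc _

end Fermat.Agent.H35.SS2
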