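import Fermat.Agent.H35.SS2.Desc

/-!
# P-SS2 row 905 (helper35) : the descent PACKAGE for the model-level assembly (ASM)

The model-level proof has to ENLARGE the number field `K₁` (by finite extensions unramified at
`A`).  So the natural input of ASM is a function `f ∈ F_{ℚ̄}` FIXED by the inertia group `I_A`
with its `ℚ̄`-level hypotheses; all model-level hypotheses then hold over EVERY number field
`ι : K₁ → ℚ̄` unramified at `A` over which `f` is defined:

* `SS2ModelHyps M' q A m K₁ ι u` : the model-level hypotheses on `u ∈ F_{K₁}` (level `M' q²`).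
* `ss2_modelHyps_of_bar` : they follow from the `ℚ̄`-level hypotheses on `f = klBc ι u`.
* `exists_unram_numberField_of_finset` : a number field `K ⊆ ℚ̄`, unramified at `A`, over which
  `f` is defined and which contains `μ_m` and a given finite set of `I_A`-fixed numbers.
* `ss2_inertia_fixes_root_of_unit` : `m`-th roots (`q ∤ m`) of `I_A`-fixed units of `A` are
  `I_A`-fixed.
* `InvNewInvariantFFStatement M' q` : (KC-FF) for `I_A`-FIXED functions;
  `newInvariantFF_of_inv` : it implies `NewInvariantFFStatement (M' * q) q` (no other input);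
  `inv_of_model` : it follows from `ModelNewInvBarStatement M' q`, (U) and (N).
-/

set_option autoImplicit false
set_option linter.style.haveILetI false

noncomputable section

namespace Fermat.Agent.H35.SS2

open AlgebraicCurve ModularCurve Fermat.Agent.H11.SS2 Fermat.Agent.H93.KL

/-- The model-level hypotheses on `u ∈ F_{K₁}` at level `M' q²` (those of
`ModelNewInvBarStatement`). -/
structure SS2ModelHyps (M' q : ℕ) [NeZero M'] [NeZero q] (A : ValuationSubring QBar) (m : ℕ)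
    (K₁ : Type) [Field K₁] [Algebra ℚ K₁] (ι : K₁ →+* QBar)
    (u : ↥(laurentBaseChange K₁ (modularFunctionFieldFull (M' * q * q)))) : Prop where
  unram : IsUnramAt A ι
  dvr : IsDiscreteValuationRing ↥(A.comap ι)
  unif : Irreducible ((q : ℕ) : ↥(A.comap ι))
  roots : ∃ ζ : K₁, IsPrimitiveRoot ζ m
  ne_zero : u ≠ 0
  ord : ∀ P : Place K₁ ↥(laurentBaseChange K₁ (modularFunctionFieldFull (M' * q * q))),
    (m : ℤ) ∣ P.ord u
  normα : ∃ (γ : K₁) (h : ↥(laurentBaseChange K₁ (modularFunctionFieldFull (M' * q)))),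
    γ ≠ 0 ∧ algebraMap K₁ _ γ * h ^ m = ss2NormAlong (heckeAlphaBar K₁ (M' * q) q) u
  normβ : ∃ (γ : K₁) (h : ↥(laurentBaseChange K₁ (modularFunctionFieldFull (M' * q)))),
    γ ≠ 0 ∧ algebraMap K₁ _ γ * h ^ m = ss2NormAlong (heckeBetaBar K₁ (M' * q) q) u
  ordBar : ∀ P : Place QBar ↥(modularFunctionFieldBar (M' * q * q)),
    (m : ℤ) ∣ P.ord (klBc ι (modularFunctionFieldFull (M' * q * q)) u)
  normαBar : ∃ h : ↥(modularFunctionFieldBar (M' * q)), h ^ m =
    ss2NormAlong (heckeAlphaBar QBar (M' * q) q) (klBc ι (modularFunctionFieldFull (M' * q * q)) u)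
  normβBar : ∃ h : ↥(modularFunctionFieldBar (M' * q)), h ^ m =
    ss2NormAlong (heckeBetaBar QBar (M' * q) q) (klBc ι (modularFunctionFieldFull (M' * q * q)) u)

/-- **The package**: the model-level hypotheses over any unramified number field of
definition. -/
theorem ss2_modelHyps_of_bar (M' q : ℕ) [NeZero M'] [NeZero q] (hq : q.Prime)
    (hU : UnramUniformiserStatement) (hN : NormBaseChangeStatement)
    (A : ValuationSubring QBar) (hA : A.LiesOverPrime q) (m : ℕ) (hm : 0 < m)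
    (K₁ : Type) [Field K₁] [Algebra ℚ K₁] [FiniteDimensional ℚ K₁] (ι : K₁ →+* QBar)
    (hunr : IsUnramAt A ι) (hζ : ∃ ζ : K₁, IsPrimitiveRoot ζ m)
    (u : ↥(laurentBaseChange K₁ (modularFunctionFieldFull (M' * q * q)))) (hu : u ≠ 0)
    (hord : ∀ P : Place QBar ↥(modularFunctionFieldBar (M' * q * q)),
      (m : ℤ) ∣ P.ord (klBc ι (modularFunctionFieldFull (M' * q * q)) u))
    (hα : ∃ h : ↥(modularFunctionFieldBar (M' * q)), h ^ m =
      ss2NormAlong (heckeAlphaBar QBar (M' * q) q)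
        (klBc ι (modularFunctionFieldFull (M' * q * q)) u))
    (hβ : ∃ h : ↥(modularFunctionFieldBar (M' * q)), h ^ m =
      ss2NormAlong (heckeBetaBar QBar (M' * q) q)
        (klBc ι (modularFunctionFieldFull (M' * q * q)) u)) :
    SS2ModelHyps M' q A m K₁ ι u := by
  obtain ⟨hNα, hNβ⟩ := hN (M' * q) q K₁ ι u
  exact
    { unram := hunr
      dvr := Fermat.Agent.H34.modelDVR K₁ ι A q hq hA
      unif := hU q hq A hA K₁ ι hunr
      roots := hζ
      ne_zero := hu
      ord := ss2_ord_descent ι _ m u hord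
      normα := ss2_kummer_of_eq ι _ m hm _ _ hNα hα
      normβ := ss2_kummer_of_eq ι _ m hm _ _ hNβ hβ
      ordBar := hord
      normαBar := hα
      normβBar := hβ }

/-- The hypotheses pass to every larger unramified number field. -/
theorem SS2ModelHyps.enlarge {M' q : ℕ} [NeZero M'] [NeZero q] (hq : q.Prime)
    (hU : UnramUniformiserStatement) (hN : NormBaseChangeStatement)
    {A : ValuationSubring QBar} (hA : A.LiesOverPrime q) {m : ℕ} (hm : 0 < m)
    {K₁ : Type} [Field K₁] [Algebra ℚ K₁] {ι : K₁ →+* QBar}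
    {u : ↥(laurentBaseChange K₁ (modularFunctionFieldFull (M' * q * q)))}
    (h : SS2ModelHyps M' q A m K₁ ι u)
    (K₂ : Type) [Field K₂] [Algebra ℚ K₂] [FiniteDimensional ℚ K₂] (ι₂ : K₂ →+* QBar)
    (hunr₂ : IsUnramAt A ι₂) (j : K₁ →+* K₂) (hj : ι₂.comp j = ι) :
    ∃ u₂ : ↥(laurentBaseChange K₂ (modularFunctionFieldFull (M' * q * q))),
      klBc ι₂ (modularFunctionFieldFull (M' * q * q)) u₂ =
        klBc ι (modularFunctionFieldFull (M' * q * q)) u ∧
      (u₂ : LaurentSeries K₂) = coeffMap j (u : LaurentSeries K₁) ∧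
      SS2ModelHyps M' q A m K₂ ι₂ u₂ := by
  classical
  set u₂ : ↥(laurentBaseChange K₂ (modularFunctionFieldFull (M' * q * q))) :=
    ⟨coeffMap j (u : LaurentSeries K₁), ss2_coeffMap_mem j _ u.2⟩ with hu₂
  have hbc : klBc ι₂ (modularFunctionFieldFull (M' * q * q)) u₂ =
      klBc ι (modularFunctionFieldFull (M' * q * q)) u := by
    apply Subtype.ext
    rw [klBc_coe, klBc_coe, hu₂]
    show coeffMap ι₂ (coeffMap j (u : LaurentSeries K₁)) = _
    rw [coeffMap_coeffMap, coeffMap_congr hj]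
  have hu₂0 : u₂ ≠ 0 := by
    intro h0
    have h1 := hbc
    rw [h0, map_zero] at h1
    exact h.ne_zero ((map_eq_zero _).mp h1.symm)
  obtain ⟨ζ, hζ⟩ := h.roots
  have hζ₂ : ∃ ζ₂ : K₂, IsPrimitiveRoot ζ₂ m := ⟨j ζ, hζ.map_of_injective j.injective⟩
  refine ⟨u₂, hbc, rfl, ?_⟩
  exact ss2_modelHyps_of_bar M' q hq hU hN A hA m hm K₂ ι₂ hunr₂ hζ₂ u₂ hu₂0
    (by rw [hbc]; exact h.ordBar) (by rw [hbc]; exact h.normαBar)
    (by rw [hbc]; exact h.normβBar)

/-! ### Unramified number fields of definition -/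

/-- `m`-th roots (`q ∤ m`) of `I_A`-fixed units of `A` are `I_A`-fixed. -/
theorem ss2_inertia_fixes_root_of_unit {q : ℕ} (hq : q.Prime) (A : ValuationSubring QBar)
    (hA : A.LiesOverPrime q) {m : ℕ} (hm : 0 < m) (hqm : ¬ q ∣ m) {a θ : QBar}
    (hθ : θ ^ m = a) (haA : a ∈ A) (hau : a ∉ A.nonunits)
    (hfix : ∀ σ ∈ A.inertiaSubgroupIn ℚ, σ a = a) :
    ∀ σ ∈ A.inertiaSubgroupIn ℚ, σ θ = θ := by
  intro σ hσ
  have hmA := ss2_natCast_notMem_nonunits hq A hA hqm
  have ha0 : a ≠ 0 := fun h0 => hau (h0 ▸ A.nonunits.zero_mem)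
  have hθ0 : θ ≠ 0 := by
    rintro rfl
    rw [zero_pow hm.ne'] at hθ
    exact ha0 hθ.symm
  -- `θ` is a unit of `A`
  have hθA : θ ∈ A := by
    rw [← ValuationSubring.valuation_le_one_iff]
    have h1 : A.valuation θ ^ m ≤ 1 := by
      rw [← map_pow, hθ]
      exact (ValuationSubring.valuation_le_one_iff A a).mpr haA
    exact (pow_le_one_iff_of_nonneg zero_le hm.ne').mp h1
  have hθu : A.valuation θ = 1 := by
    have h1 : A.valuation θ ^ m = 1 := by
      rw [← map_pow, hθ]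
      refine le_antisymm ((ValuationSubring.valuation_le_one_iff A a).mpr haA) ?_
      by_contra hlt
      exact hau ((ValuationSubring.mem_nonunits_iff A).mpr (not_le.mp hlt))
    exact (pow_eq_one_iff_of_nonneg zero_le hm.ne').mp h1
  -- the root of unity `σ θ / θ`
  set ζ : QBar := σ θ / θ with hζ
  have hζm : ζ ^ m = 1 := by
    rw [hζ, div_pow, ← map_pow, hθ, hfix σ hσ, div_self ha0]
  have hσθ : σ θ - θ ∈ A.nonunits :=
    Fermat.Agent.H53.apply_sub_mem_nonunits_of_mem_inertiaSubgroupIn hσ hθA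
  have hζ1 : ζ - 1 ∈ A.nonunits := by
    rw [ValuationSubring.mem_nonunits_iff] at hσθ ⊢
    have e : ζ - 1 = (σ θ - θ) * θ⁻¹ := by
      rw [hζ]; field_simp
    rw [e, map_mul, map_inv₀, hθu, inv_one, mul_one]
    exact hσθ
  have h1 : ζ = 1 :=
    Fermat.Agent.H53.eq_of_pow_eq_one_of_sub_mem_nonunits A hmA (one_pow m) hζm hζ1
  have h2 : σ θ = ζ * θ := by rw [hζ, div_mul_cancel₀ _ hθ0]
  rw [h2, h1, one_mul]

/-- **Unramified number field of definition containing a given finite set of `I_A`-fixed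
numbers.** -/
theorem exists_unram_numberField_of_finset {q : ℕ} (hq : q.Prime) (A : ValuationSubring QBar)
    (hA : A.LiesOverPrime q) (F₀ : IntermediateField ℚ (LaurentSeries ℚ))
    (m : ℕ) (hm : 0 < m) (hqm : ¬ q ∣ m) (f : ↥(laurentBaseChange QBar F₀))
    (hfix : ∀ σ ∈ A.inertiaSubgroupIn ℚ, arithmeticGalois F₀ σ • f = f)
    (S : Finset QBar) (hS : ∀ s ∈ S, ∀ σ ∈ A.inertiaSubgroupIn ℚ, σ s = s) :
    ∃ K : IntermediateField ℚ QBar, FiniteDimensional ℚ ↥K ∧
      IsUnramAt A (algebraMap ↥K QBar) ∧ (∀ s ∈ S, s ∈ K) ∧ (∃ ζ : ↥K, IsPrimitiveRoot ζ m) ∧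
      ∃ f₁ : ↥(laurentBaseChange ↥K F₀), klBc (algebraMap ↥K QBar) F₀ f₁ = f := by
  classical
  obtain ⟨K, hKfin, hKunr, ⟨ζ, hζ⟩, f₁, hf₁⟩ := exists_unram_numberField hq A hA F₀ m hm hqm f hfix
  haveI := hKfin
  have halg : Algebra.IsAlgebraic ℚ QBar := AlgebraicClosure.isAlgebraic ℚ
  haveI : FiniteDimensional ℚ ↥(IntermediateField.adjoin ℚ (S : Set QBar)) :=
    IntermediateField.finiteDimensional_adjoin
      (fun x _ => (Algebra.IsAlgebraic.isAlgebraic (R := ℚ) x).isIntegral)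
  set KI : IntermediateField ℚ QBar := IntermediateField.fixedField (A.inertiaSubgroupIn ℚ)
    with hKI
  have hKKI : K ≤ KI := by
    intro x hx
    rw [hKI, IntermediateField.mem_fixedField_iff]
    intro σ hσ
    exact hKunr σ hσ ⟨x, hx⟩
  have hSKI : IntermediateField.adjoin ℚ (S : Set QBar) ≤ KI := by
    rw [IntermediateField.adjoin_le_iff]
    intro x hx
    rw [hKI]
    exact (IntermediateField.mem_fixedField_iff _ _).mpr (fun σ hσ => hS x hx σ hσ)
  set K' : IntermediateField ℚ QBar := K ⊔ IntermediateField.adjoin ℚ (S : Set QBar) with hK'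
  have hKK' : K ≤ K' := le_sup_left
  refine ⟨K', IntermediateField.finiteDimensional_sup _ _, ?_, ?_, ?_, ?_⟩
  · intro σ hσ x
    exact (IntermediateField.mem_fixedField_iff _ _).mp (sup_le hKKI hSKI x.2) σ hσ
  · intro s hs
    exact (le_sup_right : IntermediateField.adjoin ℚ (S : Set QBar) ≤ K')
      (IntermediateField.subset_adjoin ℚ _ hs)
  · refine ⟨⟨(ζ : QBar), hKK' ζ.2⟩, ?_⟩
    have h1 : IsPrimitiveRoot ((ζ : QBar)) m :=
      hζ.map_of_injective (f := algebraMap ↥K QBar) (algebraMap ↥K QBar).injective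
    exact IsPrimitiveRoot.of_map_of_injective (f := algebraMap ↥K' QBar) h1
      (algebraMap ↥K' QBar).injective
  · refine exists_klBc_eq_of_fixed (algebraMap ↥K' QBar) F₀ f (fun σ hσ => ?_)
    rw [← hf₁, klBc_coe, coeffMap_coeffMap]
    refine coeffMap_congr (RingHom.ext fun x => ?_) _
    exact hσ ⟨(x : QBar), hKK' x.2⟩

/-- **Unramified enlargement** of a number field `ι : K₁ → ℚ̄` by a finite set of `I_A`-fixed
numbers. -/
theorem exists_unram_enlargement (A : ValuationSubring QBar)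
    {K₁ : Type} [Field K₁] [Algebra ℚ K₁] [FiniteDimensional ℚ K₁] (ι : K₁ →+* QBar)
    (hunr : IsUnramAt A ι)
    (S : Finset QBar) (hS : ∀ s ∈ S, ∀ σ ∈ A.inertiaSubgroupIn ℚ, σ s = s) :
    ∃ K₂ : IntermediateField ℚ QBar, FiniteDimensional ℚ ↥K₂ ∧
      IsUnramAt A (algebraMap ↥K₂ QBar) ∧ (∀ s ∈ S, s ∈ K₂) ∧
      ∃ j : K₁ →+* ↥K₂, (algebraMap ↥K₂ QBar).comp j = ι := by
  classical
  have halg : Algebra.IsAlgebraic ℚ QBar := AlgebraicClosure.isAlgebraic ℚ
  haveI : FiniteDimensional ℚ ↥(IntermediateField.adjoin ℚ (S : Set QBar)) :=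
    IntermediateField.finiteDimensional_adjoin
      (fun x _ => (Algebra.IsAlgebraic.isAlgebraic (R := ℚ) x).isIntegral)
  haveI : FiniteDimensional ℚ ↥(ι.toRatAlgHom.fieldRange) :=
    Module.Finite.of_surjective (ι.toRatAlgHom.rangeRestrict.toLinearMap)
      (AlgHom.rangeRestrict_surjective _)
  set KI : IntermediateField ℚ QBar := IntermediateField.fixedField (A.inertiaSubgroupIn ℚ)
    with hKI
  have hKKI : ι.toRatAlgHom.fieldRange ≤ KI := by
    rintro _ ⟨x, rfl⟩
    rw [hKI, IntermediateField.mem_fixedField_iff]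
    intro σ hσ
    exact hunr σ hσ x
  have hSKI : IntermediateField.adjoin ℚ (S : Set QBar) ≤ KI := by
    rw [IntermediateField.adjoin_le_iff]
    intro x hx
    rw [hKI]
    exact (IntermediateField.mem_fixedField_iff _ _).mpr (fun σ hσ => hS x hx σ hσ)
  set K₂ : IntermediateField ℚ QBar :=
    ι.toRatAlgHom.fieldRange ⊔ IntermediateField.adjoin ℚ (S : Set QBar) with hK₂
  have hmem : ∀ x : K₁, ι x ∈ K₂ := fun x =>
    (le_sup_left : ι.toRatAlgHom.fieldRange ≤ K₂) ⟨x, rfl⟩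
  refine ⟨K₂, IntermediateField.finiteDimensional_sup _ _, ?_, ?_, ι.codRestrict K₂ hmem, ?_⟩
  · intro σ hσ x
    exact (IntermediateField.mem_fixedField_iff _ _).mp (sup_le hKKI hSKI x.2) σ hσ
  · intro s hs
    exact (le_sup_right : IntermediateField.adjoin ℚ (S : Set QBar) ≤ K₂)
      (IntermediateField.subset_adjoin ℚ _ hs)
  · exact RingHom.ext fun x => rfl

/-! ### (KC-FF) for inertia-fixed functions -/

/-- **(KC-FF) for `I_A`-fixed functions** at level `M' q²`. -/
def InvNewInvariantFFStatement (M' q : ℕ) [NeZero M'] [NeZero q] : Prop :=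
  ∀ (A : ValuationSubring QBar), A.LiesOverPrime q →
    ∃ c : ℕ, 0 < c ∧ ∀ (m : ℕ), 0 < m → ¬ q ∣ m →
      ∀ f : ↥(modularFunctionFieldBar (M' * q * q)), f ≠ 0 →
        (∀ P : Place QBar ↥(modularFunctionFieldBar (M' * q * q)), (m : ℤ) ∣ P.ord f) →
        (∀ σ ∈ A.inertiaSubgroupIn ℚ,
          arithmeticGalois (modularFunctionFieldFull (M' * q * q)) σ • f = f) →
        (∃ h : ↥(modularFunctionFieldBar (M' * q)),
          h ^ m = ss2NormAlong (heckeAlphaBar QBar (M' * q) q) f) →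
        (∃ h : ↥(modularFunctionFieldBar (M' * q)),
          h ^ m = ss2NormAlong (heckeBetaBar QBar (M' * q) q) f) →
        ∃ w : ↥(modularFunctionFieldBar (M' * q * q)), w ^ m = f ^ c

/-- (KC-FF) from (KC-FF) for inertia-fixed functions (step S0 only). -/
theorem newInvariantFF_of_inv (M' q : ℕ) [NeZero M'] [NeZero q]
    (hI : InvNewInvariantFFStatement M' q) : NewInvariantFFStatement (M' * q) q := by
  classical
  intro A hA
  obtain ⟨c, hc, hinvst⟩ := hI A hA
  refine ⟨c, hc, fun m hm hqm f hf hord hinv hα hβ => ?_⟩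
  obtain ⟨f0, g, hf0, hg, hfg, hfix⟩ :=
    exists_invariant_rep (M' * q * q) (A.inertiaSubgroupIn ℚ) m hm f hf hord hinv
  have hord0 : ∀ P : Place QBar ↥(modularFunctionFieldBar (M' * q * q)),
      (m : ℤ) ∣ P.ord f0 := by
    intro P
    rw [hfg, P.ord_mul hf (pow_ne_zero m hg), ss2_ord_pow]
    exact dvd_add (hord P) (dvd_mul_right _ _)
  have hnorm : ∀ (φ : ↥(modularFunctionFieldBar (M' * q)) →ₐ[QBar]
      ↥(modularFunctionFieldBar (M' * q * q))),
      (∃ h : ↥(modularFunctionFieldBar (M' * q)), h ^ m = ss2NormAlong φ f) →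
      ∃ h : ↥(modularFunctionFieldBar (M' * q)), h ^ m = ss2NormAlong φ f0 := by
    rintro φ ⟨h, hh⟩
    refine ⟨h * ss2NormAlong φ g, ?_⟩
    rw [hfg, ss2NormAlong_mul, ss2NormAlong_pow, mul_pow, hh]
  obtain ⟨w, hw⟩ := hinvst m hm hqm f0 hf0 hord0 hfix (hnorm _ hα) (hnorm _ hβ)
  rw [hfg] at hw
  refine ⟨w * (g ^ c)⁻¹, ?_⟩
  have e : (g ^ c) ^ m = (g ^ m) ^ c := by
    rw [← pow_mul, ← pow_mul, Nat.mul_comm c m]
  have hgc : (g ^ m) ^ c ≠ 0 := pow_ne_zero _ (pow_ne_zero _ hg)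
  calc (w * (g ^ c)⁻¹) ^ m = w ^ m * ((g ^ c) ^ m)⁻¹ := by rw [mul_pow, inv_pow]
    _ = f ^ c * (g ^ m) ^ c * ((g ^ m) ^ c)⁻¹ := by rw [hw, mul_pow, e]
    _ = f ^ c := mul_inv_cancel_right₀ hgc _

/-- The model-level statement in terms of `SS2ModelHyps`. -/
def ModelNewInvHypsStatement (M' q : ℕ) [NeZero M'] [NeZero q] : Prop :=
  ∀ (A : ValuationSubring QBar), A.LiesOverPrime q →
    ∃ c : ℕ, 0 < c ∧
      ∀ (K₁ : Type) [Field K₁] [Algebra ℚ K₁] [FiniteDimensional ℚ K₁] (ι : K₁ →+* QBar)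
        (m : ℕ), 0 < m → ¬ q ∣ m →
        ∀ u : ↥(laurentBaseChange K₁ (modularFunctionFieldFull (M' * q * q))),
          SS2ModelHyps M' q A m K₁ ι u →
          ∃ w : ↥(modularFunctionFieldBar (M' * q * q)),
            w ^ m = (klBc ι (modularFunctionFieldFull (M' * q * q)) u) ^ c

/-- (KC-FF) for inertia-fixed functions from the model-level statement with ALL hypotheses
(`SS2ModelHyps`), (U) and (N). -/
theorem inv_of_modelHyps (M' q : ℕ) [NeZero M'] [NeZero q] (hq : q.Prime)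
    (hU : UnramUniformiserStatement) (hN : NormBaseChangeStatement)
    (hM : ModelNewInvHypsStatement M' q) : InvNewInvariantFFStatement M' q := by
  classical
  intro A hA
  obtain ⟨c, hc, hmodel⟩ := hM A hA
  refine ⟨c, hc, fun m hm hqm f hf hord hfix hα hβ => ?_⟩
  obtain ⟨K, hKfin, hKunr, hζ, f₁, hf₁⟩ :=
    exists_unram_numberField hq A hA (modularFunctionFieldFull (M' * q * q)) m hm hqm f hfix
  haveI := hKfin
  have hf₁0 : f₁ ≠ 0 := by
    rintro rfl
    rw [map_zero] at hf₁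
    exact hf hf₁.symm
  have hyp := ss2_modelHyps_of_bar M' q hq hU hN A hA m hm ↥K (algebraMap ↥K QBar) hKunr hζ
    f₁ hf₁0 (by rw [hf₁]; exact hord) (by rw [hf₁]; exact hα) (by rw [hf₁]; exact hβ)
  obtain ⟨w, hw⟩ := hmodel ↥K (algebraMap ↥K QBar) m hm hqm f₁ hyp
  rw [hf₁] at hw
  exact ⟨w, hw⟩

/-- **DESC, final form**: (KC-FF) at level `M' q²` from the model-level statement with all
hypotheses. -/
theorem newInvariantFF_of_modelHyps (M' q : ℕ) [NeZero M'] [NeZero q] (hq : q.Prime)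
    (hU : UnramUniformiserStatement) (hN : NormBaseChangeStatement)
    (hM : ModelNewInvHypsStatement M' q) : NewInvariantFFStatement (M' * q) q :=
  newInvariantFF_of_inv M' q (inv_of_modelHyps M' q hq hU hN hM)

end Fermat.Agent.H35.SS2
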